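import Fermat.Agent.Two.Brandt.Corr
import Mathlib.Algebra.Algebra.Subalgebra.Basic
import Mathlib.RingTheory.Adjoin.Basic
import Mathlib.Tactic.Abel

/-!
# Changing the coefficients of an algebra of correspondences

An identity between operators of correspondences over `ℤ` holds over every ring, so the algebra
over `ℤ` maps to the algebra over any ring.
-/

set_option autoImplicit false

noncomputable section

namespace Fermat.Agent.Two.Seed

open Brandt

universe u v

variable {G : Type u} [Group G] {ι : Type v} {Λ : Level G ι}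

/-- An equality of operators over `ℤ` gives the equality over every ring. -/
theorem op_eq_op_of_int (R : Type*) [CommRing R] {A B : Corr Λ}
    (h : Corr.op ℤ A = Corr.op ℤ B) : Corr.op R A = Corr.op R B := by
  classical
  have key : ∀ x, (A.nbr x).map cls = (B.nbr x).map cls := fun x => Multiset.ext.mpr fun c => by
    induction c using Quotient.inductionOn' with
    | h y =>
      have e := congrFun (LinearMap.congr_fun h (Pi.single (cls y) 1)) (cls x)
      rw [op_single, op_single] at e
      rw [Multiset.count_map, Multiset.count_map]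
      simp only [entry, Multiset.countP_eq_card_filter, Nat.cast_inj] at e
      convert e using 3 <;> exact eq_comm
  refine LinearMap.ext fun f => funext fun c => ?_
  induction c using Quotient.inductionOn' with
  | h x =>
    show Corr.op R A f (cls x) = Corr.op R B f (cls x)
    rw [Corr.op_apply, Corr.op_apply]
    have e := congrArg (fun m => (Multiset.map f m).sum) (key x)
    simpa [Multiset.map_map, Function.comp_def] using e

/-- The product of two differences. -/
theorem sub_mul_sub {S : Type*} [Ring S] (a b c d : S) :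
    (a - b) * (c - d) = a * c + b * d - (a * d + b * c) := by
  simp only [sub_mul, mul_sub]
  abel

variable {κ : Type*} (K : κ → Corr Λ) (R : Type*) [CommRing R]

theorem exists_diff {S : Module.End ℤ (Cls Λ → ℤ)}
    (hS : S ∈ Algebra.adjoin ℤ (Set.range fun i => Corr.op ℤ (K i))) :
    ∃ A B : Corr Λ, S = Corr.op ℤ A - Corr.op ℤ B ∧
      Corr.op R A - Corr.op R B ∈ Algebra.adjoin R (Set.range fun i => Corr.op R (K i)) := by
  induction hS using Algebra.adjoin_induction with
  | mem S hS =>
    obtain ⟨i, rfl⟩ := hS
    exact ⟨K i, 0, by rw [map_zero, sub_zero],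
      by rw [map_zero, sub_zero]; exact Algebra.subset_adjoin ⟨i, rfl⟩⟩
  | algebraMap r =>
    refine ⟨r.toNat • 1, (-r).toNat • 1, ?_, ?_⟩
    · rw [map_nsmul, map_nsmul, map_one, ← natCast_zsmul (1 : Module.End ℤ (Cls Λ → ℤ)),
        ← natCast_zsmul (1 : Module.End ℤ (Cls Λ → ℤ)), ← sub_smul, Int.toNat_sub_toNat_neg,
        Algebra.algebraMap_eq_smul_one]
    · rw [map_nsmul, map_nsmul, map_one]
      exact sub_mem (nsmul_mem (one_mem _) _) (nsmul_mem (one_mem _) _)
  | add S S' _ _ hS hS' =>
    obtain ⟨A, B, rfl, h⟩ := hS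
    obtain ⟨A', B', rfl, h'⟩ := hS'
    refine ⟨A + A', B + B', by rw [map_add, map_add]; abel, ?_⟩
    rw [map_add, map_add, add_sub_add_comm]
    exact add_mem h h'
  | mul S S' _ _ hS hS' =>
    obtain ⟨A, B, rfl, h⟩ := hS
    obtain ⟨A', B', rfl, h'⟩ := hS'
    refine ⟨A * A' + B * B', A * B' + B * A', ?_, ?_⟩
    · rw [sub_mul_sub, map_add, map_add, map_mul, map_mul, map_mul, map_mul]
    · rw [map_add, map_add, map_mul, map_mul, map_mul, map_mul, ← sub_mul_sub]
      exact mul_mem h h'

/-- **The base change** of an algebra of correspondences. -/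
theorem exists_baseChange :
    ∃ φ : ↥(Algebra.adjoin ℤ (Set.range fun i => Corr.op ℤ (K i))) →+*
        ↥(Algebra.adjoin R (Set.range fun i => Corr.op R (K i))),
      ∀ i, φ ⟨_, Algebra.subset_adjoin ⟨i, rfl⟩⟩ = ⟨_, Algebra.subset_adjoin ⟨i, rfl⟩⟩ := by
  classical
  choose A B hS hmem using fun S : ↥(Algebra.adjoin ℤ (Set.range fun i => Corr.op ℤ (K i))) =>
    exists_diff K R S.2
  have wd : ∀ (S : ↥(Algebra.adjoin ℤ (Set.range fun i => Corr.op ℤ (K i)))) (A' B' : Corr Λ),
      (S : Module.End ℤ (Cls Λ → ℤ)) = Corr.op ℤ A' - Corr.op ℤ B' →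
      Corr.op R (A S) - Corr.op R (B S) = Corr.op R A' - Corr.op R B' := fun S A' B' h => by
    have e : Corr.op ℤ (A S + B') = Corr.op ℤ (A' + B S) := by
      rw [map_add, map_add]
      exact sub_eq_sub_iff_add_eq_add.mp ((hS S).symm.trans h)
    have := op_eq_op_of_int R e
    rw [map_add, map_add] at this
    exact sub_eq_sub_iff_add_eq_add.mpr this
  refine ⟨{
    toFun := fun S => ⟨_, hmem S⟩
    map_one' := ?_
    map_mul' := ?_
    map_zero' := ?_
    map_add' := ?_ }, fun i => ?_⟩
  · exact Subtype.ext ((wd 1 1 0 (by simp)).trans (by simp))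
  · refine fun S S' => Subtype.ext ((wd (S * S') (A S * A S' + B S * B S')
      (A S * B S' + B S * A S') ?_).trans ?_)
    · show (S : Module.End ℤ (Cls Λ → ℤ)) * S' = _
      rw [hS S, hS S']
      simp only [map_add, map_mul, sub_mul, mul_sub]
      abel
    · show _ = (Corr.op R (A S) - Corr.op R (B S)) * (Corr.op R (A S') - Corr.op R (B S'))
      simp only [map_add, map_mul, sub_mul, mul_sub]
      abel
  · exact Subtype.ext ((wd 0 0 0 (by simp)).trans (by simp))
  · refine fun S S' => Subtype.ext ((wd (S + S') (A S + A S') (B S + B S') ?_).trans ?_)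
    · show (S : Module.End ℤ (Cls Λ → ℤ)) + S' = _
      rw [hS S, hS S', map_add, map_add]
      abel
    · show _ = (Corr.op R (A S) - Corr.op R (B S)) + (Corr.op R (A S') - Corr.op R (B S'))
      rw [map_add, map_add]
      abel
  · exact Subtype.ext ((wd _ (K i) 0 (by simp)).trans (by simp))

end Fermat.Agent.Two.Seed
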