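import Mathlib.NumberTheory.NumberField.Basic
import Mathlib.RingTheory.ClassGroup.Basic
import Mathlib.RingTheory.DedekindDomain.Factorization
import Mathlib.RingTheory.DedekindDomain.SelmerGroup
import Mathlib.RingTheory.Ideal.Norm.AbsNorm
import Mathlib.Data.Nat.Prime.Basic

/-!
# Local factors of the class of a principal ideal

For each prime number `p` the `p`-part of the ideal of a field element gives a class; the product
over all `p` is trivial.
-/

set_option autoImplicit false

noncomputable section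

namespace Fermat.Agent.Two.Seed

open IsDedekindDomain UniqueFactorizationMonoid
open scoped NumberField nonZeroDivisors

variable {K : Type*} [Field K] [NumberField K]

/-- The class of a prime. -/
def primeClass (P : HeightOneSpectrum (𝓞 K)) : ClassGroup (𝓞 K) :=
  ClassGroup.mk0 ⟨P.asIdeal, mem_nonZeroDivisors_of_ne_zero P.ne_bot⟩

/-- The exponent of a prime in an element. -/
def primeOrd (P : HeightOneSpectrum (𝓞 K)) (x : Kˣ) : ℤ :=
  -Multiplicative.toAdd (P.valuationOfNeZero x)

theorem primeOrd_mul (P : HeightOneSpectrum (𝓞 K)) (x y : Kˣ) :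
    primeOrd P (x * y) = primeOrd P x + primeOrd P y := by
  rw [primeOrd, map_mul, toAdd_mul, neg_add]; rfl

theorem primeOrd_eq_zero (P : HeightOneSpectrum (𝓞 K)) {x : Kˣ}
    (h : P.valuation K (x : K) = 1) : primeOrd P x = 0 := by
  have h' : P.valuationOfNeZero x = 1 := WithZero.coe_injective (by
    rw [HeightOneSpectrum.valuationOfNeZero_eq, h, WithZero.coe_one])
  rw [primeOrd, h', toAdd_one, neg_zero]

theorem natCast_mem_unique {P : Ideal (𝓞 K)} (hP : P.IsPrime) {p q : Nat.Primes}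
    (hp : ((p : ℕ) : 𝓞 K) ∈ P) (hq : ((q : ℕ) : 𝓞 K) ∈ P) : p = q := by
  by_contra hne
  have hco : (p : ℕ).Coprime q :=
    (Nat.coprime_primes p.2 q.2).mpr fun e => hne (Nat.Primes.coe_nat_injective e)
  obtain ⟨a, b, hab⟩ := Nat.isCoprime_iff_coprime.mpr hco
  refine hP.ne_top ((Ideal.eq_top_iff_one _).mpr ?_)
  have h : ((a * (p : ℕ) + b * (q : ℕ) : ℤ) : 𝓞 K) ∈ P := by
    push_cast
    exact add_mem (Ideal.mul_mem_left _ _ hp) (Ideal.mul_mem_left _ _ hq)
  rwa [hab, Int.cast_one] at h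

theorem finite_primesOf (p : Nat.Primes) :
    {P : HeightOneSpectrum (𝓞 K) | ((p : ℕ) : 𝓞 K) ∈ P.asIdeal}.Finite := by
  have h0 : Ideal.span {((p : ℕ) : 𝓞 K)} ≠ 0 := by
    rw [Ideal.zero_eq_bot, ne_eq, Ideal.span_singleton_eq_bot]
    exact Nat.cast_ne_zero.mpr p.2.ne_zero
  refine (Ideal.finite_factors h0).subset fun P hP => ?_
  rw [Set.mem_ofPred_eq, Ideal.dvd_span_singleton]
  exact hP

variable (K) in
/-- The primes over a prime number. -/
def primesOverNum (p : Nat.Primes) : Finset (HeightOneSpectrum (𝓞 K)) :=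
  (finite_primesOf p).toFinset

theorem mem_primesOverNum {p : Nat.Primes} {P : HeightOneSpectrum (𝓞 K)} :
    P ∈ primesOverNum K p ↔ ((p : ℕ) : 𝓞 K) ∈ P.asIdeal := Set.Finite.mem_toFinset _

/-- The class of the `p`-part of the ideal of an element. -/
def classAt (p : Nat.Primes) : Kˣ →* ClassGroup (𝓞 K) :=
  MonoidHom.mk' (fun x => ∏ P ∈ primesOverNum K p, primeClass P ^ primeOrd P x) fun x y => by
    rw [← Finset.prod_mul_distrib]
    exact Finset.prod_congr rfl fun P _ => by rw [primeOrd_mul, zpow_add]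

theorem classAt_apply (p : Nat.Primes) (x : Kˣ) :
    classAt p x = ∏ P ∈ primesOverNum K p, primeClass P ^ primeOrd P x := rfl

theorem classAt_eq_one {p : Nat.Primes} {x : Kˣ}
    (h : ∀ P ∈ primesOverNum K p, P.valuation K (x : K) = 1) : classAt p x = 1 :=
  Finset.prod_eq_one fun P hP => by rw [primeOrd_eq_zero P (h P hP), zpow_zero]

/-- A prime ideal containing a natural number contains one of its prime factors. -/
theorem exists_prime_natCast_mem {P : Ideal (𝓞 K)} (hP : P.IsPrime) :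
    ∀ n : ℕ, n ≠ 0 → ((n : ℕ) : 𝓞 K) ∈ P → ∃ q : ℕ, q.Prime ∧ q ∣ n ∧ ((q : ℕ) : 𝓞 K) ∈ P := by
  intro n
  induction n using Nat.strong_induction_on with
  | _ n ih =>
    intro hn0 hmem
    have hn1 : n ≠ 1 := fun h => hP.ne_top ((Ideal.eq_top_iff_one _).mpr (by simpa [h] using hmem))
    obtain ⟨q, hq, m, rfl⟩ := Nat.exists_prime_and_dvd hn1
    rw [Nat.cast_mul] at hmem
    rcases hP.mem_or_mem hmem with h | h
    · exact ⟨q, hq, dvd_mul_right q m, h⟩
    · have hm : m ≠ 0 := right_ne_zero_of_mul hn0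
      obtain ⟨r, hr, hrm, hrP⟩ := ih m
        (lt_mul_of_one_lt_left (Nat.pos_of_ne_zero hm) hq.one_lt) hm h
      exact ⟨r, hr, hrm.mul_left q, hrP⟩

/-- The primes dividing the norm of an integral element. -/
theorem exists_prime_dvd_norm {a : 𝓞 K} (ha : a ≠ 0) {P : HeightOneSpectrum (𝓞 K)}
    (h : a ∈ P.asIdeal) :
    ∃ p : Nat.Primes, (p : ℕ) ∈ (Ideal.absNorm (Ideal.span {a})).primeFactors ∧
      ((p : ℕ) : 𝓞 K) ∈ P.asIdeal := by
  set n := Ideal.absNorm (Ideal.span {a}) with hn
  have hn0 : n ≠ 0 := by simp [hn, ha]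
  have hmem : ((n : ℕ) : 𝓞 K) ∈ P.asIdeal :=
    (Ideal.span_singleton_le_iff_mem _).mpr h (Ideal.absNorm_mem _)
  obtain ⟨q, hq, hqn, hqP⟩ := exists_prime_natCast_mem P.isPrime n hn0 hmem
  exact ⟨⟨q, hq⟩, Nat.mem_primeFactors.mpr ⟨hq, hqn, hn0⟩, hqP⟩

theorem maxPowDividing_eq (P : HeightOneSpectrum (𝓞 K)) {a : 𝓞 K} (ha : a ≠ 0)
    (x : Kˣ) (hx : (x : K) = algebraMap (𝓞 K) K a) :
    ∃ n : ℕ, P.maxPowDividing (Ideal.span {a}) = P.asIdeal ^ n ∧ primeOrd P x = n := by
  refine ⟨(Associates.mk P.asIdeal).count (Associates.mk (Ideal.span {a})).factors, rfl, ?_⟩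
  have h := P.valuationOfNeZero_eq (K := K) x
  rw [hx, P.valuation_of_algebraMap, P.intValuation_if_neg ha, WithZero.exp] at h
  rw [primeOrd, WithZero.coe_injective h, toAdd_ofAdd, neg_neg]

/-- A single prime class per place: the classes of an integral element are those of its ideal. -/
theorem exists_classAt_eq_one {a : 𝓞 K} (ha : a ≠ 0) (x : Kˣ) (hx : (x : K) = algebraMap (𝓞 K) K a) :
    ∃ T : Finset Nat.Primes, (∀ p ∉ T, classAt p x = 1) ∧ ∏ p ∈ T, classAt p x = 1 := by
  classical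
  set I : Ideal (𝓞 K) := Ideal.span {a}
  have hI : I ≠ 0 := by rwa [Ideal.zero_eq_bot, ne_eq, Ideal.span_singleton_eq_bot]
  set T : Finset Nat.Primes := (Ideal.absNorm I).primeFactors.subtype Nat.Prime
  choose e he hord using fun P => maxPowDividing_eq P ha x hx
  have hzero : ∀ P : HeightOneSpectrum (𝓞 K), a ∉ P.asIdeal → e P = 0 := fun P hP => by
    have h := primeOrd_eq_zero P (x := x) (by
      rw [hx, P.valuation_of_algebraMap]
      refine le_antisymm (P.intValuation_le_one a) (not_lt.mp fun hlt => hP ?_)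
      exact (P.intValuation_lt_one_iff_mem a).mp hlt)
    rw [hord] at h
    exact_mod_cast h
  refine ⟨T, fun p hp => Finset.prod_eq_one fun P hP => ?_, ?_⟩
  · rw [hord, hzero P fun hmem => hp ?_, Nat.cast_zero, zpow_zero]
    obtain ⟨q, hq, hqP⟩ := exists_prime_dvd_norm ha hmem
    rw [natCast_mem_unique P.isPrime (mem_primesOverNum.mp hP) hqP]
    exact Finset.mem_subtype.mpr hq
  · have hdisj : (T : Set Nat.Primes).PairwiseDisjoint (primesOverNum K) := fun p _ q _ hne =>
      Finset.disjoint_left.mpr fun P hP hP' =>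
        hne (natCast_mem_unique P.isPrime (mem_primesOverNum.mp hP) (mem_primesOverNum.mp hP'))
    simp only [classAt_apply, hord, zpow_natCast]
    rw [← Finset.prod_biUnion hdisj]
    set S := T.biUnion (primesOverNum K)
    have hsupp : Function.mulSupport (fun P : HeightOneSpectrum (𝓞 K) => P.maxPowDividing I) ⊆
        ↑S := fun P hP => by
      by_contra hS
      refine hP ?_
      show P.maxPowDividing I = 1
      rw [he, hzero P fun hmem => hS ?_, pow_zero]
      obtain ⟨q, hq, hqP⟩ := exists_prime_dvd_norm ha hmem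
      exact Finset.mem_biUnion.mpr
        ⟨q, Finset.mem_subtype.mpr hq, mem_primesOverNum.mpr hqP⟩
    have hprod := Ideal.finprod_heightOneSpectrum_factorization hI
    rw [finprod_eq_prod_of_mulSupport_subset _ hsupp] at hprod
    have key : ∀ S' : Finset (HeightOneSpectrum (𝓞 K)),
        ∃ h : ∏ P ∈ S', P.maxPowDividing I ∈ (Ideal (𝓞 K))⁰,
          ClassGroup.mk0 ⟨_, h⟩ = ∏ P ∈ S', primeClass P ^ e P := by
      intro S'
      induction S' using Finset.induction_on with
      | empty =>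
        refine ⟨by simp, ?_⟩
        conv_rhs => rw [Finset.prod_empty]
        exact (congrArg ClassGroup.mk0 (Subtype.ext (Finset.prod_empty (f := fun P : HeightOneSpectrum (𝓞 K) => P.maxPowDividing I)))).trans (map_one _)
      | insert P S' hP ih =>
        obtain ⟨h, ih⟩ := ih
        have h1 : P.maxPowDividing I ∈ (Ideal (𝓞 K))⁰ := by
          rw [he]; exact pow_mem (mem_nonZeroDivisors_of_ne_zero P.ne_bot) _
        have h2 : ∏ Q ∈ insert P S', Q.maxPowDividing I ∈ (Ideal (𝓞 K))⁰ := by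
          rw [Finset.prod_insert hP]; exact mul_mem h1 h
        refine ⟨h2, ?_⟩
        conv_rhs => rw [Finset.prod_insert hP, ← ih, primeClass, ← map_pow, ← map_mul]
        refine congrArg _ (Subtype.ext ?_)
        show ∏ Q ∈ insert P S', Q.maxPowDividing I = P.asIdeal ^ e P * _
        rw [Finset.prod_insert hP, he]
    obtain ⟨h, hkey⟩ := key S
    rw [← hkey, ClassGroup.mk0_eq_one_iff]
    rw [hprod]
    exact ⟨⟨a, rfl⟩⟩

theorem finite_mulSupport_classAt (x : Kˣ) :
    (Function.mulSupport fun p => classAt p x).Finite := by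
  obtain ⟨a, b, hb, hab⟩ := IsFractionRing.div_surjective (A := 𝓞 K) (x : K)
  have hb0 : b ≠ 0 := nonZeroDivisors.ne_zero hb
  have ha0 : a ≠ 0 := fun h => x.ne_zero (by rw [← hab, h, map_zero, zero_div])
  set y : Kˣ := Units.mk0 (algebraMap (𝓞 K) K b) (by simpa using hb0)
  set z : Kˣ := Units.mk0 (algebraMap (𝓞 K) K a) (by simpa using ha0)
  have hx : x = z * y⁻¹ := by
    ext; simp [y, z, ← hab, div_eq_mul_inv]
  obtain ⟨T, hT, -⟩ := exists_classAt_eq_one hb0 y rfl
  obtain ⟨T', hT', -⟩ := exists_classAt_eq_one ha0 z rfl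
  classical
  refine (T ∪ T').finite_toSet.subset fun p hp => ?_
  by_contra h
  rw [Finset.mem_coe, Finset.mem_union, not_or] at h
  exact hp (show classAt p x = 1 by
    rw [hx, map_mul, map_inv, hT p h.1, hT' p h.2, inv_one, one_mul])

/-- **The product formula.** -/
theorem finprod_classAt (x : Kˣ) : ∏ᶠ p, classAt p x = 1 := by
  obtain ⟨a, b, hb, hab⟩ := IsFractionRing.div_surjective (A := 𝓞 K) (x : K)
  have hb0 : b ≠ 0 := nonZeroDivisors.ne_zero hb
  have ha0 : a ≠ 0 := fun h => x.ne_zero (by rw [← hab, h, map_zero, zero_div])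
  set y : Kˣ := Units.mk0 (algebraMap (𝓞 K) K b) (by simpa using hb0)
  set z : Kˣ := Units.mk0 (algebraMap (𝓞 K) K a) (by simpa using ha0)
  have hx : x = z * y⁻¹ := by
    ext; simp [y, z, ← hab, div_eq_mul_inv]
  have one : ∀ (c : 𝓞 K) (_ : c ≠ 0) (w : Kˣ), (w : K) = algebraMap (𝓞 K) K c →
      ∏ᶠ p, classAt p w = 1 := fun c hc w hw => by
    obtain ⟨T, hT, hprod⟩ := exists_classAt_eq_one hc w hw
    rw [finprod_eq_prod_of_mulSupport_subset _ (s := T) fun p hp => by
      by_contra h; exact hp (hT p h)]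
    exact hprod
  have h1 := one a ha0 z rfl
  have h2 : ∏ᶠ p, classAt p (x * y) = 1 := by rw [hx, inv_mul_cancel_right]; exact h1
  simp only [map_mul] at h2
  rw [finprod_mul_distrib (finite_mulSupport_classAt x) (finite_mulSupport_classAt y),
    one b hb0 y rfl, mul_one] at h2
  exact h2

end Fermat.Agent.Two.Seed
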