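import Fermat.Agent.Two.Seed.Good
import Fermat.Agent.Two.Seed.ClassChar
import Mathlib.FieldTheory.Galois.Basic
import Mathlib.LinearAlgebra.Dimension.Finrank

/-!
# The units of `K` inside an abstract quadratic field

A quadratic number field with a square root of `D` receives the units of `K`.  At a split prime the
element of a root of the norm form generates one of the two primes locally.
-/

set_option autoImplicit false

noncomputable section

namespace Fermat.Agent.Two.Seed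

open Brandt IsDedekindDomain Polynomial
open scoped NumberField nonZeroDivisors WithZero

variable (P : Param) (K : Type*) [Field K] [NumberField K]

/-- A quadratic field with a square root of `D`. -/
structure SqrtD where
  d : K
  sq : d ^ 2 = (P.D : K)
  finrank_eq : Module.finrank ℚ K = 2

variable {P K}

namespace SqrtD

variable (Φ : SqrtD P K)

/-- The generator of the integers. -/
def ω : K := (1 + Φ.d) / 2

theorem ω_sq : Φ.ω ^ 2 = Φ.ω + (P.c : K) := by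
  have h := Φ.sq
  rw [P.hc] at h
  push_cast at h
  rw [ω]
  field_simp
  linear_combination h

theorem isIntegral_ω : IsIntegral ℤ Φ.ω := by
  refine ⟨X ^ 2 - X - C P.c, by monicity!, ?_⟩
  rw [eval₂_sub, eval₂_sub, eval₂_X_pow, eval₂_X, eval₂_C, Φ.ω_sq, eq_intCast]
  simp

/-- The generator as an algebraic integer. -/
def ωInt : 𝓞 K := ⟨Φ.ω, Φ.isIntegral_ω⟩

theorem coe_ωInt : algebraMap (𝓞 K) K Φ.ωInt = Φ.ω := rfl

/-- The map on the first summand. -/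
def toK (z : P.B) : K := (z.re : K) + (z.imI : K) * Φ.ω

theorem toK_mul {z w : P.B} (hz : z.imJ = 0 ∧ z.imK = 0) (hw : w.imJ = 0 ∧ w.imK = 0) :
    Φ.toK (z * w) = Φ.toK z * Φ.toK w := by
  simp only [toK, QuaternionAlgebra.re_mul, QuaternionAlgebra.imI_mul, hz.1, hz.2, hw.1, hw.2]
  push_cast
  linear_combination -(z.imI : K) * (w.imI : K) * Φ.ω_sq

theorem toK_mul_star {z : P.B} (hz : z.imJ = 0 ∧ z.imK = 0) :
    Φ.toK z * Φ.toK (star z) = ((P.nrd z : ℚ) : K) := by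
  simp only [toK, QuaternionAlgebra.re_star, QuaternionAlgebra.imI_star, P.nrd_def, hz.1, hz.2]
  push_cast
  linear_combination -(z.imI : K) * (z.imI : K) * Φ.ω_sq

theorem toK_ne_zero {u : P.Bˣ} (hu : u ∈ P.fieldUnits) : Φ.toK (u : P.B) ≠ 0 := fun h => by
  have h' := Φ.toK_mul_star (P.mem_fieldUnits.mp hu)
  rw [h, zero_mul] at h'
  exact (P.nrd_unit_pos u).ne' (Rat.cast_injective (α := K) (h'.symm.trans Rat.cast_zero.symm))

/-- The units of `K` as units of the field. -/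
def hom : P.fieldUnits →* Kˣ :=
  MonoidHom.mk' (fun u => Units.mk0 (Φ.toK ((u : P.Bˣ) : P.B)) (Φ.toK_ne_zero u.2)) fun u v =>
    Units.ext (Φ.toK_mul (P.mem_fieldUnits.mp u.2) (P.mem_fieldUnits.mp v.2))

theorem coe_hom (u : P.fieldUnits) : (Φ.hom u : K) = Φ.toK ((u : P.Bˣ) : P.B) := rfl

theorem exists_conj : ∃ σ : K ≃ₐ[ℚ] K, σ Φ.d = -Φ.d := by
  have : Algebra.IsQuadraticExtension ℚ K := ⟨Φ.finrank_eq⟩
  by_contra hno
  push Not at hno
  have hfix : ∀ σ : K ≃ₐ[ℚ] K, σ Φ.d = Φ.d := fun σ => by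
    have h : σ Φ.d ^ 2 = Φ.d ^ 2 := by rw [← map_pow, Φ.sq, map_intCast]
    exact (sq_eq_sq_iff_eq_or_eq_neg.mp h).resolve_right (hno σ)
  obtain ⟨q, hq⟩ := IntermediateField.mem_bot.mp ((IsGalois.mem_bot_iff_fixed Φ.d).mpr hfix)
  have h := Φ.sq
  rw [← hq, eq_ratCast, ← Rat.cast_pow, ← Rat.cast_intCast] at h
  have h' : q ^ 2 = (P.D : ℚ) := Rat.cast_injective h
  have hD : (P.D : ℚ) < 0 := by exact_mod_cast P.hD
  nlinarith [sq_nonneg q]

/-- The conjugation. -/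
def σ : K ≃ₐ[ℚ] K := Φ.exists_conj.choose

theorem σ_d : Φ.σ Φ.d = -Φ.d := Φ.exists_conj.choose_spec

theorem σ_ω : Φ.σ Φ.ω = 1 - Φ.ω := by
  rw [ω, map_div₀, map_add, map_one, Φ.σ_d, map_ofNat]; field_simp; ring

theorem σ_toK (z : P.B) (hz : z.imJ = 0 ∧ z.imK = 0) : Φ.σ (Φ.toK z) = Φ.toK (star z) := by
  simp only [toK, map_add, map_mul, map_ratCast, Φ.σ_ω, QuaternionAlgebra.re_star,
    QuaternionAlgebra.imI_star]
  push_cast
  ring

theorem natCast_notMem {p : Nat.Primes} {c : ℕ} (hc : ¬ (p : ℕ) ∣ c)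
    {Q : HeightOneSpectrum (𝓞 K)} (hp : ((p : ℕ) : 𝓞 K) ∈ Q.asIdeal) :
    ((c : ℕ) : 𝓞 K) ∉ Q.asIdeal := fun h => by
  obtain ⟨a, b, hab⟩ := Nat.isCoprime_iff_coprime.mpr (p.2.coprime_iff_not_dvd.mpr hc)
  refine Q.isPrime.ne_top ((Ideal.eq_top_iff_one _).mpr ?_)
  have h1 : ((a * (p : ℕ) + b * c : ℤ) : 𝓞 K) ∈ Q.asIdeal := by
    push_cast
    exact add_mem (Ideal.mul_mem_left _ _ hp) (Ideal.mul_mem_left _ _ h)
  rwa [hab, Int.cast_one] at h1

/-- An element of the local order has valuation at most one at the primes over `p`. -/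
theorem valuation_le_one {p : Nat.Primes} {z : P.B} (hz : z ∈ P.localOrder p)
    (h0 : z.imJ = 0 ∧ z.imK = 0) {Q : HeightOneSpectrum (𝓞 K)}
    (hp : ((p : ℕ) : 𝓞 K) ∈ Q.asIdeal) : Q.valuation K (Φ.toK z) ≤ 1 := by
  obtain ⟨c, hc, w, hw⟩ := hz
  have hre := congrArg QuaternionAlgebra.re hw
  have hI := congrArg QuaternionAlgebra.imI hw
  rw [← Nat.cast_smul_eq_nsmul ℚ] at hre hI
  simp [Param.elem] at hre hI
  have e : algebraMap (𝓞 K) K (c : ℕ) * Φ.toK z =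
      algebraMap (𝓞 K) K ((w 0 : ℤ) + (w 1 : ℤ) * Φ.ωInt) := by
    rw [toK, map_natCast, map_add, map_mul, map_intCast, map_intCast, Φ.coe_ωInt]
    have hre' := congrArg (fun q : ℚ => (q : K)) hre
    have hI' := congrArg (fun q : ℚ => (q : K)) hI
    push_cast at hre' hI'
    linear_combination -hre' - Φ.ω * hI'
  have h1 : Q.valuation K (algebraMap (𝓞 K) K ((c : ℕ) : 𝓞 K)) = 1 := by
    rw [Q.valuation_of_algebraMap]
    exact le_antisymm (Q.intValuation_le_one _)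
      (not_lt.mp fun hlt => natCast_notMem hc hp ((Q.intValuation_lt_one_iff_mem _).mp hlt))
  have := congrArg (Q.valuation K) e
  rw [map_mul, h1, one_mul] at this
  rw [this, Q.valuation_of_algebraMap]
  exact Q.intValuation_le_one _

/-- A local unit of `K` is a unit at the primes over `p`. -/
theorem valuation_eq_one {p : Nat.Primes} {h : P.fieldUnits}
    (hh : (h : P.Bˣ) ∈ P.localUnits p) {Q : HeightOneSpectrum (𝓞 K)}
    (hp : ((p : ℕ) : 𝓞 K) ∈ Q.asIdeal) : Q.valuation K (Φ.hom h : K) = 1 := by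
  refine le_antisymm (Φ.valuation_le_one hh.1 (P.mem_fieldUnits.mp h.2) hp) ?_
  have hi := Φ.valuation_le_one (inv_mem hh : ((h⁻¹ : P.fieldUnits) : P.Bˣ) ∈ P.localUnits p).1
    (P.mem_fieldUnits.mp (h⁻¹).2) hp
  rw [← Subgroup.coe_inv, ← coe_hom Φ (h⁻¹), map_inv, Units.val_inv_eq_inv_val, map_inv₀] at hi
  exact (inv_le_one₀ (zero_lt_iff.mpr ((Valuation.ne_zero_iff _).mpr (Φ.hom h).ne_zero))).mp hi

theorem classAt_eq_one_of_mem {p : Nat.Primes} {h : P.fieldUnits}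
    (hh : (h : P.Bˣ) ∈ P.localUnits p) : classAt p (Φ.hom h) = 1 :=
  classAt_eq_one fun _ hQ => Φ.valuation_eq_one hh (mem_primesOverNum.mp hQ)

theorem toK_star_π {l : Nat.Primes} (ρ : P.SplitRoot l) :
    Φ.toK (ρ.π : P.B) = algebraMap (𝓞 K) K ((ρ.r : 𝓞 K) - Φ.ωInt) ∧
      Φ.toK (ρ.πbar : P.B) = algebraMap (𝓞 K) K ((ρ.r : 𝓞 K) - 1 + Φ.ωInt) := by
  constructor <;>
    simp [toK, Param.SplitRoot.π, Param.SplitRoot.πbar, Param.elem, map_sub, map_add,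
      Φ.coe_ωInt] <;> ring

/-- **The primes over a split prime**, each locally generated by the element of the root or its
conjugate. -/
theorem exists_split {l : Nat.Primes} (ρ : P.SplitRoot l) :
    ∃ Q₁ Q₂ : HeightOneSpectrum (𝓞 K),
      (∀ Q : HeightOneSpectrum (𝓞 K), ((l : ℕ) : 𝓞 K) ∈ Q.asIdeal → Q = Q₁ ∨ Q = Q₂) ∧
      classAt l (Φ.hom ⟨ρ.π, ρ.π_mem⟩) = primeClass Q₁ ∧
      classAt l (Φ.hom ⟨ρ.πbar, ρ.πbar_mem⟩) = primeClass Q₂ ∧
      primeOrd Q₁ (Φ.hom ⟨ρ.π, ρ.π_mem⟩) = 1 ∧ primeOrd Q₂ (Φ.hom ⟨ρ.π, ρ.π_mem⟩) = 0 ∧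
      ((l : ℕ) : 𝓞 K) ∈ Q₁.asIdeal ∧ ((l : ℕ) : 𝓞 K) ∈ Q₂.asIdeal ∧ Q₁ ≠ Q₂ := by
  classical
  set x : 𝓞 K := (ρ.r : 𝓞 K) - Φ.ωInt with hxdef
  set y : 𝓞 K := (ρ.r : 𝓞 K) - 1 + Φ.ωInt with hydef
  obtain ⟨m, hm⟩ := ρ.dvd
  have hml : ¬ ((l : ℕ) : ℤ) ∣ m := fun h => ρ.not_sq_dvd (by
    rw [hm, pow_two]; exact mul_dvd_mul_left _ h)
  have hxy : x * y = ((l : ℕ) : 𝓞 K) * (m : 𝓞 K) := by
    refine NumberField.RingOfIntegers.coe_injective ?_
    have hc := congrArg (fun n : ℤ => (n : K)) hm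
    simp only [hxdef, hydef, map_mul, map_sub, map_add, map_one, map_natCast, map_intCast,
      Φ.coe_ωInt]
    push_cast at hc
    linear_combination hc - Φ.ω_sq
  let τ : 𝓞 K ≃+* 𝓞 K := NumberField.RingOfIntegers.mapRingEquiv Φ.σ.toRingEquiv
  have hτy : τ y = x := by
    refine NumberField.RingOfIntegers.coe_injective ?_
    show Φ.σ (algebraMap (𝓞 K) K y) = algebraMap (𝓞 K) K x
    simp only [hxdef, hydef, map_sub, map_add, map_one, map_intCast, Φ.coe_ωInt, Φ.σ_ω]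
    ring
  have hτx : τ x = y := by
    refine NumberField.RingOfIntegers.coe_injective ?_
    show Φ.σ (algebraMap (𝓞 K) K x) = algebraMap (𝓞 K) K y
    simp only [hxdef, hydef, map_sub, map_intCast, map_add, map_one, Φ.coe_ωInt, Φ.σ_ω]
    ring
  -- the images of primes under the conjugation
  have himg : ∀ {A : Ideal (𝓞 K)}, A.IsMaximal → ((l : ℕ) : 𝓞 K) ∈ A →
      (A.map τ).IsMaximal ∧ ((l : ℕ) : 𝓞 K) ∈ A.map τ := fun {A} hA hl =>
    ⟨Ideal.map_isMaximal_of_equiv τ, by simpa using Ideal.mem_map_of_mem τ hl⟩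
  have hl0 : ((l : ℕ) : 𝓞 K) ≠ 0 := Nat.cast_ne_zero.mpr l.2.ne_zero
  have hnorm : Ideal.absNorm (Ideal.span {((l : ℕ) : 𝓞 K)}) = (l : ℕ) ^ 2 := by
    rw [Ideal.absNorm_span_singleton,
      show ((l : ℕ) : 𝓞 K) = algebraMap ℤ (𝓞 K) (((l : ℕ) : ℤ)) by rw [map_natCast],
      Algebra.norm_algebraMap, NumberField.RingOfIntegers.rank, Φ.finrank_eq, Int.natAbs_pow,
      Int.natAbs_natCast]
  have hlne : Ideal.span {((l : ℕ) : 𝓞 K)} ≠ ⊤ := fun h => by
    rw [h, Ideal.absNorm_top] at hnorm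
    exact absurd hnorm.symm (Nat.pow_eq_one.not.mpr (by simp [l.2.ne_one]))
  obtain ⟨A₀, hA₀, hA₀l⟩ := Ideal.exists_le_maximal _ hlne
  rw [Ideal.span_singleton_le_iff_mem] at hA₀l
  obtain ⟨A, hA, hAl, hxA⟩ : ∃ A : Ideal (𝓞 K), A.IsMaximal ∧ ((l : ℕ) : 𝓞 K) ∈ A ∧ x ∈ A := by
    rcases hA₀.isPrime.mem_or_mem (show x * y ∈ A₀ by
      rw [hxy]; exact Ideal.mul_mem_right _ _ hA₀l) with h | h
    · exact ⟨A₀, hA₀, hA₀l, h⟩
    · exact ⟨A₀.map τ, (himg hA₀ hA₀l).1, (himg hA₀ hA₀l).2, hτy ▸ Ideal.mem_map_of_mem τ h⟩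
  obtain ⟨hB, hBl⟩ := himg hA hAl
  set B := A.map τ
  have hyB : y ∈ B := hτx ▸ Ideal.mem_map_of_mem τ hxA
  have hsimple : ∀ I : Ideal (𝓞 K), I.IsPrime → ((l : ℕ) : 𝓞 K) ∈ I → x ∈ I → y ∉ I := by
    intro I hI hlI hxI hyI
    obtain ⟨a, b, hab⟩ : IsCoprime (((l : ℕ) : ℤ)) (2 * ρ.r - 1) :=
      (Nat.prime_iff_prime_int.mp l.2).coprime_iff_not_dvd.mpr ρ.simple
    refine hI.ne_top ((Ideal.eq_top_iff_one _).mpr ?_)
    have h1 : ((a * (l : ℕ) + b * (2 * ρ.r - 1) : ℤ) : 𝓞 K) ∈ I := by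
      push_cast
      refine add_mem (Ideal.mul_mem_left _ _ hlI) (Ideal.mul_mem_left _ _ ?_)
      rw [show (2 * (ρ.r : 𝓞 K) - 1) = x + y by rw [hxdef, hydef]; ring]
      exact add_mem hxI hyI
    rwa [hab, Int.cast_one] at h1
  have hne : A ≠ B := fun e => hsimple A hA.isPrime hAl hxA (e ▸ hyB)
  have hA0 : A ≠ ⊥ := fun e => hl0 (by rw [e] at hAl; simpa using hAl)
  have hB0 : B ≠ ⊥ := fun e => hl0 (by rw [e] at hBl; simpa using hBl)
  -- the factorisation of `l`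
  have hfac : Ideal.span {((l : ℕ) : 𝓞 K)} = A * B := by
    have hle : Ideal.span {((l : ℕ) : 𝓞 K)} ≤ A * B := by
      rw [Ideal.mul_eq_inf_of_coprime (hA.coprime_of_ne hB hne),
        Ideal.span_singleton_le_iff_mem]
      exact ⟨hAl, hBl⟩
    obtain ⟨J, hJ⟩ := Ideal.dvd_iff_le.mpr hle
    have h := hnorm
    rw [hJ, map_mul, map_mul] at h
    have hgt : ∀ C : Ideal (𝓞 K), C.IsMaximal → Ideal.absNorm C ∣ (l : ℕ) ^ 2 →
        (l : ℕ) ≤ Ideal.absNorm C := fun C hC hd => by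
      obtain ⟨i, hi, e⟩ := (Nat.dvd_prime_pow l.2).mp hd
      rw [e]
      rcases i with _ | i
      · exact absurd (Ideal.absNorm_eq_one_iff.mp (by simpa using e)) hC.ne_top
      · exact Nat.le_self_pow (by omega) _
    have h1 := hgt A hA ⟨_, by rw [← h, mul_assoc]⟩
    have h2 := hgt B hB ⟨Ideal.absNorm A * Ideal.absNorm J, by rw [← h]; ring⟩
    have hJ1 : Ideal.absNorm J = 1 := by
      have hpos : 0 < (l : ℕ) ^ 2 := pow_pos l.2.pos 2
      have hle' : (l : ℕ) ^ 2 ≤ Ideal.absNorm A * Ideal.absNorm B := by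
        rw [pow_two]; exact Nat.mul_le_mul h1 h2
      rcases Nat.lt_or_ge (Ideal.absNorm J) 2 with hlt | hge
      · rcases Nat.eq_zero_or_pos (Ideal.absNorm J) with e | e
        · rw [e, mul_zero] at h; omega
        · omega
      · have := Nat.mul_le_mul hle' hge
        omega
    rw [hJ, Ideal.absNorm_eq_one_iff.mp hJ1, Ideal.mul_top]
  let Q₁ : HeightOneSpectrum (𝓞 K) := ⟨A, hA.isPrime, hA0⟩
  let Q₂ : HeightOneSpectrum (𝓞 K) := ⟨B, hB.isPrime, hB0⟩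
  have hover : ∀ Q : HeightOneSpectrum (𝓞 K), ((l : ℕ) : 𝓞 K) ∈ Q.asIdeal → Q = Q₁ ∨ Q = Q₂ := by
    intro Q hQ
    have hle : A * B ≤ Q.asIdeal := hfac ▸ (Ideal.span_singleton_le_iff_mem _).mpr hQ
    rcases Q.isPrime.mul_le.mp hle with h | h
    · exact Or.inl (HeightOneSpectrum.ext (hA.eq_of_le Q.isPrime.ne_top h).symm)
    · exact Or.inr (HeightOneSpectrum.ext (hB.eq_of_le Q.isPrime.ne_top h).symm)
  have hordl : ∀ (Q : HeightOneSpectrum (𝓞 K)) (C : Ideal (𝓞 K)), C.IsMaximal →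
      Q.asIdeal ≠ C → Ideal.span {((l : ℕ) : 𝓞 K)} = Q.asIdeal * C →
      Q.valuation K (algebraMap (𝓞 K) K ((l : ℕ) : 𝓞 K)) = WithZero.exp (-(1 : ℤ)) := by
    intro Q C hC hQC e
    rw [Q.valuation_of_algebraMap]
    refine le_antisymm ?_ ?_
    · have := (Q.intValuation_le_pow_iff_mem ((l : ℕ) : 𝓞 K) 1).mpr (by
        rw [pow_one]
        exact Ideal.mul_le_left (J := C) (e ▸ Ideal.mem_span_singleton_self _))
      simpa using this
    · by_contra hlt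
      rw [not_le] at hlt
      have h2 : ((l : ℕ) : 𝓞 K) ∈ Q.asIdeal ^ 2 := (Q.intValuation_le_pow_iff_mem _ 2).mp (by
        have hne0 := Q.intValuation_ne_zero _ hl0
        rw [← WithZero.exp_log hne0, WithZero.exp_lt_exp] at hlt
        rw [← WithZero.exp_log hne0, WithZero.exp_le_exp]
        omega)
      rw [← Ideal.span_singleton_le_iff_mem, e, ← Ideal.dvd_iff_le, pow_two,
        mul_dvd_mul_iff_left Q.ne_bot, Ideal.dvd_iff_le] at h2
      exact hQC (hC.eq_of_le Q.isPrime.ne_top h2).symm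
  have hmQ : ∀ Q : HeightOneSpectrum (𝓞 K), ((l : ℕ) : 𝓞 K) ∈ Q.asIdeal →
      Q.valuation K (algebraMap (𝓞 K) K (m : 𝓞 K)) = 1 := fun Q hQ => by
    rw [Q.valuation_of_algebraMap]
    refine le_antisymm (Q.intValuation_le_one _) (not_lt.mp fun hlt => ?_)
    have hmem := (Q.intValuation_lt_one_iff_mem _).mp hlt
    obtain ⟨a, b, hab⟩ := (Nat.prime_iff_prime_int.mp l.2).coprime_iff_not_dvd.mpr hml
    refine Q.isPrime.ne_top ((Ideal.eq_top_iff_one _).mpr ?_)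
    have h1 : ((a * (l : ℕ) + b * m : ℤ) : 𝓞 K) ∈ Q.asIdeal := by
      push_cast
      exact add_mem (Ideal.mul_mem_left _ _ hQ) (Ideal.mul_mem_left _ _ hmem)
    rwa [hab, Int.cast_one] at h1
  have hordout : ∀ (Q : HeightOneSpectrum (𝓞 K)) (a : 𝓞 K) (u : Kˣ), a ∉ Q.asIdeal →
      (u : K) = algebraMap (𝓞 K) K a → primeOrd Q u = 0 := fun Q a u ha hu => by
    refine primeOrd_eq_zero Q ?_
    rw [hu, Q.valuation_of_algebraMap]
    exact le_antisymm (Q.intValuation_le_one _)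
      (not_lt.mp fun h => ha ((Q.intValuation_lt_one_iff_mem _).mp h))
  have hordin : ∀ (Q : HeightOneSpectrum (𝓞 K)) (C : Ideal (𝓞 K)) (a b : 𝓞 K) (u : Kˣ),
      ((l : ℕ) : 𝓞 K) ∈ Q.asIdeal → C.IsMaximal →
      Q.asIdeal ≠ C → Ideal.span {((l : ℕ) : 𝓞 K)} = Q.asIdeal * C →
      a * b = ((l : ℕ) : 𝓞 K) * (m : 𝓞 K) → b ∉ Q.asIdeal →
      (u : K) = algebraMap (𝓞 K) K a → primeOrd Q u = 1 := by
    intro Q C a b u hQ hC hQC e hab hb hu
    have h := congrArg (fun t => Q.valuation K (algebraMap (𝓞 K) K t)) hab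
    simp only [map_mul] at h
    have hb1 : Q.valuation K (algebraMap (𝓞 K) K b) = 1 := by
      rw [Q.valuation_of_algebraMap]
      exact le_antisymm (Q.intValuation_le_one _)
        (not_lt.mp fun h => hb ((Q.intValuation_lt_one_iff_mem _).mp h))
    rw [hb1, mul_one, hordl Q C hC hQC e, hmQ Q hQ, mul_one, ← hu,
      ← HeightOneSpectrum.valuationOfNeZero_eq] at h
    have h' : Q.valuationOfNeZero u = Multiplicative.ofAdd (-(1 : ℤ)) :=
      WithZero.coe_injective h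
    rw [primeOrd, h', toAdd_ofAdd, neg_neg]
  set π : P.fieldUnits := ⟨ρ.π, ρ.π_mem⟩
  set πb : P.fieldUnits := ⟨ρ.πbar, ρ.πbar_mem⟩
  have hπ : (Φ.hom π : K) = algebraMap (𝓞 K) K x := (Φ.toK_star_π ρ).1
  have hπb : (Φ.hom πb : K) = algebraMap (𝓞 K) K y := (Φ.toK_star_π ρ).2
  have hxB : x ∉ B := fun h => hsimple B hB.isPrime hBl h hyB
  have hyA : y ∉ A := fun h => hsimple A hA.isPrime hAl hxA h
  have o1 : primeOrd Q₁ (Φ.hom π) = 1 := hordin Q₁ B x y _ hAl hB hne hfac hxy hyA hπ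
  have o2 : primeOrd Q₂ (Φ.hom π) = 0 := hordout Q₂ x _ hxB hπ
  have o3 : primeOrd Q₁ (Φ.hom πb) = 0 := hordout Q₁ y _ hyA hπb
  have o4 : primeOrd Q₂ (Φ.hom πb) = 1 :=
    hordin Q₂ A y x _ hBl hA hne.symm (by rw [hfac, mul_comm]) (by rw [mul_comm, hxy]) hxB hπb
  have hQ12 : Q₁ ≠ Q₂ := fun e => hne (congrArg HeightOneSpectrum.asIdeal e)
  have hset : primesOverNum K l = {Q₁, Q₂} := Finset.ext fun Q => by
    rw [mem_primesOverNum, Finset.mem_insert, Finset.mem_singleton]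
    exact ⟨hover Q, fun h => by rcases h with rfl | rfl <;> assumption⟩
  refine ⟨Q₁, Q₂, hover, ?_, ?_, o1, o2, hAl, hBl, hQ12⟩
  · rw [classAt_apply, hset, Finset.prod_pair hQ12, o1, o2, zpow_one, zpow_zero, mul_one]
  · rw [classAt_apply, hset, Finset.prod_pair hQ12, o3, o4, zpow_one, zpow_zero, one_mul]

end SqrtD

end Fermat.Agent.Two.Seed
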