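import Fermat.Agent.Two.Seed.Char
import Mathlib.Tactic.LinearCombination

/-!
# Symmetrising under an element normalising `H`

An element `j` normalising `H`, with square in `H` and preserving the points locally in the orbits
of the base cosets, makes `x ↦ ψ x + ψ (j x)` invariant under `H ∪ H j`.
-/

set_option autoImplicit false

noncomputable section

namespace Fermat.Agent.Two.Seed

open Brandt

universe u v

variable {G : Type u} [Group G] {ι : Type v} {Λ : Level G ι} {s : Invol Λ}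
  {F : Type*} [CommRing F] (c : Chars s F)

/-- An element normalising `H` and preserving the orbits of the base cosets. -/
structure Twist where
  j : G
  conj : c.H → c.H
  conj_eq : ∀ h : c.H, j * (h : G) = (conj h : G) * j
  sq_mem : j * j ∈ c.H
  orb0 : ∀ p, c.Orb p (j • c.x0.val p)
  orb1 : ∀ p ∈ c.V, c.Orb p (j • c.x1 p)

namespace Twist

variable {c} (T : Twist c)

theorem orb {p : ι} {d : G ⧸ Λ.U p} (hd : c.Orb p d) : c.Orb p (T.j • d) := by
  rcases hd with ⟨h, rfl⟩ | ⟨hp, h, rfl⟩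
  · rw [← mul_smul, T.conj_eq, mul_smul]; exact c.orb_smul (T.orb0 p) _
  · rw [← mul_smul, T.conj_eq, mul_smul]; exact c.orb_smul (T.orb1 p hp) _

theorem cm {x : Pt Λ} (hx : c.CM x) : c.CM (T.j • x) := fun p => T.orb (hx p)

/-- The square of `j` in `H`. -/
def sq : c.H := ⟨T.j * T.j, T.sq_mem⟩

theorem smul_smul_eq (x : Pt Λ) : T.j • (T.j • x) = (T.sq : G) • x := (mul_smul _ _ x).symm

theorem cm_of_smul {x : Pt Λ} (hx : c.CM (T.j • x)) : c.CM x := by
  have h := c.cm_smul (T.cm hx) T.sq⁻¹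
  rwa [T.smul_smul_eq, ← mul_smul, ← Subgroup.coe_mul, inv_mul_cancel, OneMemClass.coe_one,
    one_smul] at h

/-- The symmetrised function. -/
def sym (x : Pt Λ) : F := c.ψ x + c.ψ (T.j • x)

theorem sym_smul {x : Pt Λ} (hx : c.CM x) (h : c.H) : T.sym ((h : G) • x) = T.sym x := by
  rw [sym, sym, c.ψ_smul hx, ← mul_smul, T.conj_eq, mul_smul, c.ψ_smul (T.cm hx)]

theorem sym_j {x : Pt Λ} (hx : c.CM x) : T.sym (T.j • x) = T.sym x := by
  rw [sym, sym, T.smul_smul_eq, c.ψ_smul hx, add_comm]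

variable [DecidableEq ι] [DecidableEq (Pt Λ)]

omit [DecidableEq ι] in
theorem eigenOp {K : Corr Λ} {lam : F} (h : EigenOp s c.CM c.ψ K lam) :
    EigenOp s c.CM T.sym K lam where
  stable := h.stable
  nodup := h.nodup
  nbr_cm := h.nbr_cm
  eigen x hx := by
    have e : ∑ y ∈ fixedNbr s K x, c.ψ (T.j • y) = ∑ z ∈ fixedNbr s K (T.j • x), c.ψ z := by
      refine Finset.sum_bij (fun y _ => T.j • y) (fun y hy => ?_)
        (fun a _ b _ e => smul_left_cancel _ e) (fun z hz => ?_) fun _ _ => rfl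
      · have hyc := h.nbr_cm x hx y hy
        simp only [fixedNbr, Finset.mem_filter, Multiset.mem_toFinset] at hy ⊢
        exact ⟨by rw [K.nbr_smul]; exact Multiset.mem_map_of_mem _ hy.1, c.pt_cm (T.cm hyc)⟩
      · have hzc := h.nbr_cm _ (T.cm hx) z hz
        simp only [fixedNbr, Finset.mem_filter, Multiset.mem_toFinset, K.nbr_smul,
          Multiset.mem_map] at hz
        obtain ⟨⟨y, hy, rfl⟩, -⟩ := hz
        refine ⟨y, ?_, rfl⟩
        simp only [fixedNbr, Finset.mem_filter, Multiset.mem_toFinset]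
        exact ⟨hy, c.pt_cm (T.cm_of_smul hzc)⟩
    simp only [sym, Finset.sum_add_distrib]
    rw [e, h.eigen x hx, h.eigen _ (T.cm hx), mul_add]

omit [DecidableEq ι] in
/-- The eigenfunction of a family of operators, normalised at a point where it is a unit. -/
def eigenOf {κ : Type*} (K : κ → Corr Λ) (lam : κ → F)
    (hK : ∀ i, EigenOp s c.CM c.ψ (K i) (lam i))
    (hsep : ∀ (g : G) (x : Pt Λ), c.CM x → c.CM (g • x) →
      g ∈ c.H ∨ ∃ h : c.H, g = (h : G) * T.j)
    {a : Pt Λ} (ha : c.CM a) {u : F} (hu : u * T.sym a = 1) : Eigen s K lam where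
  CM := c.CM
  ψ x := u * T.sym x
  base := a
  base_cm := ha
  ψ_base := hu
  fixed _ hx := c.pt_cm hx
  sep g x hx hgx := by
    rcases hsep g x hx hgx with hg | ⟨h, rfl⟩
    · exact congrArg (u * ·) (T.sym_smul hx ⟨g, hg⟩)
    · rw [mul_smul, T.sym_smul (T.cm hx), T.sym_j hx]
  stable i := (hK i).stable
  nodup i := (hK i).nodup
  nbr_cm i := (hK i).nbr_cm
  eigen i x hx := by
    rw [← Finset.mul_sum, (T.eigenOp (hK i)).eigen x hx, mul_left_comm]

omit [DecidableEq (Pt Λ)] in
/-- A point where the symmetrised function is a unit. -/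
theorem exists_isUnit {k : Type*} [Field k] (ε : F →+* k) [IsLocalHom ε] {p : ι} (hp : p ∉ c.V)
    {h : c.H} (hh : ε (c.χ p h) ≠ ε (c.χ p (T.conj h))) :
    ∃ a, c.CM a ∧ IsUnit (T.sym a) := by
  by_contra hno
  push Not at hno
  have hz : ∀ a, c.CM a → ε (c.ψ a) + ε (c.ψ (T.j • a)) = 0 := fun a ha => by
    by_contra hne
    refine hno a ha (IsUnit.of_map ε _ (isUnit_iff_ne_zero.mpr ?_))
    rwa [sym, map_add]
  have h0 := hz c.x0 c.cm_x0
  have hcm : c.CM (c.x0.update p ((h : G) • c.x0.val p)) :=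
    c.cm_update c.cm_x0 (c.orb_smul (c.orb_x0 p) h)
  have e1 : c.ψ (c.x0.update p ((h : G) • c.x0.val p)) = c.χ p h * c.ψ c.x0 :=
    c.ψ_update c.x0 (c.loc_smul (c.orb_x0 p) h)
  have e2 : c.ψ (T.j • c.x0.update p ((h : G) • c.x0.val p)) =
      c.χ p (T.conj h) * c.ψ (T.j • c.x0) := by
    have e : T.j • ((h : G) • c.x0.val p) = (T.conj h : G) • (T.j • c.x0).val p := by
      rw [← mul_smul, T.conj_eq, mul_smul]; rfl
    rw [Pt.smul_update, e]
    exact c.ψ_update _ (c.loc_smul (T.orb0 p) (T.conj h))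
  have h1 := hz _ hcm
  rw [e1, e2, map_mul, map_mul] at h1
  rw [c.ψ_x0, map_one] at h0 h1
  exact hh (by linear_combination h1 - ε (c.χ p (T.conj h)) * h0)

end Twist

end Fermat.Agent.Two.Seed
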