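import Fermat.Agent.Two.Seed.Sigma
import Mathlib.Tactic.IntervalCases

/-!
# The base coset at `2`

When `2` is inert in `K` and prime to the level there is a coset at `2`, fixed by the involution,
whose stabiliser in `K` consists of units of `ℤ + 2 O_K` at `2`.
-/

set_option autoImplicit false

noncomputable section

namespace Fermat.Agent.Two.Brandt

/-- The prime two. -/
abbrev primeTwo : Nat.Primes := ⟨2, Nat.prime_two⟩

namespace Param

attribute [local instance] fact_prime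

variable (P : Param)

/-- The units of `ℤ + 2 O_K` at `2`. -/
def IsRingClassUnit (h : P.Bˣ) : Prop :=
  P.vp primeTwo h = 0 ∧ ∃ (c : ℕ) (a b : ℤ), ¬ 2 ∣ c ∧ 2 ∣ b ∧ c • (h : P.B) = P.elem ![a, b, 0, 0]

theorem inert_two (hc : Odd P.c) : P.Inert primeTwo := by
  intro a b hab
  change (2 : ℤ) ∣ P.g₀ a b at hab
  change (2 : ℤ) ∣ a ∧ (2 : ℤ) ∣ b
  rw [show (2 : ℤ) = ((2 : ℕ) : ℤ) from rfl, ← ZMod.intCast_zmod_eq_zero_iff_dvd] at hab ⊢
  rw [← ZMod.intCast_zmod_eq_zero_iff_dvd]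
  have hc1 : (P.c : ZMod 2) = 1 := by
    obtain ⟨k, hk⟩ := hc; rw [hk]; push_cast; rw [show (2 : ZMod 2) = 0 by decide]; ring
  simp only [g₀, Int.cast_add, Int.cast_sub, Int.cast_mul, Int.cast_pow, hc1] at hab
  revert hab
  generalize (a : ZMod 2) = x
  generalize (b : ZMod 2) = y
  revert x y
  decide

/-- Elements of `K` of unit norm at an inert prime have integral coordinates there. -/
theorem Inert.exists_coord {p : Nat.Primes} (h : P.Inert p) {u : P.Bˣ} (hu : u ∈ P.fieldUnits)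
    (hv : P.vp p u = 0) :
    ∃ (c : ℕ) (a b : ℤ), ¬ (p : ℕ) ∣ c ∧ c • (u : P.B) = P.elem ![a, b, 0, 0] := by
  obtain ⟨hJ, hK⟩ := P.mem_fieldUnits.mp hu
  have key : ∀ (q : ℚ) (n d : ℤ), (u : P.B) = q • P.elem ![n, d, 0, 0] →
      ¬ ((p : ℕ) : ℤ) ∣ P.g₀ n d →
      ∃ (c : ℕ) (a b : ℤ), ¬ (p : ℕ) ∣ c ∧ c • (u : P.B) = P.elem ![a, b, 0, 0] := by
    intro q n d e hN
    have hq : q ≠ 0 := fun h0 => u.ne_zero (by rw [e, h0, zero_smul])
    have hg : P.g₀ n d ≠ 0 := fun h0 => hN (h0 ▸ dvd_zero _)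
    rw [vp, e, nrd_smul, nrd_elem] at hv
    have hg' : P.g₀ ((![n, d, 0, 0] : Fin 4 → ℤ) 0) ((![n, d, 0, 0] : Fin 4 → ℤ) 1) +
        P.e * P.g ((![n, d, 0, 0] : Fin 4 → ℤ) 2) ((![n, d, 0, 0] : Fin 4 → ℤ) 3) = P.g₀ n d := by
      simp [g]
    rw [hg', padicValRat.mul (pow_ne_zero 2 hq) (Int.cast_ne_zero.mpr hg), padicValRat.pow,
      padicValRat.of_int, padicValInt.eq_zero_of_not_dvd hN] at hv
    refine ⟨q.den, q.num * n, q.num * d, not_dvd_den_of_nonneg p (by omega), ?_⟩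
    rw [e, ← Nat.cast_smul_eq_nsmul ℚ, smul_smul, mul_comm, Rat.mul_den_eq_num,
      Int.cast_smul_eq_zsmul, ← elem_smul]
    refine congrArg _ (funext fun i => ?_)
    fin_cases i <;> simp
  rcases eq_or_ne (u : P.B).imI 0 with hI | hI
  · refine key (u : P.B).re 1 0 (by ext <;> simp [elem, hJ, hK, hI]) ?_
    simpa [g₀] using fun e : ((p : ℕ) : ℤ) ∣ 1 => p.2.not_dvd_one (Int.natCast_dvd_natCast.mp e)
  · set t := (u : P.B).re / (u : P.B).imI with ht
    refine key ((u : P.B).imI / t.den) t.num t.den ?_ fun hd => ?_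
    · have hd : (t.den : ℚ) ≠ 0 := Nat.cast_ne_zero.mpr t.den_nz
      have hre : (u : P.B).re = (u : P.B).imI / t.den * t.num := by
        rw [← Rat.mul_den_eq_num t]; field_simp; rw [ht, mul_div_cancel₀ _ hI]
      ext
      · simpa [elem] using hre
      · simp [elem]
      · simp [elem, hJ]
      · simp [elem, hK]
    · obtain ⟨h1, h2⟩ := h _ _ hd
      refine p.2.not_dvd_one ?_
      have := Nat.dvd_gcd (Int.natCast_dvd.mp h1) (Int.natCast_dvd_natCast.mp h2)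
      rwa [t.reduced] at this

/-- The second coordinate of `ḡ h g` modulo `2`. -/
theorem mulCoord_conj_two (he : (P.e : ZMod 2) = 1) (hM : (P.M : ZMod 2) = 1)
    (hc : (P.c : ZMod 2) = 1) (τ a b : ℤ) :
    ((P.mulCoord (P.mulCoord ![1 + 2 * τ, -(2 * τ), -1, 0] ![a, b, 0, 0]) ![1, 2 * τ, 1, 0] 2 :
      ℤ) : ZMod 2) = b := by
  have h2 : (2 : ZMod 2) = 0 := by decide
  have hh : (P.h : ZMod 2) = 1 := by
    have := congrArg (fun n : ℤ => (n : ZMod 2)) P.M_mul_h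
    simp only [Int.cast_mul, Int.cast_sub, Int.cast_pow, hM, one_mul, hc] at this
    rw [this]
    generalize (P.s : ZMod 2) = x
    revert x
    decide
  simp [mulCoord, hM, hc, hh, h2]
  generalize (a : ZMod 2) = x
  generalize (b : ZMod 2) = y
  generalize (P.s : ZMod 2) = z
  revert x y z
  decide

/-- The coordinates of `ḡ j g` modulo `2`. -/
theorem mulCoord_conj_j_two (he : (P.e : ZMod 2) = 1) (hM : (P.M : ZMod 2) = 1)
    (hc : (P.c : ZMod 2) = 1) (τ : ℤ) (i : Fin 4) :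
    ((P.mulCoord (P.mulCoord ![1 + 2 * τ, -(2 * τ), -1, 0] ![0, 0, 1, 0]) ![1, 2 * τ, 1, 0] i :
      ℤ) : ZMod 2) = 0 := by
  have h2 : (2 : ZMod 2) = 0 := by decide
  have hh : (P.h : ZMod 2) = 1 := by
    have := congrArg (fun n : ℤ => (n : ZMod 2)) P.M_mul_h
    simp only [Int.cast_mul, Int.cast_sub, Int.cast_pow, hM, one_mul, hc] at this
    rw [this]
    generalize (P.s : ZMod 2) = x
    revert x
    decide
  fin_cases i <;> simp [mulCoord, he, hM, hh, h2]
  generalize (P.s : ZMod 2) = z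
  revert z
  decide

/-- **The base coset at `2`.** -/
theorem exists_base_two (hc : Odd P.c) (he : Odd P.e) (hM : Odd P.M) :
    ∃ g : P.Bˣ, g⁻¹ * P.flipUnit g ∈ P.localUnits primeTwo ∧
      g⁻¹ * P.jUnit * g ∈ P.localUnits primeTwo ∧
      ∀ h ∈ P.fieldUnits, g⁻¹ * h * g ∈ P.localUnits primeTwo → P.IsRingClassUnit h := by
  obtain ⟨k, hk⟩ := he.mul hM
  obtain ⟨τ, m, hm, hN⟩ : ∃ τ m : ℤ, Odd m ∧
      P.g₀ 1 (2 * τ) + P.e * P.g 1 0 = 2 * m := by
    rcases Int.even_or_odd k with ⟨j, hj⟩ | ⟨j, hj⟩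
    · exact ⟨0, 2 * j + 1, odd_two_mul_add_one j, by
        simp [g₀, g]; linear_combination hk + 2 * hj⟩
    · exact ⟨1, 2 * (j - P.c + 1) + 1, odd_two_mul_add_one _, by
        simp [g₀, g]; linear_combination hk + 2 * hj⟩
  set v : Fin 4 → ℤ := ![1, 2 * τ, 1, 0]
  have hn : P.nrd (P.elem v) = 2 * (m : ℚ) := by
    rw [nrd_elem, show P.g₀ (v 0) (v 1) + P.e * P.g (v 2) (v 3) = 2 * m by simpa [v] using hN]
    push_cast; rfl
  have hm0 : (m : ℚ) ≠ 0 := Int.cast_ne_zero.mpr fun e => by simp [e] at hm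
  have hv0 : P.elem v ≠ 0 := fun e => by
    rw [e, map_zero] at hn; exact hm0 (by linarith)
  have hmden : ¬ 2 ∣ ((m : ℚ)⁻¹).den := not_dvd_den_of_nonneg primeTwo (by
    rw [padicValRat.inv, padicValRat.of_int, padicValInt.eq_zero_of_not_dvd]
    · simp
    · exact fun h2 => (Int.not_even_iff_odd.mpr hm) (even_iff_two_dvd.mpr h2))
  refine ⟨P.unitOf _ hv0, ⟨?_, ?_⟩, ⟨?_, ?_⟩, fun h hh hmem => ?_⟩
  · have e : ((((P.unitOf _ hv0)⁻¹ * P.flipUnit (P.unitOf _ hv0) : P.Bˣ)) : P.B) =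
        1 - (m : ℚ)⁻¹ • (star (P.elem v) * P.elem ![0, 0, 1, 0]) := by
      have hfl : P.flip (P.elem v) = P.elem v - (2 : ℚ) • P.elem ![0, 0, 1, 0] := by
        rw [flip_elem]; ext <;> simp [elem, v]; ring
      rw [Units.val_mul, coe_flipUnit, coe_inv, coe_unitOf, hfl, smul_mul_assoc, mul_sub,
        smul_sub, star_mul_self', mul_smul_comm, smul_smul, Algebra.algebraMap_eq_smul_one,
        smul_smul, hn]
      congr 1
      · rw [inv_mul_cancel₀ (mul_ne_zero two_ne_zero hm0), one_smul]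
      · congr 1; field_simp
    rw [e]
    exact sub_mem (one_mem _) (P.smul_mem_localOrder_of_not_dvd_den _ hmden
      (P.order_le_localOrder _ (mul_mem (P.star_mem_order (P.elem_mem _)) (P.elem_mem _))))
  · rw [vp_coe_mul, vp_inv, coe_flipUnit, vp_flip, neg_add_cancel]
  · -- `ḡ j g` is divisible by `2`
    set w := P.mulCoord (P.mulCoord ![1 + 2 * τ, -(2 * τ), -1, 0] ![0, 0, 1, 0]) v
    have o1 : ∀ x : ℤ, Odd x → (x : ZMod 2) = 1 := fun x hx => by
      obtain ⟨y, rfl⟩ := hx; push_cast; rw [show (2 : ZMod 2) = 0 by decide]; ring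
    have h2 : ∀ i, (2 : ℤ) ∣ w i := fun i => (ZMod.intCast_zmod_eq_zero_iff_dvd _ 2).mp
      (P.mulCoord_conj_j_two (o1 _ he) (o1 _ hM) (o1 _ hc) τ i)
    choose u hu using h2
    have hMq : (P.M : ℚ) ≠ 0 := by exact_mod_cast P.hM.ne'
    have hr : ¬ 2 ∣ ((m : ℚ)⁻¹ * (P.M : ℚ)⁻¹).den := not_dvd_den_of_nonneg primeTwo (by
      rw [padicValRat.mul (inv_ne_zero hm0) (inv_ne_zero hMq), padicValRat.inv, padicValRat.inv,
        padicValRat.of_int, padicValRat.of_int, padicValInt.eq_zero_of_not_dvd,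
        padicValInt.eq_zero_of_not_dvd]
      · simp
      · exact fun h2 => (Int.not_even_iff_odd.mpr hM) (even_iff_two_dvd.mpr h2)
      · exact fun h2 => (Int.not_even_iff_odd.mpr hm) (even_iff_two_dvd.mpr h2))
    have hs : star (P.elem v) = P.elem ![1 + 2 * τ, -(2 * τ), -1, 0] := by
      rw [star_elem]; simp [v]
    have hj : P.elem ![0, 0, 1, 0] = (P.M : ℚ) • (P.jUnit : P.B) := by
      ext <;> simp [elem, jUnit]
    have e : (((P.unitOf _ hv0)⁻¹ * P.jUnit * P.unitOf _ hv0 : P.Bˣ) : P.B) =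
        ((m : ℚ)⁻¹ * (P.M : ℚ)⁻¹) • P.elem u := by
      have h2u : w = (2 : ℤ) • u := funext hu
      have e1 := congrArg P.elem h2u
      rw [show P.elem w = P.elem ![1 + 2 * τ, -(2 * τ), -1, 0] * P.elem ![0, 0, 1, 0] * P.elem v by
        rw [elem_mul, elem_mul], elem_smul, ← hs, hj] at e1
      simp only [← Int.cast_smul_eq_zsmul ℚ, mul_smul_comm, smul_mul_assoc] at e1
      rw [Units.val_mul, Units.val_mul, coe_inv, coe_unitOf, hn, smul_mul_assoc, smul_mul_assoc]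
      have e2 := congrArg (fun x : P.B => ((2 * (m : ℚ))⁻¹ * (P.M : ℚ)⁻¹) • x) e1
      simp only [smul_smul] at e2
      convert e2 using 2 <;> push_cast <;> field_simp
    rw [e]
    exact P.smul_mem_localOrder_of_not_dvd_den _ hr (P.order_le_localOrder _ (P.elem_mem u))
  · rw [vp_coe_mul, vp_coe_mul, vp_inv]
    have hj0 : P.jUnit ∈ P.localUnits primeTwo := P.jUnit_mem_localUnits
      (fun h2 => (Int.not_even_iff_odd.mpr he) (even_iff_two_dvd.mpr h2))
      (fun h2 => (Int.not_even_iff_odd.mpr hM) (even_iff_two_dvd.mpr h2))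
    rw [hj0.2]; ring
  · have hv : P.vp primeTwo h = 0 := by
      have := hmem.2
      rw [vp_coe_mul, vp_coe_mul, vp_inv] at this
      omega
    obtain ⟨c, a, b, hc2, hab⟩ := (P.inert_two hc).exists_coord P hh hv
    refine ⟨hv, c, a, b, hc2, ?_, hab⟩
    obtain ⟨c', hc', u, hu⟩ := hmem.1
    have hsm : (c : ℚ) • ((c' • (((P.unitOf _ hv0)⁻¹ * h * P.unitOf _ hv0 : P.Bˣ) : P.B)) ) =
        ((c' : ℚ) / (2 * m)) • (P.elem ![1 + 2 * τ, -(2 * τ), -1, 0] * P.elem ![a, b, 0, 0] *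
          P.elem v) := by
      rw [Units.val_mul, Units.val_mul, coe_inv, coe_unitOf, hn, ← hab,
        ← Nat.cast_smul_eq_nsmul ℚ c, ← Nat.cast_smul_eq_nsmul ℚ c']
      have hs : star (P.elem v) = P.elem ![1 + 2 * τ, -(2 * τ), -1, 0] := by
        rw [star_elem]; simp [v]
      rw [← hs, smul_mul_assoc, smul_mul_assoc, mul_smul_comm, smul_mul_assoc, smul_smul,
        smul_smul, smul_smul]
      congr 1
      field_simp
    rw [← hu, elem_mul, elem_mul] at hsm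
    have h' : P.elem ((2 * m * c) • u) =
        P.elem ((c' : ℤ) • P.mulCoord (P.mulCoord ![1 + 2 * τ, -(2 * τ), -1, 0] ![a, b, 0, 0]) v) := by
      rw [elem_smul, elem_smul, ← Int.cast_smul_eq_zsmul ℚ, ← Int.cast_smul_eq_zsmul ℚ (c' : ℤ)]
      have := congrArg ((2 * m : ℚ) • ·) hsm
      simp only [smul_smul] at this
      push_cast
      rw [this]
      congr 1
      field_simp
    have h2 := congrArg (fun x : ℤ => (x : ZMod 2)) (congrFun (P.elem_injective h') 2)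
    have o1 : ∀ x : ℤ, Odd x → (x : ZMod 2) = 1 := fun x hx => by
      obtain ⟨y, rfl⟩ := hx; push_cast; rw [show (2 : ZMod 2) = 0 by decide]; ring
    have hc1 : ((c' : ℤ) : ZMod 2) = 1 :=
      o1 _ (Int.odd_coe_nat c' |>.mpr (Nat.odd_iff.mpr (by change ¬ 2 ∣ c' at hc'; omega : c' % 2 = 1)))
    simp only [Pi.smul_apply, smul_eq_mul, Int.cast_mul, Int.cast_ofNat, v,
      show (2 : ZMod 2) = 0 by decide, zero_mul, hc1, one_mul,
      P.mulCoord_conj_two (o1 _ he) (o1 _ hM) (o1 _ hc) τ a b] at h2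
    exact (ZMod.intCast_zmod_eq_zero_iff_dvd _ 2).mp h2.symm

end Param

end Fermat.Agent.Two.Brandt
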