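import Fermat.Agent.Two.Seed.Orbit
import Fermat.Agent.Two.Seed.Two
import Fermat.Agent.Two.Seed.Twist
import Fermat.Agent.Two.Brandt.Hecke

/-!
# The seed: a character of the Hecke algebra modulo two

Restricting functions on the class set to the points fixed by `x + y j ↦ x - y j` turns a ring
class character `χ` of conductor two of `K` and signs `s v` at the ramified primes `v` into a ring
map on the algebra generated by the `T_l` and the `U_v`, with `T_l ↦ χ(λ) + χ(λ̄)` at split,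
`T_l ↦ 0` at inert primes and `U_v ↦ s v`.
-/

set_option autoImplicit false

noncomputable section

namespace Fermat.Agent.Two.Brandt.Param

attribute [local instance] fact_prime

/-- A ring class character of conductor two of `K`, given locally, and signs at the primes of `e`. -/
structure SeedData (P : Param) (F : Type*) [CommRing F] where
  c_odd : Odd P.c
  e_odd : Odd P.e
  M_odd : Odd P.M
  V : Finset Nat.Primes
  dvd_e_iff : ∀ p : Nat.Primes, ((p : ℕ) : ℤ) ∣ P.e ↔ p ∈ V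
  special : ∀ v ∈ V, P.IsSpecial v
  inert : ∀ v ∈ V, P.Inert v
  val : ∀ v ∈ V, padicValRat (v : ℕ) ((P.e : ℚ) / P.M) = 1
  not_dvd_D : ∀ p : Nat.Primes, ((p : ℕ) : ℤ) ∣ P.M → ¬ ((p : ℕ) : ℤ) ∣ P.D
  neat : ∀ (x : Pt P.stdSub.level) (g : P.Bˣ), g • x = x → g = 1 ∨ g = -1
  χ : Nat.Primes → P.fieldUnits →* F
  triv : ∀ p, p ≠ primeTwo → ∀ h : P.fieldUnits, (h : P.Bˣ) ∈ P.localUnits p → χ p h = 1
  triv_two : ∀ h : P.fieldUnits, P.IsRingClassUnit h → χ primeTwo h = 1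
  prod : ∀ h : P.fieldUnits, ∏ᶠ p, χ p h = 1
  sgn : Nat.Primes → F
  sgn_mul_self : ∀ v ∈ V, sgn v * sgn v = 1

variable {P : Param}

theorem primeUnit_mem_fieldUnits (p : Nat.Primes) : P.primeUnit p ∈ P.fieldUnits :=
  P.mem_fieldUnits.mpr (by simp [coe_primeUnit])

theorem isRingClassUnit_primeUnit {p : Nat.Primes} (hp : p ≠ primeTwo) :
    P.IsRingClassUnit (P.primeUnit p) := by
  refine ⟨(primeUnit_mem_localUnits hp.symm).2, 1, (p : ℕ), 0, by decide, dvd_zero _, ?_⟩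
  rw [one_smul, coe_primeUnit]
  ext <;> simp [elem]

namespace SeedData

variable {F : Type*} [CommRing F] (Z : SeedData P F)

include Z

theorem ne_two {v : Nat.Primes} (hv : v ∈ Z.V) : v ≠ primeTwo := fun h => by
  subst h
  exact (Int.not_even_iff_odd.mpr Z.e_odd) (even_iff_two_dvd.mpr ((Z.dvd_e_iff _).mpr hv))

theorem vp_j {v : Nat.Primes} (hv : v ∈ Z.V) : P.vp v P.jUnit = 1 := by
  rw [vp, nrd_jUnit]
  exact Z.val v hv

/-- The coset at `2`. -/
def g₂ : P.Bˣ := (P.exists_base_two Z.c_odd Z.e_odd Z.M_odd).choose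

theorem g₂_spec : Z.g₂⁻¹ * P.flipUnit Z.g₂ ∈ P.localUnits primeTwo ∧
    Z.g₂⁻¹ * P.jUnit * Z.g₂ ∈ P.localUnits primeTwo ∧
    ∀ h ∈ P.fieldUnits, Z.g₂⁻¹ * h * Z.g₂ ∈ P.localUnits primeTwo → P.IsRingClassUnit h :=
  (P.exists_base_two Z.c_odd Z.e_odd Z.M_odd).choose_spec

/-- The base point. -/
def base : Pt P.stdSub.level := (Pt.one P.stdSub.level).update primeTwo (QuotientGroup.mk Z.g₂)

theorem base_val {p : Nat.Primes} (hp : p ≠ primeTwo) : Z.base.val p = QuotientGroup.mk 1 :=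
  Pt.update_val_of_ne _ hp _

theorem mk_mul_one {p : Nat.Primes} (u : P.Bˣ) :
    u • (QuotientGroup.mk 1 : P.Bˣ ⧸ P.localUnits p) = QuotientGroup.mk u :=
  congrArg QuotientGroup.mk (mul_one u)

/-- The characters at the base cosets. -/
def chars : Seed.Chars (Sub.invol (Sub.stable_stdSub (P := P))) F where
  H := P.fieldUnits
  fixedH _ h := h
  x0 := Z.base
  fixed0 := Pt.ext fun p => by
    rw [Seed.Invol.pt_val]
    by_cases hp : p = primeTwo
    · subst hp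
      rw [base, Pt.update_val_self, Seed.Invol.coset_mk]
      exact (QuotientGroup.eq.mpr Z.g₂_spec.1).symm
    · rw [Z.base_val hp, Seed.Invol.coset_mk, map_one]
  χ := Z.χ
  stab p h e := by
    by_cases hp : p = primeTwo
    · subst hp
      refine Z.triv_two h (Z.g₂_spec.2.2 h h.2 ?_)
      rw [base, Pt.update_val_self] at e
      have e' : (QuotientGroup.mk ((h : P.Bˣ) * Z.g₂) : P.Bˣ ⧸ P.localUnits primeTwo) =
          QuotientGroup.mk Z.g₂ := e
      rw [mul_assoc]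
      exact QuotientGroup.eq.mp e'.symm
    · refine Z.triv p hp h ?_
      rw [Z.base_val hp] at e
      have e' : (QuotientGroup.mk ((h : P.Bˣ) * 1) : P.Bˣ ⧸ P.localUnits p) = QuotientGroup.mk 1 :=
        e
      simpa using QuotientGroup.eq.mp e'.symm
  prod := Z.prod
  V := ↑Z.V
  x1 _ := QuotientGroup.mk P.jUnit
  fixed1 p _ := by
    rw [Seed.Invol.coset_mk]
    refine QuotientGroup.eq.mpr ?_
    show (P.flipUnit P.jUnit)⁻¹ * P.jUnit ∈ P.localUnits p
    rw [P.flipUnit_jUnit, inv_neg, neg_mul, inv_mul_cancel]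
    refine ⟨by rw [Units.val_neg, Units.val_one]; exact neg_mem (one_mem _), ?_⟩
    simp [vp, nrd_def]
  stab1 p hp h e := by
    refine Z.triv p (Z.ne_two hp) h ?_
    have e' : (QuotientGroup.mk ((h : P.Bˣ) * P.jUnit) : P.Bˣ ⧸ P.localUnits p) =
        QuotientGroup.mk P.jUnit := e
    have hu : P.jUnit⁻¹ * ((h : P.Bˣ) * P.jUnit) ∈ P.localUnits p := QuotientGroup.eq.mp e'.symm
    have hv : P.vp p (h : P.Bˣ) = 0 := by
      have := hu.2
      rw [vp_coe_mul, vp_coe_mul, vp_inv] at this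
      omega
    exact ⟨(mem_localOrder_iff (Z.special p hp)).mpr hv.ge, hv⟩
  ne1 p hp h e := by
    rw [Z.base_val (Z.ne_two hp)] at e
    have e' : (QuotientGroup.mk (h : P.Bˣ) : P.Bˣ ⧸ P.localUnits p) = QuotientGroup.mk P.jUnit :=
      (mk_mul_one Z _).symm.trans e
    have hv : P.vp p (h : P.Bˣ) = 1 :=
      (Sub.vp_eq_of_mk_eq (Λ := P.stdSub) e').trans (Z.vp_j hp)
    have := (Z.inert p hp).even_vp P h.2
    rw [hv] at this
    simp at this
  sgn := Z.sgn

/-- The element `j` as a symmetry of the points. -/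
def twist : Seed.Twist Z.chars where
  j := P.jUnit
  conj h := ⟨star (h : P.Bˣ), P.star_mem_fieldUnits h.2⟩
  conj_eq h := P.jUnit_mul h.2
  sq_mem := P.jUnit_mul_self_mem
  orb0 p := by
    show Z.chars.Orb p (P.jUnit • Z.base.val p)
    by_cases hp : p = primeTwo
    · subst hp
      refine Or.inl ⟨1, (one_smul P.Bˣ _).trans ?_⟩
      show Z.base.val primeTwo = _
      rw [base, Pt.update_val_self]
      refine (QuotientGroup.eq.mpr ?_ : (QuotientGroup.mk Z.g₂ : P.Bˣ ⧸ P.localUnits primeTwo) =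
        QuotientGroup.mk (P.jUnit * Z.g₂))
      rw [← mul_assoc]; exact Z.g₂_spec.2.1
    rw [Z.base_val hp]
    by_cases hV : p ∈ Z.V
    · exact Or.inr ⟨hV, 1, (one_smul P.Bˣ _).trans (mk_mul_one Z _).symm⟩
    · obtain ⟨k, hk, hku⟩ := exists_fieldUnits_jUnit (fun h => hV ((Z.dvd_e_iff p).mp h))
        (Z.not_dvd_D p)
      refine Or.inl ⟨⟨k, hk⟩, ?_⟩
      show k • Z.base.val p = _
      rw [Z.base_val hp]
      exact (mk_mul_one Z k).trans ((QuotientGroup.eq.mpr hku).trans (mk_mul_one Z _).symm)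
  orb1 p hp := by
    refine Or.inl ⟨⟨P.jUnit * P.jUnit, P.jUnit_mul_self_mem⟩, ?_⟩
    show (P.jUnit * P.jUnit) • Z.base.val p = _
    rw [Z.base_val (Z.ne_two hp)]
    exact congrArg QuotientGroup.mk (mul_one (P.jUnit * P.jUnit))

theorem χ_primeUnit {v : Nat.Primes} (hv : v ∈ Z.V) :
    Z.χ v ⟨P.primeUnit v, primeUnit_mem_fieldUnits v⟩ = 1 := by
  rw [← Z.prod ⟨P.primeUnit v, primeUnit_mem_fieldUnits v⟩]
  refine (finprod_eq_single (fun p => Z.χ p ⟨P.primeUnit v, primeUnit_mem_fieldUnits v⟩) v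
    fun p hp => ?_).symm
  by_cases h2 : p = primeTwo
  · subst h2; exact Z.triv_two _ (isRingClassUnit_primeUnit (Z.ne_two hv))
  · exact Z.triv p h2 _ (primeUnit_mem_localUnits hp)

/-- `U_v` exchanges the two orbits. -/
theorem swap {v : Nat.Primes} (hv : v ∈ Z.V) : Z.chars.Swap v (P.stdSub.cellOp v 1) := by
  have hs := Z.special v hv
  have hj := Z.vp_j hv
  have hc : (P.stdSub.cellOp v 1).cosets = {QuotientGroup.mk P.jUnit} := by
    refine (Multiset.Nodup.ext (P.stdSub.nodup_cellOp v 1) (Multiset.nodup_singleton _)).mpr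
      fun d => ?_
    obtain ⟨g, rfl⟩ := QuotientGroup.mk_surjective d
    rw [Multiset.mem_singleton]
    refine (Sub.mem_cellOp_iff (Λ := P.stdSub)).trans ⟨fun hg => ?_, fun e => ?_⟩
    · exact (QuotientGroup.eq.mpr (inv_jUnit_mul_mem hs hj hg.2)).symm
    · have hg : P.vp v g = 1 := (Sub.vp_eq_of_mk_eq (Λ := P.stdSub) e).trans hj
      exact ⟨(mem_localOrder_iff hs).mpr (by rw [hg]; exact zero_le_one), hg⟩
  have htr : ∀ g : P.Bˣ, (P.stdSub.cellOp v 1).translate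
      (QuotientGroup.mk g : P.Bˣ ⧸ P.stdSub.level.U v) = {QuotientGroup.mk (g * P.jUnit)} :=
    fun g => by rw [LocOp.translate_mk, hc, Multiset.map_singleton]; rfl
  refine ⟨hv, Sub.locStable_cellOp _ v 1, P.stdSub.nodup_cellOp v 1, ?_,
    ⟨⟨P.jUnit * P.jUnit, P.jUnit_mul_self_mem⟩, ?_, ?_⟩⟩
  · show (P.stdSub.cellOp v 1).translate (Z.base.val v) = _
    rw [Z.base_val (Z.ne_two hv)]
    exact (htr 1).trans (by rw [one_mul]; rfl)
  · show _ = {(P.jUnit * P.jUnit) • Z.base.val v}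
    rw [Z.base_val (Z.ne_two hv)]
    exact (htr P.jUnit).trans (congrArg _ (mk_mul_one Z (P.jUnit * P.jUnit)).symm)
  · set r : P.fieldUnits := ⟨P.primeUnit v, primeUnit_mem_fieldUnits v⟩
    set J : P.fieldUnits := ⟨P.jUnit * P.jUnit, P.jUnit_mul_self_mem⟩
    show Z.χ v J = Z.sgn v * Z.sgn v
    have hu : Z.χ v (r⁻¹ * J) = 1 := Z.triv v (Z.ne_two hv) _ (by
      show (P.primeUnit v)⁻¹ * (P.jUnit * P.jUnit) ∈ P.localUnits v
      have e : P.vp v (((P.primeUnit v)⁻¹ * (P.jUnit * P.jUnit) : P.Bˣ) : P.B) = 0 := by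
        rw [vp_coe_mul, vp_coe_mul, vp_inv, vp_primeUnit, if_pos rfl, hj]; rfl
      exact ⟨(mem_localOrder_iff hs).mpr e.ge, e⟩)
    rw [Z.sgn_mul_self v hv, ← mul_inv_cancel_left r J, map_mul, hu, mul_one]
    exact Z.χ_primeUnit hv

omit Z in
/-- A prime at which `T_l` is in the seed. -/
def Good (P : Param) (l : Nat.Primes) : Prop :=
  (l : ℕ) ≠ 2 ∧ ¬ ((l : ℕ) : ℤ) ∣ P.D ∧ ¬ ((l : ℕ) : ℤ) ∣ P.e

theorem base_val_good {l : Nat.Primes} (hl : (l : ℕ) ≠ 2) :
    Z.chars.x0.val l = QuotientGroup.mk 1 :=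
  Z.base_val fun e => hl (congrArg Subtype.val e)

theorem notMem_of_good {l : Nat.Primes} (hl : Good P l) : l ∉ Z.chars.V := fun h =>
  hl.2.2 ((Z.dvd_e_iff l).mpr h)

omit Z in
theorem π_ne_πbar {l : Nat.Primes} (ρ : P.SplitRoot l) :
    (⟨ρ.π, ρ.π_mem⟩ : P.fieldUnits) ≠ ⟨ρ.πbar, ρ.πbar_mem⟩ := fun e => ρ.not_mem_localUnits (by
  rw [show ρ.π = ρ.πbar from congrArg Subtype.val e, inv_mul_cancel]
  exact one_mem _)

open Classical in
theorem local_split {l : Nat.Primes} (hl : Good P l) (ρ : P.SplitRoot l) :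
    Z.chars.Local l (P.stdSub.cellOp l 1) ({⟨ρ.π, ρ.π_mem⟩, ⟨ρ.πbar, ρ.πbar_mem⟩} :
      Finset Z.chars.H) :=
  Sub.localT_split (ch := Z.chars) (Λ := P.stdSub) rfl hl.1 hl.2.1 hl.2.2 rfl
    (Z.base_val_good hl.1) ρ (Z.notMem_of_good hl)

theorem local_inert {l : Nat.Primes} (hl : Good P l) (hin : P.Inert l) :
    Z.chars.Local l (P.stdSub.cellOp l 1) ∅ :=
  Sub.localT_inert (ch := Z.chars) (Λ := P.stdSub) hl.1 hl.2.1 hl.2.2 rfl
    (Z.base_val_good hl.1) hin (Z.notMem_of_good hl)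

/-- `T_l` is a local operator of the seed. -/
theorem exists_local {l : Nat.Primes} (hl : Good P l) :
    ∃ R : Finset Z.chars.H, Z.chars.Local l (P.stdSub.cellOp l 1) R := by
  by_cases hsq : IsSquare (P.D : ZMod (l : ℕ))
  · obtain ⟨ρ⟩ := P.nonempty_splitRoot hl.1 hl.2.1 hsq
    exact ⟨_, Z.local_split hl ρ⟩
  · exact ⟨_, Z.local_inert hl (P.inert_of_not_isSquare hl.1 hsq)⟩

/-- **The seed.**  The mod two Hecke algebra has the character given by `χ` and the signs.  The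
hypothesis on `ε` says that `χ` is not its own conjugate residually. -/
theorem exists_seed [CharP F 2] {O : Type*} [CommRing O] (red : O →+* F)
    (hred : Function.Surjective red) {k : Type*} [Field k] (ε : F →+* k) [IsLocalHom ε]
    (hwit : ∃ p ∉ Z.V, ∃ h : P.fieldUnits,
      ε (Z.χ p h) ≠ ε (Z.χ p ⟨star (h : P.Bˣ), P.star_mem_fieldUnits h.2⟩))
    {κ : Type*} (l : κ → Nat.Primes) (hl : ∀ i, Good P (l i)) :
    ∃ θ : ↥(Algebra.adjoin O (Set.range (Sum.elim
        (fun i => Corr.op O (P.stdSub.cellOp (l i) 1).corr)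
        fun v : Z.V => Corr.op O (P.stdSub.cellOp (v : Nat.Primes) 1).corr))) →+* F,
      (∀ r : O, θ (algebraMap O _ r) = red r) ∧
      (∀ i, ∀ ρ : P.SplitRoot (l i), θ ⟨_, Algebra.subset_adjoin ⟨Sum.inl i, rfl⟩⟩ =
        Z.χ (l i) ⟨ρ.π, ρ.π_mem⟩ + Z.χ (l i) ⟨ρ.πbar, ρ.πbar_mem⟩) ∧
      (∀ i, P.Inert (l i) → θ ⟨_, Algebra.subset_adjoin ⟨Sum.inl i, rfl⟩⟩ = 0) ∧
      ∀ v : Z.V, θ ⟨_, Algebra.subset_adjoin ⟨Sum.inr v, rfl⟩⟩ = Z.sgn v := by
  classical
  choose R hR using fun i => Z.exists_local (hl i)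
  let K : κ ⊕ Z.V → Corr P.stdSub.level := Sum.elim (fun i => (P.stdSub.cellOp (l i) 1).corr)
    fun v : Z.V => (P.stdSub.cellOp (v : Nat.Primes) 1).corr
  let lam : κ ⊕ Z.V → F := Sum.elim (fun i => ∑ k ∈ R i, Z.chars.χ (l i) k) fun v : Z.V => Z.sgn v
  have hK : ∀ i, Seed.EigenOp (Sub.invol (Sub.stable_stdSub (P := P))) Z.chars.CM Z.chars.ψ
      (K i) (lam i) := by
    rintro (i | v)
    · exact (hR i).eigenOp
    · exact (Z.swap v.2).eigenOp
  obtain ⟨p, hp, h, hh⟩ := hwit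
  obtain ⟨a, ha, hu⟩ := Z.twist.exists_isUnit ε (p := p) hp (h := h) hh
  let E := Z.twist.eigenOf K lam hK
    (fun g x hx hgx => Sub.mem_or_of_cm (Sub.stable_stdSub (P := P)) Z.chars rfl Z.neat g x hx hgx)
    ha (u := ((hu.unit⁻¹ : Fˣ) : F)) (IsUnit.val_inv_mul hu)
  obtain ⟨θ, hθ, hθr⟩ := E.exists_hom (red := red) hred
  have hle : Algebra.adjoin O (Set.range (Sum.elim
      (fun i => Corr.op O (P.stdSub.cellOp (l i) 1).corr)
      fun v : Z.V => Corr.op O (P.stdSub.cellOp (v : Nat.Primes) 1).corr)) ≤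
      Algebra.adjoin O (Set.range fun i => Corr.op O (K i)) := by
    refine Algebra.adjoin_mono ?_
    rintro _ ⟨i | v, rfl⟩
    · exact ⟨Sum.inl i, rfl⟩
    · exact ⟨Sum.inr v, rfl⟩
  have key : ∀ i {R' : Finset Z.chars.H},
      Z.chars.Local (l i) (P.stdSub.cellOp (l i) 1) R' →
      ∑ k ∈ R i, Z.chars.χ (l i) k = ∑ k ∈ R', Z.chars.χ (l i) k := fun i R' h' => by
    simpa [Z.chars.ψ_x0] using ((hR i).eigenOp.eigen _ Z.chars.cm_x0).symm.trans
      (h'.eigenOp.eigen _ Z.chars.cm_x0)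
  refine ⟨θ.comp (Subalgebra.inclusion hle).toRingHom, fun r => hθr r, fun i ρ => ?_,
    fun i hi => ?_, fun v => hθ (Sum.inr v)⟩
  · exact (hθ (Sum.inl i)).trans ((key i (Z.local_split (hl i) ρ)).trans
      (Finset.sum_pair (π_ne_πbar ρ)))
  · exact (hθ (Sum.inl i)).trans ((key i (Z.local_inert (hl i) hi)).trans Finset.sum_empty)

end SeedData

end Fermat.Agent.Two.Brandt.Param
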