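import Fermat.Agent.Two.Seed.SeedShape
import Fermat.Agent.Two.Seed.Main
import Fermat.Agent.Two.Seed.BaseChange
import Fermat.Agent.Two.Seed.Field
import Fermat.Agent.Two.Basic.Quad
import Fermat.Agent.Two.Brandt.Neat
import Fermat.Agent.Two.Class.Transfer

/-!
# The global seed of an auxiliary curve

The cubic ring class character times the class of an ideal, with values in the group algebra of the
classes and the signs, is a seed: `T_l` goes to `c [I] + (c [I])⁻¹` at a split prime and to zero at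
an inert one, `U_v` to the sign at `v`.
-/

set_option autoImplicit false

noncomputable section

namespace Fermat.Agent.Two.Seed

open Brandt Brandt.Param IsDedekindDomain
open scoped NumberField

section Classes

variable {K : Type*} [Field K] [NumberField K]

theorem valuation_natCast_eq_one {p : Nat.Primes} {m : ℕ} (hm : ¬ (p : ℕ) ∣ m)
    {Q : HeightOneSpectrum (𝓞 K)} (hQ : ((p : ℕ) : 𝓞 K) ∈ Q.asIdeal) :
    Q.valuation K ((m : ℕ) : K) = 1 := by
  rw [← map_natCast (algebraMap (𝓞 K) K) m, Q.valuation_of_algebraMap]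
  exact le_antisymm (Q.intValuation_le_one _) (not_lt.mp fun hlt =>
    SqrtD.natCast_notMem hm hQ ((Q.intValuation_lt_one_iff_mem _).mp hlt))

/-- The local class of a natural number is trivial. -/
theorem classAt_natCast (p : Nat.Primes) {n : ℕ} (hn : n ≠ 0) :
    classAt p (Units.mk0 (n : K) (Nat.cast_ne_zero.mpr hn)) = 1 := by
  have hq : classAt p (Units.mk0 ((p : ℕ) : K) (Nat.cast_ne_zero.mpr p.2.ne_zero)) = 1 := by
    rw [← finprod_classAt (Units.mk0 ((p : ℕ) : K) (Nat.cast_ne_zero.mpr p.2.ne_zero))]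
    refine (finprod_eq_single (fun r : Nat.Primes =>
      classAt r (Units.mk0 ((p : ℕ) : K) (Nat.cast_ne_zero.mpr p.2.ne_zero))) p fun r hr => ?_).symm
    refine classAt_eq_one fun Q hQ => ?_
    exact valuation_natCast_eq_one (fun hd => hr (Nat.Primes.coe_nat_injective
      ((Nat.prime_dvd_prime_iff_eq r.2 p.2).mp hd))) (mem_primesOverNum.mp hQ)
  obtain ⟨a, m, hm, e⟩ := Nat.exists_eq_pow_mul_and_not_dvd hn (p : ℕ) p.2.ne_one
  have hm0 : m ≠ 0 := fun h => hm (h ▸ dvd_zero _)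
  have e' : Units.mk0 (n : K) (Nat.cast_ne_zero.mpr hn) =
      Units.mk0 ((p : ℕ) : K) (Nat.cast_ne_zero.mpr p.2.ne_zero) ^ a *
        Units.mk0 (m : K) (Nat.cast_ne_zero.mpr hm0) := Units.ext (by simp [e])
  rw [e', map_mul, map_pow, hq, one_pow, one_mul]
  exact classAt_eq_one fun Q hQ => valuation_natCast_eq_one hm (mem_primesOverNum.mp hQ)

end Classes

variable {W : WeierstrassCurve ℤ} {V : Finset ℕ}

/-- What the seed needs from the cubic character. -/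
def IsPsi (S : Setup W V) (ψ : Nat.Primes → S.P.fieldUnits →* Multiplicative (ZMod 3)) : Prop :=
  (∀ h, (Function.mulSupport fun p => ψ p h).Finite) ∧ (∀ h, ∏ᶠ p, ψ p h = 1) ∧
  (∀ p, p ≠ primeTwo → ∀ h : S.P.fieldUnits, (h : S.P.Bˣ) ∈ S.P.localUnits p → ψ p h = 1) ∧
  (∀ h : S.P.fieldUnits, S.P.IsRingClassUnit h → ψ primeTwo h = 1) ∧
  (∀ p, ∀ h : S.P.fieldUnits,
    ψ p ⟨star (h : S.P.Bˣ), S.P.star_mem_fieldUnits h.2⟩ = (ψ p h)⁻¹) ∧
  ∀ l : Nat.Primes, W.IsGoodPrimeFor l → (l : ℕ) ≠ 2 → ∀ ρ : S.P.SplitRoot l,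
    ψ l ⟨ρ.π, ρ.π_mem⟩ = 1 ↔ (2 : ℤ) ∣ W.apOfModel l

/-- A hom from the cube roots of unity into `F4`, injective. -/
theorem exists_cubeRoots : ∃ ω : Multiplicative (ZMod 3) →* F4,
    ∀ x, x ≠ 1 → ω x * ω x + ω x + 1 = 0 := by
  classical
  have : Fintype F4 := Fintype.ofFinite _
  obtain ⟨g, hg⟩ := IsCyclic.exists_generator (α := F4ˣ)
  have hcard : Nat.card F4 = 4 := by rw [GaloisField.card 2 2 two_ne_zero]; norm_num
  have hord : orderOf g = 3 := by
    rw [orderOf_eq_card_of_forall_mem_zpowers hg, Nat.card_units, hcard]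
  obtain ⟨e⟩ : ∃ _ : Multiplicative (ZMod 3) ≃* F4ˣ, True :=
    ⟨(mulEquivOfCyclicCardEq (by rw [Nat.card_units, hcard]; simp) : Multiplicative (ZMod 3) ≃* F4ˣ),
      trivial⟩
  refine ⟨(Units.coeHom F4).comp e.toMonoidHom, fun x hx => ?_⟩
  have h3 : x ^ 3 = 1 := by
    have := orderOf_dvd_natCard x
    rw [← orderOf_dvd_iff_pow_eq_one]
    simpa using this
  set c := ((Units.coeHom F4).comp e.toMonoidHom) x
  have hc3 : c ^ 3 = 1 := by rw [← map_pow, h3, map_one]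
  have hc1 : c ≠ 1 := fun h => hx (e.injective (Units.ext (h.trans (by simp))))
  have : (c - 1) * (c * c + c + 1) = 0 := by linear_combination hc3
  exact (mul_eq_zero.mp this).resolve_left (sub_ne_zero.mpr hc1)

/-- A square root of `D` in `quadField W`. -/
theorem nonempty_sqrtD (hW : TwoCurve W) (S : Setup W V) : Nonempty (SqrtD S.P (quadField W)) := by
  obtain ⟨δ, hδ, hK, -, -⟩ := Basic.exists_delta hW
  have hmem : δ ∈ quadField W := hK ▸ IntermediateField.mem_adjoin_simple_self ℚ δ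
  refine ⟨⟨⟨δ, hmem⟩, Subtype.ext ?_, Basic.finrank_quadField hW⟩⟩
  rw [S.D_eq]
  simpa using hδ

/-- The discriminant is a square modulo a good prime exactly when `D` is. -/
theorem isSquare_D_iff (hW : TwoCurve W) (S : Setup W V) {l : Nat.Primes}
    (hl : W.IsGoodPrimeFor l) :
    IsSquare (S.P.D : ZMod (l : ℕ)) ↔ IsSquare (W.Δ : ZMod (l : ℕ)) := by
  have : Fact (l : ℕ).Prime := ⟨l.2⟩
  obtain ⟨s, -, hs⟩ := Basic.exists_discr_eq hW
  have e : (W.Δ : ZMod (l : ℕ)) = (S.P.D : ZMod (l : ℕ)) * (s : ZMod (l : ℕ)) ^ 2 := by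
    rw [S.D_eq, hs]; push_cast; ring
  have hs0 : (s : ZMod (l : ℕ)) ≠ 0 := fun h0 => hl (by
    rw [← ZMod.intCast_zmod_eq_zero_iff_dvd, e, h0]; ring)
  constructor
  · rintro ⟨d, hd⟩
    exact ⟨d * s, by rw [e, hd]; ring⟩
  · rintro ⟨d, hd⟩
    refine ⟨d / s, ?_⟩
    rw [e] at hd
    field_simp
    linear_combination hd

theorem algebraMap_mul_eq_smul {k A : Type*} [CommSemiring k] [Semiring A] [Algebra k A] (c : k)
    (x : A) : algebraMap k A c * x = c • x := (Algebra.smul_def c x).symm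

/-- **The global seed**, from the cubic character. -/
theorem hasTheta_of_psi (hW : TwoCurve W) (hV : ∀ v ∈ V, v.Prime) (S : Setup W V)
    {ψ : Nat.Primes → S.P.fieldUnits →* Multiplicative (ZMod 3)} (hψ : IsPsi S ψ) :
    HasTheta S := by
  classical
  obtain ⟨hψfin, hψprod, hψtriv, hψtwo, hψstar, hψval⟩ := hψ
  obtain ⟨Φ⟩ := nonempty_sqrtD hW S
  obtain ⟨ω, hω⟩ := exists_cubeRoots
  have : Fact (Nat.Prime 2) := ⟨Nat.prime_two⟩
  have : CharP (SeedRing W V) 2 := charP_of_injective_algebraMap' F4 2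
  let χ : Nat.Primes → S.P.fieldUnits →* SeedRing W V := fun p =>
    (((algebraMap F4 (SeedRing W V)).toMonoidHom.comp ω).comp (ψ p)) *
      ((classElt W V).comp ((classAt p).comp Φ.hom))
  have hχ : ∀ p h, χ p h = algebraMap F4 (SeedRing W V) (ω (ψ p h)) *
      classElt W V (classAt p (Φ.hom h)) := fun _ _ => rfl
  have hfin : ∀ h, (Function.mulSupport fun p => classAt p (Φ.hom h)).Finite := fun h =>
    finite_mulSupport_classAt _
  let sgn : Nat.Primes → SeedRing W V := fun v =>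
    if hv : (v : ℕ) ∈ V then signElt W ⟨v, hv⟩ else 1
  have hsgn : ∀ v : Eigen.AuxIdx V, signElt W v * signElt W v = 1 := fun v => by
    rw [signElt, ← map_mul, Prod.mk_mul_mk, mul_one, ← Pi.mulSingle_mul, ← ofAdd_add,
      CharTwo.add_self_eq_zero, ofAdd_zero, Pi.mulSingle_one]
    exact map_one (MonoidAlgebra.of F4 (SeedGroup W V))
  obtain ⟨r, hr, hr12⟩ := S.exists_ramified
  let Z : SeedData S.P (SeedRing W V) :=
    { c_odd := S.c_odd
      e_odd := S.e_odd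
      M_odd := S.M_odd
      V := V.subtype Nat.Prime
      dvd_e_iff := fun p => by
        refine Iff.trans ?_ Finset.mem_subtype.symm
        rw [S.e_eq, Int.natCast_dvd_natCast]
        refine ⟨fun h => ?_, fun h => Finset.dvd_prod_of_mem _ h⟩
        obtain ⟨v, hv, hpv⟩ := (Prime.dvd_finsetProd_iff p.2.prime _).1 h
        exact (Nat.prime_dvd_prime_iff_eq p.2 (hV v hv)).mp hpv ▸ hv
      special := fun v hv => S.special v (Finset.mem_subtype.mp hv)
      inert := fun v hv => S.inert v (Finset.mem_subtype.mp hv)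
      val := fun v hv => S.val v (Finset.mem_subtype.mp hv)
      not_dvd_D := S.not_dvd_D
      neat := fun x g hg => Sub.stabilizer_eq_one_or_neg_one hr hr12 x g hg
      χ := χ
      triv := fun p hp h hh => by
        rw [hχ, hψtriv p hp h hh, Φ.classAt_eq_one_of_mem hh, map_one, map_one, map_one, one_mul]
      triv_two := fun h hh => by
        have hmem : (h : S.P.Bˣ) ∈ S.P.localUnits primeTwo := by
          obtain ⟨hv, c, a, b, hc, -, hab⟩ := hh
          exact ⟨⟨c, hc, ![a, b, 0, 0], hab.symm⟩, hv⟩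
        rw [hχ, hψtwo h hh, Φ.classAt_eq_one_of_mem hmem, map_one, map_one, map_one, one_mul]
      prod := fun h => by
        simp only [hχ]
        have f1 : (Function.mulSupport fun p =>
            algebraMap F4 (SeedRing W V) (ω (ψ p h))).Finite :=
          (hψfin h).subset fun p hp e => hp (by simp only [show ψ p h = 1 from e, map_one])
        have f2 : (Function.mulSupport fun p => classElt W V (classAt p (Φ.hom h))).Finite :=
          (hfin h).subset fun p hp e => hp (by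
            simp only [show classAt p (Φ.hom h) = 1 from e, map_one])
        rw [finprod_mul_distrib f1 f2]
        have e1 := (((algebraMap F4 (SeedRing W V)).toMonoidHom.comp ω)).map_finprod (hψfin h)
        have e2 := (classElt W V).map_finprod (hfin h)
        rw [hψprod, map_one] at e1
        rw [finprod_classAt, map_one] at e2
        exact (congrArg₂ (· * ·) e1.symm e2.symm).trans (one_mul 1)
      sgn := sgn
      sgn_mul_self := fun v hv => by
        have hv' : (v : ℕ) ∈ V := Finset.mem_subtype.mp hv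
        simp only [sgn, dif_pos hv']
        exact hsgn _ }
  -- the values at split primes
  have hval : ∀ (l : Eigen.GoodIdx W V) (ρ : S.P.SplitRoot l.1), ∃ Q₁ Q₂ : HeightOneSpectrum
      (𝓞 (quadField W)),
      (∀ Q : HeightOneSpectrum (𝓞 (quadField W)), ((l.1 : ℕ) : 𝓞 (quadField W)) ∈ Q.asIdeal →
        Q = Q₁ ∨ Q = Q₂) ∧ primeClass Q₂ = (primeClass Q₁)⁻¹ ∧
      χ l.1 ⟨ρ.π, ρ.π_mem⟩ = ω (ψ l.1 ⟨ρ.π, ρ.π_mem⟩) • classElt W V (primeClass Q₁) ∧
      χ l.1 ⟨ρ.πbar, ρ.πbar_mem⟩ =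
        (ω (ψ l.1 ⟨ρ.π, ρ.π_mem⟩))⁻¹ • classElt W V (primeClass Q₁)⁻¹ := by
    intro l ρ
    obtain ⟨Q₁, Q₂, hover, h1, h2, -⟩ := Φ.exists_split ρ
    set π : S.P.fieldUnits := ⟨ρ.π, ρ.π_mem⟩
    set πb : S.P.fieldUnits := ⟨ρ.πbar, ρ.πbar_mem⟩
    have hπ : (π : S.P.Bˣ) = ρ.π := rfl
    have hstar : πb = ⟨star (π : S.P.Bˣ), S.P.star_mem_fieldUnits π.2⟩ :=
      Subtype.ext (Units.ext rfl)
    set n : ℕ := (ρ.r ^ 2 - ρ.r - S.P.c).natAbs
    have hn : n ≠ 0 := Int.natAbs_ne_zero.mpr ρ.norm_ne_zero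
    have hprod : Φ.hom (π * πb) = Units.mk0 ((n : ℕ) : quadField W) (Nat.cast_ne_zero.mpr hn) := by
      refine Units.ext ?_
      rw [map_mul, Units.val_mul, SqrtD.coe_hom, SqrtD.coe_hom, Units.val_mk0, hstar]
      show Φ.toK ((π : S.P.Bˣ) : S.P.B) * Φ.toK (star ((π : S.P.Bˣ) : S.P.B)) = _
      rw [Φ.toK_mul_star (S.P.mem_fieldUnits.mp π.2), hπ]
      have hpos : (0 : ℤ) ≤ ρ.r ^ 2 - ρ.r - S.P.c := by
        have h := ρ.nrd_elem_eq
        have h0 : (0 : ℚ) < S.P.nrd (ρ.π : S.P.B) := S.P.nrd_unit_pos _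
        rw [SplitRoot.π, coe_unitOf, h] at h0
        exact_mod_cast h0.le
      rw [SplitRoot.π, coe_unitOf, ρ.nrd_elem_eq, Rat.cast_intCast]
      rw [← Int.cast_natCast (R := quadField W) n, Int.natAbs_of_nonneg hpos]
    have hinv : primeClass Q₂ = (primeClass Q₁)⁻¹ := by
      refine eq_inv_of_mul_eq_one_right ?_
      rw [← h1, ← h2, ← map_mul, ← map_mul, hprod, classAt_natCast _ hn]
    refine ⟨Q₁, Q₂, hover, hinv, ?_, ?_⟩
    · rw [hχ, h1, algebraMap_mul_eq_smul]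
    · rw [hχ, h2, hinv, algebraMap_mul_eq_smul, hstar, hψstar, map_inv]
  -- a witness prime
  obtain ⟨ℓ, hℓ, hℓ2, hgood, -, hsq, hodd⟩ := Class.exists_prime_one_mod hW
  have hℓD : ¬ ((ℓ : ℕ) : ℤ) ∣ S.P.D := fun hd => hgood (by
    rw [S.D_eq, dvd_neg, Int.natCast_dvd_natCast] at hd
    exact (prime_dvd_badLevel_iff hW.Δ_ne_zero hℓ).mp hd)
  obtain ⟨ρ₀⟩ := S.P.nonempty_splitRoot (l := ⟨ℓ, hℓ⟩) hℓ2 hℓD
    ((isSquare_D_iff hW S (l := ⟨ℓ, hℓ⟩) hgood).mpr hsq)
  have hℓV : ℓ ∉ V := fun hv => by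
    have h : ((ℓ : ℕ) : ℤ) ∣ S.P.g₀ ρ₀.r (-1) := by
      simpa [Param.g₀, sub_eq_add_neg] using ρ₀.dvd
    exact hℓ.not_dvd_one (Int.natCast_dvd_natCast.mp (by
      simpa using (S.inert ⟨ℓ, hℓ⟩ hv _ _ h).2))
  have := isLocalHom_augment (k := F4) (isPGroup_seedGroup W V)
  let ε : SeedRing W V →+* F4 := (augment (k := F4) (G := SeedGroup W V)).toRingHom
  have hεc : ∀ x, ε (classElt W V x) = 1 := fun x => augment_of _
  have hεs : ∀ (c : F4) x, ε (c • classElt W V x) = c := fun c x => by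
    show augment (c • classElt W V x) = c
    rw [map_smul, smul_eq_mul, show augment (classElt W V x) = (1 : F4) from hεc x, mul_one]
  obtain ⟨Q₁, Q₂, -, -, e1, e2⟩ := hval ⟨⟨ℓ, hℓ⟩, hgood, hℓ2, hℓV⟩ ρ₀
  have hne : ω (ψ ⟨ℓ, hℓ⟩ ⟨ρ₀.π, ρ₀.π_mem⟩) ≠ (ω (ψ ⟨ℓ, hℓ⟩ ⟨ρ₀.π, ρ₀.π_mem⟩))⁻¹ := by
    have h1 := hω _ (mt (hψval ⟨ℓ, hℓ⟩ hgood hℓ2 ρ₀).mp hodd)
    intro he
    set c := ω (ψ ⟨ℓ, hℓ⟩ ⟨ρ₀.π, ρ₀.π_mem⟩)
    have hc0 : c ≠ 0 := fun h0 => by rw [h0] at h1; simp at h1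
    have hcc : c * c = 1 := by
      calc c * c = c * c⁻¹ := by rw [← he]
        _ = 1 := mul_inv_cancel₀ hc0
    rw [hcc, add_right_comm, CharTwo.add_self_eq_zero, zero_add] at h1
    exact hc0 h1
  let idx : Eigen.GoodIdx W V → Nat.Primes := fun l => l.1
  have hidx : ∀ l, Param.SeedData.Good S.P (idx l) := fun l =>
    ⟨l.2.2.1, S.not_dvd hW.Δ_ne_zero hV l.2.1 l.2.2.2⟩
  obtain ⟨θ, -, hθsplit, hθinert, hθv⟩ := Z.exists_seed (RingHom.id (SeedRing W V))
    (fun x => ⟨x, rfl⟩) ε ⟨⟨ℓ, hℓ⟩, fun h => hℓV (Finset.mem_subtype.mp h),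
      ⟨ρ₀.π, ρ₀.π_mem⟩, by
        intro he
        have hstar : (⟨ρ₀.πbar, ρ₀.πbar_mem⟩ : S.P.fieldUnits) =
            ⟨star (ρ₀.π : S.P.Bˣ), S.P.star_mem_fieldUnits ρ₀.π_mem⟩ := Subtype.ext (Units.ext rfl)
        rw [← hstar, show Z.χ = χ from rfl, e1, e2, hεs, hεs] at he
        exact hne he⟩ idx hidx
  let κc : Eigen.GoodIdx W V ⊕ Eigen.AuxIdx V → Corr S.P.stdSub.level :=
    Sum.elim (fun l => (S.P.stdSub.cellOp l.1 1).corr) fun v => (S.P.stdSub.cellOp v.1 1).corr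
  obtain ⟨φ, hφ⟩ := exists_baseChange κc (SeedRing W V)
  have hle : Algebra.adjoin (SeedRing W V) (Set.range fun i => Corr.op (SeedRing W V) (κc i)) ≤
      Algebra.adjoin (SeedRing W V) (Set.range (Sum.elim
        (fun i => Corr.op (SeedRing W V) (S.P.stdSub.cellOp (idx i) 1).corr)
        fun v : Z.V => Corr.op (SeedRing W V) (S.P.stdSub.cellOp (v : Nat.Primes) 1).corr)) := by
    refine Algebra.adjoin_mono ?_
    rintro _ ⟨l | v, rfl⟩
    · exact ⟨Sum.inl l, rfl⟩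
    · exact ⟨Sum.inr ⟨v.1, Finset.mem_subtype.mpr v.2⟩, rfl⟩
  have hle0 : Eigen.hecke S ≤ Algebra.adjoin ℤ (Set.range fun i => Corr.op ℤ (κc i)) := by
    refine Algebra.adjoin_mono ?_
    rintro _ ⟨l | v, rfl⟩
    · exact ⟨Sum.inl l, rfl⟩
    · exact ⟨Sum.inr v, rfl⟩
  let θ' : Eigen.hecke S →+* SeedRing W V :=
    θ.comp (((Subalgebra.inclusion hle).toRingHom.comp φ).comp
      (Subalgebra.inclusion hle0).toRingHom)
  have hθ'l : ∀ l : Eigen.GoodIdx W V, θ' (Eigen.gen S (Sum.inl l)) =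
      θ ⟨_, Algebra.subset_adjoin ⟨Sum.inl l, rfl⟩⟩ := fun l => by
    have e := (congrArg φ (Subtype.ext rfl)).trans (hφ (Sum.inl l))
    exact congrArg θ ((congrArg (Subalgebra.inclusion hle) e).trans (Subtype.ext rfl))
  have hθ'v : ∀ v : Eigen.AuxIdx V, θ' (Eigen.gen S (Sum.inr v)) =
      θ ⟨_, Algebra.subset_adjoin ⟨Sum.inr ⟨v.1, Finset.mem_subtype.mpr v.2⟩, rfl⟩⟩ := fun v => by
    have e := (congrArg φ (Subtype.ext rfl)).trans (hφ (Sum.inr v))
    exact congrArg θ ((congrArg (Subalgebra.inclusion hle) e).trans (Subtype.ext rfl))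
  refine ⟨θ', fun v => ?_, fun l => ⟨fun hns => ?_, fun heven => ?_, fun hsq' hodd' I hI hmem => ?_⟩⟩
  · rw [hθ'v, hθv]
    exact dif_pos v.2
  · rw [hθ'l]
    exact hθinert l (S.P.inert_of_not_isSquare l.2.2.1
      (mt (isSquare_D_iff hW S l.2.1).mp hns))
  · rw [hθ'l]
    by_cases hs : IsSquare (W.Δ : ZMod (l.1 : ℕ))
    · have ρ := (S.P.nonempty_splitRoot l.2.2.1 (hidx l).2.1
        ((isSquare_D_iff hW S l.2.1).mpr hs)).some
      rw [hθsplit l ρ]
      show χ l.1 _ + χ l.1 _ = 0 ∨ ∃ x, χ l.1 _ + χ l.1 _ = _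
      obtain ⟨R₁, R₂, -, -, f1, f2⟩ := hval l ρ
      refine Or.inr ⟨primeClass R₁, ?_⟩
      rw [f1, f2, (hψval l.1 l.2.1 l.2.2.1 ρ).mpr heven, map_one, inv_one, one_smul, one_smul]
    · exact Or.inl (hθinert l (S.P.inert_of_not_isSquare l.2.2.1
        (mt (isSquare_D_iff hW S l.2.1).mp hs)))
  · have ρ := (S.P.nonempty_splitRoot l.2.2.1 (hidx l).2.1
      ((isSquare_D_iff hW S l.2.1).mpr hsq')).some
    rw [hθ'l, hθsplit l ρ]
    show ∃ c' : F4, _ ∧ χ l.1 _ + χ l.1 _ = _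
    obtain ⟨R₁, R₂, hover, hinv, f1, f2⟩ := hval l ρ
    rw [f1, f2]
    have hc := hω _ (mt (hψval l.1 l.2.1 l.2.2.1 ρ).mp hodd')
    generalize ω (ψ l.1 ⟨ρ.π, ρ.π_mem⟩) = c at hc ⊢
    have hc0 : c ≠ 0 := fun h0 => by rw [h0] at hc; simp at hc
    let Q : HeightOneSpectrum (𝓞 (quadField W)) :=
      ⟨I, hI, nonZeroDivisors.ne_zero I.2⟩
    have hQ : primeClass Q = ClassGroup.mk0 I := congrArg ClassGroup.mk0 (Subtype.ext rfl)
    rcases hover Q hmem with h | h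
    · refine ⟨c, hc, ?_⟩
      rw [← hQ, h]
    · refine ⟨c⁻¹, ?_, ?_⟩
      · field_simp
        linear_combination hc
      · rw [← hQ, h, hinv, inv_inv, inv_inv, add_comm]

end Fermat.Agent.Two.Seed

end
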