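import Fermat.Agent.Two.Tangent.Roots
import Fermat.Agent.Two.Basic.Quad
import Fermat.Agent.Two.Recip.RingClassStep
import Fermat.Agent.RT.Lift.Levels.CurvePoint

/-!
# The field of two-torsion of an auxiliary curve

It is sextic, contains `quadField W`, is unramified over it away from two, and a Frobenius at a
good prime fixing `quadField W` fixes it exactly when `a_l` is even.
-/

set_option autoImplicit false
set_option linter.style.haveILetI false
set_option synthInstance.maxHeartbeats 200000

noncomputable section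

namespace Fermat.Agent.Two.Seed

open Module Fermat.Agent.Deform Fermat.Agent.Arith Fermat.Agent.EC.Rep

variable {W : WeierstrassCurve ℤ}

theorem card_gl_two : Fintype.card {X : M2 (ZMod 2) // X.det ≠ 0} = 6 := by decide

theorem pow_three_of_trace_one : ∀ X : M2 (ZMod 2), X.det ≠ 0 → X.trace = 1 → X ^ 3 = 1 := by decide

theorem trace_one_eq_zero : (1 : M2 (ZMod 2)).trace = 0 := by decide

set_option maxHeartbeats 1000000 in
/-- **The field of two-torsion.** -/
theorem exists_torsionField (hW : TwoCurve W) :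
    ∃ H : IntermediateField ℚ QBar, ∃ (_ : FiniteDimensional ℚ H) (_ : Normal ℚ H),
      quadField W ≤ H ∧ finrank ℚ H = 6 ∧ Recip.UnramAwayTwo H (quadField W) ∧
      ∀ l : ℕ, l.Prime → W.IsGoodPrimeFor l → l ≠ 2 → ∀ A : ValuationSubring QBar,
        A.LiesOverPrime l → ∀ φ : Gal, A.IsFrobeniusAt φ l → φ ∈ galK W →
          ((∀ x ∈ H, φ x = x) ↔ (2 : ℤ) ∣ W.apOfModel l) := by
  haveI : Fact (Nat.Prime 2) := ⟨Nat.prime_two⟩
  have hΔ := hW.Δ_ne_zero
  obtain ⟨b, hb⟩ := RT.Lift.exists_basis_residual_tateRep (p := 2) hΔ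
  obtain ⟨e, pt, hinj, hptinj, hpt, hperm, -, hd⟩ := Tangent.exists_roots (W := W) hΔ
  set r := matRes (residualRep W 2 hΔ) b with hr
  let H : IntermediateField ℚ QBar := IntermediateField.adjoin ℚ (Set.range e)
  have hker : ∀ σ : Gal, r σ = 1 ↔ ∀ x ∈ H, σ x = x := fun σ => by
    obtain ⟨π, -, hπ⟩ := hperm σ
    rw [hr, Tangent.matRes_eq_one_iff]
    constructor
    · intro h x hx
      refine IntermediateField.adjoin_induction ℚ (p := fun y _ => σ y = y) ?_ (fun c => σ.commutes c)
        (fun a a' _ _ ha ha' => by rw [map_add, ha, ha']) (fun a _ ha => by rw [map_inv₀, ha])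
        (fun a a' _ _ ha ha' => by rw [map_mul, ha, ha']) hx
      rintro _ ⟨i, rfl⟩
      have hi : π i = i := hptinj (by rw [← (hπ i).2, h])
      rw [(hπ i).1, hi]
    · intro h v
      rcases eq_or_ne v 0 with rfl | hv
      · exact map_zero _
      · obtain ⟨i, rfl⟩ := (hpt v).mp hv
        have hi : π i = i := hinj (by
          rw [← (hπ i).1, h _ (IntermediateField.subset_adjoin _ _ ⟨i, rfl⟩)])
        rw [(hπ i).2, hi]
  have hfd : FiniteDimensional ℚ H := by
    haveI : Finite (Set.range e) := Set.finite_range e |>.to_subtype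
    exact IntermediateField.finiteDimensional_adjoin fun x _ => Algebra.IsIntegral.isIntegral x
  have hnorm : Normal ℚ H := by
    refine IntermediateField.normal_iff_forall_map_le'.2 fun σ => ?_
    rw [IntermediateField.adjoin_map, IntermediateField.adjoin_le_iff]
    rintro _ ⟨_, ⟨i, rfl⟩, rfl⟩
    obtain ⟨π, -, hπ⟩ := hperm σ
    exact IntermediateField.subset_adjoin _ _ ⟨π i, (hπ i).1.symm⟩
  have hfix : H.fixingSubgroup ≤ galK W := fun σ hσ => by
    have h1 : r σ = 1 := (hker σ).2 ((IntermediateField.mem_fixingSubgroup_iff _ _).1 hσ)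
    rw [Class.mem_galK_iff]
    intro y hy
    exact (Tangent.fix_sqrt_iff hΔ b hy σ).2 (Or.inl h1)
  have hKH : quadField W ≤ H := by
    intro x hx
    rw [← InfiniteGalois.fixedField_fixingSubgroup H, IntermediateField.mem_fixedField_iff]
    exact fun σ hσ => (IntermediateField.mem_fixingSubgroup_iff _ _).1 (hfix hσ) x hx
  have hrot : ∀ σ, σ ∈ galK W → r σ = 1 ∨ (r σ).trace = 1 := fun σ hσ => by
    obtain ⟨δ, hδ, -, -, -⟩ := Basic.exists_delta hW
    rw [Class.mem_galK_iff] at hσ
    exact (Tangent.fix_sqrt_iff hΔ b hd.symm σ).1 (hσ _ hd.symm)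
  have hdeg : finrank ℚ H = 6 := by
    haveI : IsGalois ℚ H := ⟨⟩
    have hK2 : 2 ∣ finrank ℚ H :=
      Basic.finrank_quadField hW ▸ IntermediateField.finrank_dvd_of_le_right hKH
    obtain ⟨g, hg⟩ := Tangent.exists_trace_eq_one hW b
    have hg3 : orderOf (AlgEquiv.restrictNormalHom (K₁ := QBar) H g) = 3 := by
      haveI : Fact (Nat.Prime 3) := ⟨Nat.prime_three⟩
      have hres : ∀ σ : Gal, AlgEquiv.restrictNormalHom (K₁ := QBar) H σ = 1 ↔ r σ = 1 := fun σ => by
        rw [hker, AlgEquiv.ext_iff]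
        exact ⟨fun h x hx => (AlgEquiv.restrictNormal_commutes σ H ⟨x, hx⟩).symm.trans
            (congrArg Subtype.val (h ⟨x, hx⟩)),
          fun h x => Subtype.ext ((AlgEquiv.restrictNormal_commutes σ H x).trans (h x x.2))⟩
      refine orderOf_eq_prime ?_ fun h => ?_
      · rw [← map_pow, hres, map_pow]
        exact pow_three_of_trace_one _ (Tangent.det_matRes_ne_zero hΔ b g) hg
      · rw [hres] at h
        have h' : (matRes (residualRep W 2 hΔ) b g).trace = 0 := by
          rw [← hr, h, trace_one_eq_zero]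
        exact zero_ne_one (h'.symm.trans hg)
    have h3 : 3 ∣ finrank ℚ H := by
      rw [← IsGalois.card_aut_eq_finrank, ← hg3]
      exact orderOf_dvd_natCard _
    have hle : finrank ℚ H ≤ 6 := by
      rw [← IsGalois.card_aut_eq_finrank, ← card_gl_two, ← Nat.card_eq_fintype_card]
      let lft : (H ≃ₐ[ℚ] H) → Gal := fun s =>
        (AlgEquiv.restrictNormalHom_surjective (K₁ := H) QBar s).choose
      refine Nat.card_le_card_of_injective
        (fun s => (⟨r (lft s), Tangent.det_matRes_ne_zero hΔ b _⟩ : {X : M2 (ZMod 2) // X.det ≠ 0}))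
        fun s t hst => ?_
      have e0 : r (lft s) = r (lft t) := congrArg Subtype.val hst
      have e : r ((lft s)⁻¹ * lft t) = 1 := by
        rw [map_mul, ← e0, ← map_mul, inv_mul_cancel, map_one]
      have hs : AlgEquiv.restrictNormalHom H (lft s) = s :=
        (AlgEquiv.restrictNormalHom_surjective (K₁ := H) QBar s).choose_spec
      have ht : AlgEquiv.restrictNormalHom H (lft t) = t :=
        (AlgEquiv.restrictNormalHom_surjective (K₁ := H) QBar t).choose_spec
      rw [← inv_mul_eq_one, ← hs, ← ht, ← map_inv, ← map_mul]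
      exact AlgEquiv.ext fun x => Subtype.ext
        ((AlgEquiv.restrictNormal_commutes _ H x).trans ((hker _).1 e x x.2))
    have h6 : 6 ∣ finrank ℚ H := Nat.Coprime.mul_dvd_of_dvd_of_dvd (by norm_num) hK2 h3
    exact le_antisymm hle (Nat.le_of_dvd Module.finrank_pos h6)
  refine ⟨H, hfd, hnorm, hKH, hdeg, fun q hq hq2 A hA t ht hK => (hker t).1 ?_,
    fun l hl hgood hl2 A hA φ hφ hφK => ?_⟩
  · have htK : t ∈ galK W := (IntermediateField.mem_fixingSubgroup_iff _ _).2 hK
    refine (hrot t htK).resolve_right fun h1 => ?_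
    set b₀ := RT.Lift.tateStdBasis (p := 2) hΔ
    have hu' := isUnipotentOnInertiaAt_tateRep (p := 2) hΔ hq hq2
      (fun hd => hW.semistable q hq hd.2 hd.1) A hA t ht
    have etr : (matOf (tateRep W 2 hΔ) b₀ t).trace = 2 := by
      have hc := LinearMap.charpoly_toMatrix ((tateRep W 2 hΔ).ρ t) b₀
      rw [hu', Matrix.charpoly_fin_two] at hc
      have h2 := congrArg (fun P : Polynomial ℤ_[2] => P.coeff 1) hc
      simp [sq, Polynomial.coeff_X, Polynomial.coeff_one, sub_mul, mul_sub,
        Polynomial.coeff_sub] at h2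
      show (LinearMap.toMatrix b₀ b₀ ((tateRep W 2 hΔ).ρ t)).trace = 2
      linear_combination -h2
    have h0 : (r t).trace = 0 := by
      rw [Matrix.trace_fin_two] at etr ⊢
      rw [hr, hb, hb, ← map_add, etr, map_ofNat]
      rfl
    exact zero_ne_one (h0.symm.trans h1)
  · have htr : (r φ).trace = ((W.apOfModel l : ℤ) : ZMod 2) := by
      have h := (tateRep_trace_det_frobenius (p := 2) (hΔ := hΔ) hl hgood hl2 hA hφ).1
      rw [GaloisRepAdic.trace,
        LinearMap.trace_eq_matrix_trace _ (RT.Lift.tateStdBasis (p := 2) hΔ)] at h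
      have h' : (matOf (tateRep W 2 hΔ) (RT.Lift.tateStdBasis (p := 2) hΔ) φ).trace =
          (W.apOfModel l : ℤ_[2]) := h
      rw [Matrix.trace_fin_two] at h' ⊢
      rw [hr, hb, hb, ← map_add, h', map_intCast]
    rw [← hker, show (2 : ℤ) = ((2 : ℕ) : ℤ) from rfl, ← ZMod.intCast_zmod_eq_zero_iff_dvd,
      ← htr]
    refine ⟨fun h => by rw [h, trace_one_eq_zero], fun h0 => ?_⟩
    exact (hrot φ hφK).resolve_right fun h1 => zero_ne_one (h0.symm.trans h1)

end Fermat.Agent.Two.Seed
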