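import Fermat.Agent.Two.Seed.Global
import Fermat.Agent.Two.Recip.RingClass
import Fermat.Agent.Two.Seed.TorsionField
import Fermat.Agent.CFT.Idele.Model

/-!
# The cubic character of an auxiliary curve

The two-torsion field of an auxiliary curve is unramified over `quadField W` outside two, so its
cubic ring class character restricted to the units of `K` is the character of the seed.
-/

set_option autoImplicit false
set_option linter.style.haveILetI false

noncomputable section

namespace Fermat.Agent.Two.Seed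

open Brandt Brandt.Param Module
open Fermat.Agent.Arith Fermat.Agent.CFT.Idele
open Fermat.Agent.CFT.Local (padicPlace_liesOverPrime)
open ExtCitation

variable {W : WeierstrassCurve ℤ}

local notation "Q̄" => AlgebraicClosure ℚ

theorem normal_quadField (W : WeierstrassCurve ℤ) : Normal ℚ (quadField W) :=
  IntermediateField.normal_iff_forall_map_le'.mpr fun g => by
    rw [quadField, IntermediateField.adjoin_map, IntermediateField.adjoin_le_iff]
    rintro _ ⟨y, hy, rfl⟩
    refine IntermediateField.subset_adjoin ℚ _ ?_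
    show g y ^ 2 = (W.Δ : Q̄)
    rw [← map_pow, show y ^ 2 = (W.Δ : Q̄) from hy, map_intCast]

variable {P : Param} {K : IntermediateField ℚ Q̄} [NumberField K]

/-- An element of the local order is integral at all places over the prime. -/
theorem norm_emb_toK_le_one (Φ : SqrtD P K) {p : Nat.Primes} {z : P.B} (hz : z ∈ P.localOrder p)
    (h0 : z.imJ = 0 ∧ z.imK = 0) (g : GQ) : ‖emb p (g ((Φ.toK z : K) : Q̄))‖ ≤ 1 := by
  obtain ⟨c, hc, w, hw⟩ := hz
  have hre := congrArg QuaternionAlgebra.re hw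
  have hI := congrArg QuaternionAlgebra.imI hw
  rw [← Nat.cast_smul_eq_nsmul ℚ] at hre hI
  simp [Param.elem] at hre hI
  have e : (c : K) * Φ.toK z = (w 0 : K) + (w 1 : K) * Φ.ω := by
    rw [SqrtD.toK]
    have hre' := congrArg (fun q : ℚ => (q : K)) hre
    have hI' := congrArg (fun q : ℚ => (q : K)) hI
    push_cast at hre' hI'
    linear_combination -hre' - Φ.ω * hI'
  have hω : IsIntegral ℤ ((Φ.ω : K) : Q̄) := Φ.isIntegral_ω.map (K.val.restrictScalars ℤ)
  have hint : IsIntegral ℤ (g ((w 0 : Q̄) + (w 1 : Q̄) * ((Φ.ω : K) : Q̄))) :=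
    ((isIntegral_algebraMap (A := Q̄) (x := w 0)).add
      ((isIntegral_algebraMap (A := Q̄) (x := w 1)).mul hω)).map (g.toAlgHom.restrictScalars ℤ)
  have e' := congrArg (fun x : K => emb p (g (x : Q̄))) e
  push_cast at e'
  rw [map_mul, map_mul, map_natCast] at e'
  have h1 := norm_emb_le_one hint p
  rw [← e', norm_mul, norm_emb_natCast p hc, one_mul] at h1
  exact h1

theorem norm_emb_eq_one_of_localUnits (Φ : SqrtD P K) {p : Nat.Primes} {h : P.fieldUnits}
    (hh : (h : P.Bˣ) ∈ P.localUnits p) (g : GQ) :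
    ‖emb p (g (((Φ.hom h : Kˣ) : K) : Q̄))‖ = 1 := by
  refine le_antisymm (norm_emb_toK_le_one Φ hh.1 (P.mem_fieldUnits.mp h.2) g) ?_
  have hi := norm_emb_toK_le_one Φ
    (inv_mem hh : ((h⁻¹ : P.fieldUnits) : P.Bˣ) ∈ P.localUnits p).1
    (P.mem_fieldUnits.mp (h⁻¹).2) g
  rw [← Subgroup.coe_inv, ← SqrtD.coe_hom Φ (h⁻¹), map_inv, Units.val_inv_eq_inv_val] at hi
  push_cast at hi
  rw [map_inv₀, map_inv₀, norm_inv] at hi
  refine (inv_le_one₀ ?_).mp hi
  rw [norm_pos_iff]
  exact (map_ne_zero _).mpr ((map_ne_zero _).mpr (by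
    exact_mod_cast (Φ.hom h).ne_zero))

/-- A unit of `ℤ + 2 O_K` is congruent to one at two. -/
theorem norm_emb_sub_one_le (Φ : SqrtD P K) {h : P.fieldUnits} (hh : P.IsRingClassUnit h)
    {q : Nat.Primes} (hq : (q : ℕ) = 2) (g : GQ) :
    ‖emb q (g (((Φ.hom h : Kˣ) : K) : Q̄)) - 1‖ ≤ 1 / 2 := by
  obtain rfl : q = primeTwo := Nat.Primes.coe_nat_injective hq
  obtain ⟨hv, c, a, b, hc, hb, hab⟩ := hh
  obtain ⟨b', rfl⟩ := hb
  -- `a` is odd
  have hodd : Odd a := by
    by_contra hev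
    rw [Int.not_odd_iff_even] at hev
    obtain ⟨a', rfl⟩ := hev
    have hc0 : (c : ℚ) ≠ 0 := Nat.cast_ne_zero.mpr fun e => hc (e ▸ dvd_zero _)
    have hn : (c : ℚ) ^ 2 * P.nrd ((h : P.Bˣ) : P.B) = (P.g₀ (a' + a') (2 * b') : ℤ) := by
      rw [← nrd_smul, Nat.cast_smul_eq_nsmul ℚ, hab, nrd_elem]
      norm_cast
      simp [Param.g]
    haveI : Fact (Nat.Prime 2) := ⟨Nat.prime_two⟩
    have hval := congrArg (padicValRat 2) hn
    rw [padicValRat.mul (pow_ne_zero 2 hc0) (P.nrd_unit_pos _).ne', padicValRat.pow,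
      padicValRat.of_nat, padicValNat.eq_zero_of_not_dvd hc, padicValRat.of_int,
      show padicValRat 2 (P.nrd ((h : P.Bˣ) : P.B)) = 0 from hv] at hval
    have hd : ((2 : ℕ) : ℤ) ∣ P.g₀ (a' + a') (2 * b') :=
      ⟨2 * (a' * a' + a' * b' - P.c * (b' * b')), by simp [Param.g₀]; ring⟩
    have hne : P.g₀ (a' + a') (2 * b') ≠ 0 := fun h0 => by
      rw [h0, Int.cast_zero, mul_eq_zero] at hn
      exact hn.elim (pow_ne_zero 2 hc0) (P.nrd_unit_pos _).ne'
    have h1 : 1 ≤ padicValInt 2 (P.g₀ (a' + a') (2 * b')) :=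
      ((padicValInt_dvd_iff 1 _).mp (by simpa using hd)).resolve_left hne
    push_cast at hval
    omega
  obtain ⟨a', ha'⟩ : (2 : ℤ) ∣ a - c := by
    have hco : Odd (c : ℤ) := by
      rw [Int.odd_coe_nat, Nat.odd_iff]
      change ¬ 2 ∣ c at hc
      omega
    exact even_iff_two_dvd.mp (hodd.sub_odd hco)
  have hre := congrArg QuaternionAlgebra.re hab
  have hI := congrArg QuaternionAlgebra.imI hab
  rw [← Nat.cast_smul_eq_nsmul ℚ] at hre hI
  simp [Param.elem] at hre hI
  have e : (c : K) * (((Φ.hom h : Kˣ) : K) - 1) = 2 * ((a' : K) + (b' : K) * Φ.ω) := by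
    rw [SqrtD.coe_hom, SqrtD.toK]
    have hre' := congrArg (fun q : ℚ => (q : K)) hre
    have hI' := congrArg (fun q : ℚ => (q : K)) hI
    have ha2 := congrArg (fun n : ℤ => (n : K)) ha'
    push_cast at hre' hI' ha2
    linear_combination hre' + Φ.ω * hI' + ha2
  have hω : IsIntegral ℤ ((Φ.ω : K) : Q̄) := Φ.isIntegral_ω.map (K.val.restrictScalars ℤ)
  have hint : IsIntegral ℤ (g ((a' : Q̄) + (b' : Q̄) * ((Φ.ω : K) : Q̄))) :=
    ((isIntegral_algebraMap (A := Q̄) (x := a')).add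
      ((isIntegral_algebraMap (A := Q̄) (x := b')).mul hω)).map (g.toAlgHom.restrictScalars ℤ)
  have e' := congrArg (fun x : K => ‖emb primeTwo (g (x : Q̄))‖) e
  push_cast at e'
  simp only [map_mul, map_sub, map_natCast, map_one, norm_mul] at e'
  rw [← map_natCast (emb primeTwo) c, norm_emb_natCast primeTwo hc, one_mul] at e'
  rw [e']
  have h2 : ‖(2 : CFT.Idele.Ω primeTwo)‖ = 1 / 2 := by
    rw [show (2 : CFT.Idele.Ω primeTwo) = ((2 : ℚ) : CFT.Idele.Ω primeTwo) by norm_num,
      Recip.norm_ratCast_Ω]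
    haveI : Fact (Nat.Prime 2) := ⟨Nat.prime_two⟩
    rw [Rat.cast_ofNat, show (2 : ℚ_[(primeTwo : ℕ)]) = (((2 : ℕ) : ℚ_[2])) by norm_num,
      Padic.norm_p]
    norm_num
  rw [show (((2 : K) : Q̄)) = 2 from map_ofNat K.val 2, map_ofNat, map_ofNat, h2]
  exact mul_le_of_le_one_right (by norm_num) (norm_emb_le_one hint primeTwo)

/-- **The character of the seed exists.** -/
theorem exists_isPsi {V : Finset ℕ} (hW : TwoCurve W) (S : Setup W V) :
    ∃ ψ : Nat.Primes → S.P.fieldUnits →* Multiplicative (ZMod 3), IsPsi S ψ := by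
  classical
  haveI : Fact (Nat.Prime 2) := ⟨Nat.prime_two⟩
  obtain ⟨H, hfd, hnorm, hKH, hH, hunr, hval⟩ := exists_torsionField hW
  haveI := hfd
  haveI := hnorm
  haveI := normal_quadField W
  obtain ⟨χ, hfin, hprod, hunit, -, hconj, hvalue⟩ := Recip.exists_ringClassChar hKH
    (Basic.finrank_quadField hW) hH hunr
  obtain ⟨Φ⟩ := nonempty_sqrtD hW S
  have hσ : Φ.σ ≠ 1 := fun h1 => by
    have h := Φ.σ_d
    rw [h1, AlgEquiv.one_apply, eq_neg_iff_add_eq_zero, ← two_mul, mul_eq_zero] at h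
    have hd := Φ.sq
    rw [h.resolve_left two_ne_zero, zero_pow two_ne_zero, eq_comm, Int.cast_eq_zero] at hd
    exact S.P.hD.ne hd
  have hstar : ∀ h : S.P.fieldUnits,
      Φ.hom ⟨star (h : S.P.Bˣ), S.P.star_mem_fieldUnits h.2⟩ = Φ.σ • Φ.hom h := fun h =>
    Units.ext (Φ.σ_toK _ (S.P.mem_fieldUnits.mp h.2)).symm
  refine ⟨fun p => (χ p).comp Φ.hom, fun h => hfin _, fun h => hprod _, fun p hp h hh => ?_,
    fun h hh => ?_, fun p h => ?_, fun l hl hl2 ρ => ?_⟩
  · exact hunit p _ (fun g => norm_emb_eq_one_of_localUnits Φ hh g)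
      fun e => absurd (Nat.Primes.coe_nat_injective e) hp
  · obtain ⟨hv, c, a, b', hc, hb', hab⟩ := hh
    have hmem : (h : S.P.Bˣ) ∈ S.P.localUnits primeTwo :=
      ⟨⟨c, hc, ![a, b', 0, 0], hab.symm⟩, hv⟩
    exact hunit primeTwo _ (fun g => norm_emb_eq_one_of_localUnits Φ hmem g)
      fun e g => norm_emb_sub_one_le Φ ⟨hv, c, a, b', hc, hb', hab⟩ e g
  · show χ p (Φ.hom _) = _
    rw [hstar]
    exact hconj p _ _ hσ
  · -- the value at a split prime
    haveI : Fact (l : ℕ).Prime := ⟨l.2⟩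
    set π : S.P.fieldUnits := ⟨ρ.π, ρ.π_mem⟩
    set x : (quadField W)ˣ := Φ.hom π
    have hxy : ∀ g : GQ, (¬ ∀ z ∈ quadField W, g z = z) → ∀ z : quadField W,
        g (z : Q̄) = ((Φ.σ z : quadField W) : Q̄) := fun g hg z => by
      haveI : Algebra.IsQuadraticExtension ℚ (quadField W) := ⟨Basic.finrank_quadField hW⟩
      set τ := AlgEquiv.restrictNormalHom (quadField W) g
      have hτ : τ ≠ 1 := fun h1 => hg fun w hw => by
        have := AlgEquiv.restrictNormal_commutes g (quadField W) ⟨w, hw⟩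
        rw [show g.restrictNormal (quadField W) = τ from rfl, h1] at this
        exact this.symm
      have hcard : Nat.card (quadField W ≃ₐ[ℚ] quadField W) = 2 := by
        haveI : IsGalois ℚ (quadField W) := ⟨⟩
        rw [IsGalois.card_aut_eq_finrank, Basic.finrank_quadField hW]
      have hτσ : τ = Φ.σ := ((Nat.card_eq_two_iff' (1 : quadField W ≃ₐ[ℚ] quadField W)).mp
        hcard).unique hτ hσ
      rw [← hτσ]
      exact (AlgEquiv.restrictNormal_commutes g (quadField W) z).symm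
    -- the sum and the product of the element and its conjugate
    set y : quadField W := Φ.σ (x : quadField W)
    obtain ⟨m, hm⟩ := ρ.dvd
    have hml : ¬ ((l : ℕ) : ℤ) ∣ m := fun h => ρ.not_sq_dvd (by
      rw [hm, pow_two]; exact mul_dvd_mul_left _ h)
    have hxK : (x : quadField W) = (ρ.r : quadField W) - Φ.ω := by
      show Φ.toK ((ρ.π : S.P.Bˣ) : S.P.B) = _
      simp [SqrtD.toK, SplitRoot.π, Param.elem]
      ring
    have hyK : y = (ρ.r : quadField W) - 1 + Φ.ω := by
      show Φ.σ (x : quadField W) = _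
      rw [hxK, map_sub, map_intCast, Φ.σ_ω]; ring
    have hsum : (x : quadField W) + y = ((2 * ρ.r - 1 : ℤ) : quadField W) := by
      rw [hxK, hyK]; push_cast; ring
    have hmul : (x : quadField W) * y = ((((l : ℕ) : ℤ) * m : ℤ) : quadField W) := by
      rw [hxK, hyK, ← hm]
      have h := Φ.ω_sq
      push_cast
      linear_combination -h
    have hint : ∀ g : GQ, ∀ z : quadField W, IsIntegral ℤ z → ‖emb l (g (z : Q̄))‖ ≤ 1 :=
      fun g z hz => norm_emb_le_one
        ((hz.map ((quadField W).val.restrictScalars ℤ)).map (g.toAlgHom.restrictScalars ℤ)) l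
    have hxint : IsIntegral ℤ (x : quadField W) := by
      rw [hxK]
      exact (isIntegral_algebraMap (A := quadField W) (x := ρ.r)).sub Φ.isIntegral_ω
    have hyint : IsIntegral ℤ y := hxint.map (Φ.σ.toAlgHom.restrictScalars ℤ)
    have hN : ∀ n : ℤ, ¬ ((l : ℕ) : ℤ) ∣ n → ‖emb l (((n : quadField W) : Q̄))‖ = 1 :=
      fun n hn => by
      have h1 : ‖emb l ((n.natAbs : ℕ) : Q̄)‖ = 1 :=
        norm_emb_natCast l fun hd => hn (Int.natCast_dvd.mpr hd)
      rcases Int.natAbs_eq n with e | e <;> rw [e] <;> push_cast <;>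
        simpa [map_neg, norm_neg] using h1
    have hs1 : ‖emb l ((x : quadField W) : Q̄) + emb l (y : Q̄)‖ = 1 := by
      rw [← map_add, ← IntermediateField.coe_add, hsum]
      exact hN _ ρ.simple
    have hp1 : ‖emb l ((x : quadField W) : Q̄)‖ * ‖emb l (y : Q̄)‖ = ((l : ℕ) : ℝ)⁻¹ := by
      rw [← norm_mul, ← map_mul, ← IntermediateField.coe_mul, hmul, Int.cast_mul,
        IntermediateField.coe_mul, map_mul, norm_mul, hN m hml, mul_one, Int.cast_natCast]
      push_cast
      rw [map_natCast, ← map_natCast (algebraMap ℚ_[(l : ℕ)] (CFT.Idele.Ω l)), norm_algebraMap',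
        Padic.norm_p]
    have hx1 := hint 1 _ hxint
    have hy1 := hint 1 _ hyint
    rw [AlgEquiv.one_apply] at hx1 hy1
    have hone : ‖emb l ((x : quadField W) : Q̄)‖ = 1 ∨ ‖emb l (y : Q̄)‖ = 1 := by
      have h := IsUltrametricDist.norm_add_le_max (emb l ((x : quadField W) : Q̄)) (emb l (y : Q̄))
      rw [hs1] at h
      rcases le_max_iff.mp h with h' | h'
      · exact Or.inl (le_antisymm hx1 h')
      · exact Or.inr (le_antisymm hy1 h')
    -- Frobenius fixes the torsion field exactly for even trace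
    have hfrob : (∀ φ : GQ, (padicPlace (l : ℕ)).IsFrobeniusAt φ (l : ℕ) → ∀ z ∈ H, φ z = z) ↔
        (2 : ℤ) ∣ W.apOfModel l := by
      have hsq : IsSquare (W.Δ : ZMod (l : ℕ)) := by
        refine (isSquare_D_iff hW S hl).mp ⟨((2 * ρ.r - 1 : ℤ) : ZMod (l : ℕ)), ?_⟩
        rw [← sub_eq_zero, ← Int.cast_mul, ← Int.cast_sub, ZMod.intCast_zmod_eq_zero_iff_dvd,
          show S.P.D - (2 * ρ.r - 1) * (2 * ρ.r - 1) = -4 * (ρ.r ^ 2 - ρ.r - S.P.c) by
            rw [S.P.hc]; ring]
        exact ρ.dvd.mul_left _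
      have key : ∀ φ : GQ, (padicPlace (l : ℕ)).IsFrobeniusAt φ (l : ℕ) →
          ((∀ z ∈ H, φ z = z) ↔ (2 : ℤ) ∣ W.apOfModel l) := fun φ hφ => by
        have hK := (Class.mem_galK_iff_isSquare l.2 hl2 hl (padicPlace_liesOverPrime _) hφ).mpr hsq
        exact hval _ l.2 hl hl2 _ (padicPlace_liesOverPrime _) φ hφ hK
      constructor
      · intro h
        obtain ⟨φ, hφ⟩ := exists_isFrobeniusAt (padicPlace_liesOverPrime (l : ℕ)) l.2
        exact (key φ hφ).mp (h φ hφ)
      · exact fun h φ hφ => (key φ hφ).mpr h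
    show χ l x = 1 ↔ _
    rcases hone with hA | hA
    · have hB : ‖emb l (y : Q̄)‖ = ((l : ℕ) : ℝ)⁻¹ := by rwa [hA, one_mul] at hp1
      have hv := hvalue l hl2 (Φ.σ • x) hB fun g hg => by
        rw [hxy g hg]
        show ‖emb l ((Φ.σ (Φ.σ (x : quadField W)) : quadField W) : Q̄)‖ = 1
        rw [show Φ.σ (Φ.σ (x : quadField W)) = (x : quadField W) by
          rw [show Φ.σ (x : quadField W) = y from rfl, hyK, map_add, map_sub, map_intCast, map_one,
            Φ.σ_ω, hxK]; ring]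
        exact hA
      rw [hconj l x _ hσ, inv_eq_one] at hv
      exact hv.trans hfrob
    · have hB : ‖emb l ((x : quadField W) : Q̄)‖ = ((l : ℕ) : ℝ)⁻¹ := by rwa [hA, mul_one] at hp1
      exact (hvalue l hl2 x hB fun g hg => by rw [hxy g hg]; exact hA).trans hfrob

end Fermat.Agent.Two.Seed

end
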