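import Fermat.Agent.Two.Seed.Char
import Fermat.Agent.Two.Brandt.Level

/-!
# The involution fixing the imaginary quadratic field

On the algebra `B = K + K j` the automorphism `x + y j ↦ x - y j` preserves the order; its fixed
units are those of `K`.
-/

set_option autoImplicit false

noncomputable section

namespace Fermat.Agent.Two.Brandt.Param

open QuaternionAlgebra

variable (P : Param)

/-- The automorphism `x + y j ↦ x - y j`. -/
def flip : P.B ≃+* P.B where
  toFun z := ⟨z.re, z.imI, -z.imJ, -z.imK⟩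
  invFun z := ⟨z.re, z.imI, -z.imJ, -z.imK⟩
  left_inv z := by ext <;> simp
  right_inv z := by ext <;> simp
  map_mul' z w := by ext <;> simp <;> ring
  map_add' z w := by ext <;> simp <;> ring

@[simp] theorem flip_re (z : P.B) : (P.flip z).re = z.re := rfl
@[simp] theorem flip_imI (z : P.B) : (P.flip z).imI = z.imI := rfl
@[simp] theorem flip_imJ (z : P.B) : (P.flip z).imJ = -z.imJ := rfl
@[simp] theorem flip_imK (z : P.B) : (P.flip z).imK = -z.imK := rfl

theorem flip_flip (z : P.B) : P.flip (P.flip z) = z := P.flip.left_inv z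

theorem flip_elem (v : Fin 4 → ℤ) : P.flip (P.elem v) = P.elem ![v 0, v 1, -v 2, -v 3] := by
  ext <;> simp [elem]; ring

theorem nrd_flip (z : P.B) : P.nrd (P.flip z) = P.nrd z := by
  rw [nrd_def, nrd_def, flip_re, flip_imI, flip_imJ, flip_imK]; ring

theorem flip_mem_order {z : P.B} (hz : z ∈ P.order) : P.flip z ∈ P.order := by
  obtain ⟨v, rfl⟩ := hz
  exact ⟨_, (P.flip_elem v).symm⟩

theorem flip_mem_localOrder (p : Nat.Primes) {z : P.B} (hz : z ∈ P.localOrder p) :
    P.flip z ∈ P.localOrder p := by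
  obtain ⟨c, hc, h⟩ := hz
  exact ⟨c, hc, by rw [← map_nsmul]; exact P.flip_mem_order h⟩

theorem vp_flip (p : Nat.Primes) (z : P.B) : P.vp p (P.flip z) = P.vp p z := by
  rw [vp, nrd_flip]; rfl

/-- The automorphism on units. -/
def flipUnit : P.Bˣ ≃* P.Bˣ := Units.mapEquiv P.flip.toMulEquiv

@[simp] theorem coe_flipUnit (u : P.Bˣ) : (P.flipUnit u : P.B) = P.flip u := rfl

theorem flipUnit_flipUnit (u : P.Bˣ) : P.flipUnit (P.flipUnit u) = u :=
  Units.ext (P.flip_flip _)

theorem flipUnit_mem_cell {p : Nat.Primes} {v : ℕ} {u : P.Bˣ} (hu : u ∈ P.cell p v) :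
    P.flipUnit u ∈ P.cell p v :=
  ⟨P.flip_mem_localOrder p hu.1, by rw [coe_flipUnit, vp_flip]; exact hu.2⟩

theorem flipUnit_mem_localUnits {p : Nat.Primes} {u : P.Bˣ} (hu : u ∈ P.localUnits p) :
    P.flipUnit u ∈ P.localUnits p := by
  rw [← SetLike.mem_coe, ← cell_zero] at hu ⊢
  exact P.flipUnit_mem_cell hu

/-- The units of `K`. -/
def fieldUnits : Subgroup P.Bˣ where
  carrier := {u | P.flipUnit u = u}
  one_mem' := map_one _
  mul_mem' := fun {u v} (hu : _ = u) (hv : _ = v) => show _ = _ by rw [map_mul, hu, hv]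
  inv_mem' := fun {u} (hu : _ = u) => show _ = _ by rw [map_inv, hu]

theorem mem_fieldUnits {u : P.Bˣ} :
    u ∈ P.fieldUnits ↔ (u : P.B).imJ = 0 ∧ (u : P.B).imK = 0 := by
  constructor
  · intro (h : P.flipUnit u = u)
    have hJ := congrArg (fun v : P.Bˣ => (v : P.B).imJ) h
    have hK := congrArg (fun v : P.Bˣ => (v : P.B).imK) h
    simp only [coe_flipUnit, flip_imJ, flip_imK] at hJ hK
    exact ⟨by linarith, by linarith⟩
  · rintro ⟨hJ, hK⟩
    exact Units.ext (QuaternionAlgebra.ext rfl rfl (by simp [hJ]) (by simp [hK]))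

theorem nrd_of_mem_fieldUnits {u : P.Bˣ} (hu : u ∈ P.fieldUnits) :
    P.nrd u = (u : P.B).re ^ 2 + (u : P.B).re * (u : P.B).imI - P.c * (u : P.B).imI ^ 2 := by
  obtain ⟨hJ, hK⟩ := P.mem_fieldUnits.mp hu
  rw [nrd_def, hJ, hK]; ring

/-- The element `j`. -/
def jUnit : P.Bˣ := P.unitOf ⟨0, 0, 1, 0⟩ fun h => one_ne_zero (congrArg QuaternionAlgebra.imJ h)

theorem flipUnit_jUnit : P.flipUnit P.jUnit = -P.jUnit :=
  Units.ext (by ext <;> simp [jUnit])

theorem nrd_jUnit : P.nrd (P.jUnit : P.B) = (P.e : ℚ) / P.M := by simp [jUnit, nrd_def]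

theorem star_mem_fieldUnits {u : P.Bˣ} (hu : u ∈ P.fieldUnits) : star u ∈ P.fieldUnits := by
  obtain ⟨hJ, hK⟩ := P.mem_fieldUnits.mp hu
  exact P.mem_fieldUnits.mpr (by simp [Units.coe_star, hJ, hK])

/-- `j` induces the conjugation of `K`. -/
theorem jUnit_mul {u : P.Bˣ} (hu : u ∈ P.fieldUnits) : P.jUnit * u = star u * P.jUnit := by
  obtain ⟨hJ, hK⟩ := P.mem_fieldUnits.mp hu
  refine Units.ext ?_
  rw [Units.val_mul, Units.val_mul, Units.coe_star]
  ext <;> simp [jUnit, hJ, hK]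

theorem jUnit_mul_self_mem : P.jUnit * P.jUnit ∈ P.fieldUnits := by
  show P.flipUnit _ = _
  rw [map_mul, flipUnit_jUnit, neg_mul_neg]

theorem jUnit_mem_localUnits {p : Nat.Primes} (he : ¬ ((p : ℕ) : ℤ) ∣ P.e)
    (hM : ¬ ((p : ℕ) : ℤ) ∣ P.M) : P.jUnit ∈ P.localUnits p := by
  have : Fact (p : ℕ).Prime := ⟨p.2⟩
  have hMn : ((P.M.natAbs : ℕ) : ℚ) = P.M := by rw [Nat.cast_natAbs, abs_of_pos P.hM]
  refine ⟨⟨P.M.natAbs, fun h => hM (Int.natCast_dvd.mpr h), ![0, 0, 1, 0], ?_⟩, ?_⟩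
  · rw [← Nat.cast_smul_eq_nsmul ℚ, hMn]
    ext <;> simp [elem, jUnit]
  · rw [vp, nrd_jUnit, padicValRat.div (Int.cast_ne_zero.mpr P.he.ne')
      (Int.cast_ne_zero.mpr P.hM.ne'), padicValRat.of_int, padicValRat.of_int,
      padicValInt.eq_zero_of_not_dvd he, padicValInt.eq_zero_of_not_dvd hM, sub_self]

/-- A prime at which the norm form of `K` has no zero. -/
def Inert (p : Nat.Primes) : Prop :=
  ∀ a b : ℤ, ((p : ℕ) : ℤ) ∣ P.g₀ a b → ((p : ℕ) : ℤ) ∣ a ∧ ((p : ℕ) : ℤ) ∣ b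

theorem inert_of_not_isSquare {p : Nat.Primes} (_hp : (p : ℕ) ≠ 2)
    (h : ¬ IsSquare (P.D : ZMod (p : ℕ))) : P.Inert p := by
  have : Fact (p : ℕ).Prime := ⟨p.2⟩
  intro a b hab
  rw [← ZMod.intCast_zmod_eq_zero_iff_dvd] at hab ⊢
  have hc : (P.D : ZMod (p : ℕ)) = 4 * (P.c : ZMod (p : ℕ)) + 1 := by
    rw [P.hc]; push_cast; rfl
  simp only [g₀, Int.cast_add, Int.cast_sub, Int.cast_mul, Int.cast_pow] at hab
  have hb : (b : ZMod (p : ℕ)) = 0 := by
    by_contra hb
    refine h ⟨(2 * a + b) / b, ?_⟩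
    field_simp
    rw [hc]
    linear_combination (-4 : ZMod (p : ℕ)) * hab
  rw [hb] at hab
  refine ⟨?_, (ZMod.intCast_zmod_eq_zero_iff_dvd _ _).mp hb⟩
  exact pow_eq_zero_iff two_ne_zero |>.mp (by simpa using hab)

/-- Norms from `K` have even valuation at an inert prime. -/
theorem Inert.even_vp {p : Nat.Primes} (h : P.Inert p) {u : P.Bˣ} (hu : u ∈ P.fieldUnits) :
    Even (P.vp p u) := by
  have : Fact (p : ℕ).Prime := ⟨p.2⟩
  set x := (u : P.B).re
  set y := (u : P.B).imI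
  rw [vp, P.nrd_of_mem_fieldUnits hu]
  have hpos := P.nrd_unit_pos u
  rw [P.nrd_of_mem_fieldUnits hu] at hpos
  rcases eq_or_ne y 0 with hy | hy
  · have hx : x ≠ 0 := fun hx => by
      change (u : P.B).re = 0 at hx; change (u : P.B).imI = 0 at hy; simp [hx, hy] at hpos
    rw [show (u : P.B).imI = 0 from hy]
    simp only [mul_zero, add_zero, zero_pow two_ne_zero, sub_zero]
    exact ⟨padicValRat p x, by rw [padicValRat.pow, Nat.cast_two, two_mul]⟩
  · set t := x / y
    set N := P.g₀ t.num t.den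
    have hN : ¬ ((p : ℕ) : ℤ) ∣ N := fun hd => by
      obtain ⟨h1, h2⟩ := h _ _ hd
      refine p.2.not_dvd_one ?_
      have := Nat.dvd_gcd (Int.natCast_dvd.mp h1) (Int.natCast_dvd_natCast.mp h2)
      rwa [t.reduced] at this
    have hd : (t.den : ℚ) ≠ 0 := Nat.cast_ne_zero.mpr t.den_nz
    have e : x ^ 2 + x * y - P.c * y ^ 2 = (y / t.den) ^ 2 * N := by
      have hx : x = t.num * (y / t.den) := by
        rw [← Rat.mul_den_eq_num t]; field_simp
        exact (div_mul_cancel₀ x hy).symm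
      rw [hx]
      simp only [N, g₀, Int.cast_add, Int.cast_sub, Int.cast_mul, Int.cast_pow, Int.cast_natCast]
      field_simp
    have hN0 : N ≠ 0 := fun e => hN (e ▸ dvd_zero _)
    show Even (padicValRat (p : ℕ) (x ^ 2 + x * y - P.c * y ^ 2))
    rw [e, padicValRat.mul (pow_ne_zero 2 (div_ne_zero hy hd)) (Int.cast_ne_zero.mpr hN0),
      padicValRat.pow, padicValRat.of_int, padicValInt.eq_zero_of_not_dvd hN]
    exact ⟨padicValRat p (y / t.den), by push_cast; ring⟩

variable {P}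

namespace Sub

variable (Λ : P.Sub)

/-- The level is stable under the involution. -/
def Stable : Prop := ∀ p, ∀ u ∈ Λ.W p, P.flipUnit u ∈ Λ.W p

theorem stable_stdSub : (P.stdSub).Stable := fun _ _ hu => P.flipUnit_mem_localUnits hu

variable {Λ} (hst : Λ.Stable)

/-- The involution of a stable level. -/
def invol : Seed.Invol Λ.level where
  σ := P.flipUnit
  invol := P.flipUnit_flipUnit
  mem := hst

theorem locStable_cellOp (p : Nat.Primes) (v : ℕ) : (invol hst).LocStable (Λ.cellOp p v) := by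
  refine (Multiset.Nodup.ext ((Λ.nodup_cellOp p v).map fun a b e => ?_) (Λ.nodup_cellOp p v)).mpr
    fun a => ?_
  · rw [← (invol hst).coset_coset p a, e, (invol hst).coset_coset]
  obtain ⟨g, rfl⟩ := QuotientGroup.mk_surjective a
  rw [Multiset.mem_map]
  constructor
  · rintro ⟨b, hb, e⟩
    obtain ⟨h, rfl⟩ := QuotientGroup.mk_surjective b
    rw [← e]
    exact mem_cellOp_iff.mpr (P.flipUnit_mem_cell (mem_cellOp_iff.mp hb))
  · intro hg
    refine ⟨QuotientGroup.mk (P.flipUnit g),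
      mem_cellOp_iff.mpr (P.flipUnit_mem_cell (mem_cellOp_iff.mp hg)), ?_⟩
    exact congrArg QuotientGroup.mk (P.flipUnit_flipUnit g)

variable {F : Type*} [CommRing F] (ch : Seed.Chars (invol hst) F)

/-- **Separation**: points locally in the orbits of the base cosets only differ by elements of `K`
and of `K j`. -/
theorem mem_or_of_cm (hH : ch.H = P.fieldUnits)
    (hstab : ∀ (x : Pt Λ.level) (g : P.Bˣ), g • x = x → g = 1 ∨ g = -1) (g : P.Bˣ)
    (x : Pt Λ.level) (hx : ch.CM x) (hgx : ch.CM (g • x)) :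
    g ∈ ch.H ∨ ∃ h : ch.H, g = (h : P.Bˣ) * P.jUnit := by
  rcases hstab x _ (ch.inv_mul_smul_eq hx hgx) with h | h
  · left
    rw [hH]
    exact (inv_mul_eq_one.mp h).symm
  right
  have e : P.flipUnit g = -g := by
    have := congrArg (fun u : P.Bˣ => g * u) h
    simpa [invol] using this
  refine ⟨⟨g * P.jUnit⁻¹, ?_⟩, (inv_mul_cancel_right g P.jUnit).symm⟩
  rw [hH]
  show P.flipUnit _ = _
  rw [map_mul, map_inv, e, P.flipUnit_jUnit, inv_neg, neg_mul_neg]

end Sub

end Fermat.Agent.Two.Brandt.Param
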