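import Mathlib.Algebra.MonoidAlgebra.Basic
import Mathlib.Algebra.CharP.Two
import Mathlib.Algebra.CharP.Algebra
import Mathlib.Algebra.CharP.Lemmas
import Mathlib.RingTheory.Noetherian.Nilpotent
import Mathlib.RingTheory.Noetherian.Basic
import Mathlib.Algebra.Algebra.ZMod
import Mathlib.Algebra.Field.ZMod
import Mathlib.LinearAlgebra.Basis.VectorSpace
import Mathlib.FieldTheory.Finiteness
import Mathlib.LinearAlgebra.Dimension.Constructions
import Mathlib.RingTheory.LocalRing.Basic
import Mathlib.RingTheory.Nilpotent.Basic
import Mathlib.RingTheory.Nilpotent.Lemmas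
import Mathlib.LinearAlgebra.Finsupp.VectorSpace
import Mathlib.GroupTheory.PGroup

/-!
# Group algebras of finite commutative two-groups in characteristic two

The augmentation is a local map with nilpotent kernel, a subalgebra which is everything modulo the
square of the kernel is everything, and a subring spanning over the field has at least `2 ^ n`
elements, `n` the order of the group.
-/

set_option autoImplicit false
set_option linter.style.haveILetI false

noncomputable section

namespace Fermat.Agent.Two.Seed

open MonoidAlgebra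

variable {k : Type*} [Field k] {G : Type*} [CommGroup G]

/-- The augmentation. -/
def augment : MonoidAlgebra k G →ₐ[k] k := lift k k G 1

@[simp]
theorem augment_of (g : G) : augment (of k G g) = (1 : k) := by simp [augment]

theorem ker_augment_le_span :
    RingHom.ker (augment (k := k) (G := G)).toRingHom ≤
      Ideal.span (Set.range fun g => of k G g - 1) := by
  intro f hf
  have key : ∀ f : MonoidAlgebra k G,
      f - algebraMap k _ (augment f) ∈ Ideal.span (Set.range fun g => of k G g - 1) := fun f => by
    induction f using MonoidAlgebra.induction_on with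
    | of g =>
      rw [augment_of, map_one]
      exact Ideal.subset_span ⟨g, rfl⟩
    | add a b ha hb => rw [map_add, map_add, add_sub_add_comm]; exact add_mem ha hb
    | smul r a ha =>
      rw [map_smul, smul_eq_mul, map_mul, ← Algebra.smul_def, ← smul_sub]
      exact Submodule.smul_of_tower_mem _ r ha
  have h := key f
  rwa [show augment f = 0 from hf, map_zero, sub_zero] at h

variable [CharP k 2] [Finite G]

omit [Finite G] in
theorem isNilpotent_of_sub_one (hG : IsPGroup 2 G) (g : G) : IsNilpotent (of k G g - 1) := by
  obtain ⟨n, hn⟩ := hG g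
  refine ⟨2 ^ n, ?_⟩
  haveI : CharP (MonoidAlgebra k G) 2 := charP_of_injective_algebraMap' k 2
  rw [sub_pow_char_pow, one_pow, ← map_pow, hn, map_one, sub_self]

omit [Finite G] in
theorem isNilpotent_of_augment_eq_zero (hG : IsPGroup 2 G) {f : MonoidAlgebra k G}
    (hf : augment f = 0) : IsNilpotent f := by
  have h := ker_augment_le_span (show f ∈ RingHom.ker (augment (k := k) (G := G)).toRingHom from hf)
  have hle : Ideal.span (Set.range fun g => of k G g - 1) ≤ nilradical (MonoidAlgebra k G) :=
    Ideal.span_le.mpr (by rintro _ ⟨g, rfl⟩; exact mem_nilradical.mpr (isNilpotent_of_sub_one hG g))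
  exact mem_nilradical.mp (hle h)

omit [Finite G] in
theorem isLocalHom_augment (hG : IsPGroup 2 G) :
    IsLocalHom (augment (k := k) (G := G)).toRingHom := by
  refine ⟨fun f hf => ?_⟩
  have e : f = algebraMap k _ (augment f) + (f - algebraMap k _ (augment f)) := by abel
  rw [e]
  refine IsNilpotent.isUnit_add_left_of_commute (isNilpotent_of_augment_eq_zero hG ?_)
    (RingHom.isUnit_map _ hf) (Commute.all _ _)
  rw [map_sub, AlgHom.commutes, Algebra.algebraMap_self, RingHom.id_apply, sub_self]

/-- **Spanning modulo the square of the kernel is spanning.** -/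
theorem subalgebra_eq_top (hG : IsPGroup 2 G) (S : Subalgebra k (MonoidAlgebra k G)) (Γ₀ : Set G)
    (hΓ : Subgroup.closure Γ₀ = ⊤)
    (hS : ∀ g ∈ Γ₀, ∃ s ∈ S,
      (of k G g - 1) - s ∈ RingHom.ker (augment (k := k) (G := G)).toRingHom ^ 2) :
    S = ⊤ := by
  set J := RingHom.ker (augment (k := k) (G := G)).toRingHom with hJ
  have hof : ∀ g, of k G g - 1 ∈ J := fun g => by
    show augment (of k G g - 1) = 0
    rw [map_sub, augment_of, map_one, sub_self]
  have hgen : ∀ g, ∃ s ∈ S, (of k G g - 1) - s ∈ J ^ 2 := by
    have hmem : ∀ g, g ∈ Submonoid.closure Γ₀ := fun g => by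
      rw [← Subgroup.closure_toSubmonoid_of_finite, hΓ]
      exact Subgroup.mem_top g
    intro g
    induction hmem g using Submonoid.closure_induction with
    | mem x hx => exact hS x hx
    | one => exact ⟨0, zero_mem S, by rw [map_one, sub_self, sub_zero]; exact zero_mem _⟩
    | mul x y _ _ hx hy =>
      obtain ⟨s, hs, hxs⟩ := hx
      obtain ⟨t, ht, hyt⟩ := hy
      refine ⟨s + t, add_mem hs ht, ?_⟩
      rw [map_mul, show of k G x * of k G y - 1 - (s + t) = (of k G x - 1 - s) + (of k G y - 1 - t) +
        (of k G x - 1) * (of k G y - 1) by ring]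
      exact add_mem (add_mem hxs hyt) (pow_two J ▸ Ideal.mul_mem_mul (hof x) (hof y))
  -- every element of the kernel is in `S` modulo the square
  have hone : ∀ f ∈ J, ∃ s ∈ S, f - s ∈ J ^ 2 := by
    have key : ∀ f : MonoidAlgebra k G, ∃ s ∈ S, f - algebraMap k _ (augment f) - s ∈ J ^ 2 :=
      fun f => by
        induction f using MonoidAlgebra.induction_on with
        | of g => rw [augment_of, map_one]; exact hgen g
        | add a b ha hb =>
          obtain ⟨s, hs, has⟩ := ha
          obtain ⟨t, ht, hbt⟩ := hb
          refine ⟨s + t, add_mem hs ht, ?_⟩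
          rw [map_add, map_add, show a + b - (algebraMap k (MonoidAlgebra k G) (augment a) +
            algebraMap k (MonoidAlgebra k G) (augment b)) - (s + t) =
            (a - algebraMap k _ (augment a) - s) + (b - algebraMap k _ (augment b) - t) by ring]
          exact add_mem has hbt
        | smul r a ha =>
          obtain ⟨s, hs, has⟩ := ha
          refine ⟨r • s, S.smul_mem hs r, ?_⟩
          rw [map_smul, smul_eq_mul, map_mul, ← Algebra.smul_def, ← smul_sub, ← smul_sub]
          exact Submodule.smul_of_tower_mem _ r has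
    intro f hf
    obtain ⟨s, hs, h⟩ := key f
    rw [show augment f = 0 from hf, map_zero, sub_zero] at h
    exact ⟨s, hs, h⟩
  have hstep : ∀ n, ∀ f ∈ J ^ (n + 1), ∃ s ∈ S, f - s ∈ J ^ (n + 2) := by
    intro n
    induction n with
    | zero => intro f hf; rw [zero_add, pow_one] at hf; exact hone f hf
    | succ n ih =>
      intro f hf
      rw [pow_succ' J (n + 1)] at hf
      induction hf using Submodule.mul_induction_on' with
      | mem_mul_mem a ha b hb =>
        obtain ⟨s, hs, has⟩ := hone a ha
        obtain ⟨t, ht, hbt⟩ := ih b hb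
        refine ⟨s * t, mul_mem hs ht, ?_⟩
        have hsJ : s ∈ J := by
          have := sub_mem ha (Ideal.pow_le_self two_ne_zero has)
          rwa [sub_sub_cancel] at this
        rw [show a * b - s * t = (a - s) * b + s * (b - t) by ring]
        refine add_mem ?_ ?_
        · rw [show n + 1 + 2 = 2 + (n + 1) by omega, pow_add]
          exact Ideal.mul_mem_mul has hb
        · rw [show n + 1 + 2 = (n + 2) + 1 by omega, pow_succ']
          exact Ideal.mul_mem_mul hsJ hbt
      | add a _ b _ ha hb =>
        obtain ⟨s, hs, has⟩ := ha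
        obtain ⟨t, ht, hbt⟩ := hb
        exact ⟨s + t, add_mem hs ht, by rw [add_sub_add_comm]; exact add_mem has hbt⟩
  have hall : ∀ n, ∀ f ∈ J, ∃ s ∈ S, f - s ∈ J ^ (n + 1) := by
    intro n
    induction n with
    | zero => exact fun f hf => ⟨0, zero_mem S, by rwa [zero_add, pow_one, sub_zero]⟩
    | succ n ih =>
      intro f hf
      obtain ⟨s, hs, h⟩ := ih f hf
      obtain ⟨t, ht, h'⟩ := hstep n _ h
      exact ⟨s + t, add_mem hs ht, by rwa [← sub_sub]⟩
  obtain ⟨N, hN⟩ : IsNilpotent J := by
    haveI : Module.Finite k (MonoidAlgebra k G) := Module.Finite.of_basis (MonoidAlgebra.basis G k)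
    haveI : IsNoetherianRing (MonoidAlgebra k G) := IsNoetherianRing.of_finite k _
    rw [Ideal.FG.isNilpotent_iff_le_nilradical (IsNoetherian.noetherian J)]
    exact fun f hf => mem_nilradical.mpr (isNilpotent_of_augment_eq_zero hG hf)
  refine eq_top_iff.mpr fun f _ => ?_
  obtain ⟨s, hs, h⟩ := hall N (f - algebraMap k _ (augment f)) (by
    show augment (f - algebraMap k _ (augment f)) = 0
    rw [map_sub, AlgHom.commutes, Algebra.algebraMap_self, RingHom.id_apply, sub_self])
  rw [pow_succ, hN, zero_mul, Ideal.zero_eq_bot, Ideal.mem_bot, sub_eq_zero,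
    sub_eq_iff_eq_add'] at h
  rw [h]
  exact add_mem (S.algebraMap_mem _) hs

/-- **A spanning subring is large.** -/
theorem two_pow_card_le (B : Subring (MonoidAlgebra k G)) [Finite B]
    (hB : Algebra.adjoin k (B : Set (MonoidAlgebra k G)) = ⊤) :
    2 ^ Nat.card G ≤ Nat.card B := by
  classical
  haveI : CharP (MonoidAlgebra k G) 2 := charP_of_injective_algebraMap' k 2
  haveI : CharP B 2 := (RingHom.charP_iff B.subtype Subtype.val_injective 2).mpr inferInstance
  haveI : Fact (Nat.Prime 2) := ⟨Nat.prime_two⟩
  letI : Algebra (ZMod 2) B := ZMod.algebra _ 2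
  haveI : Fintype G := Fintype.ofFinite G
  set b := Module.finBasis (ZMod 2) B
  have h01 : ∀ c : ZMod 2, c = 0 ∨ c = 1 := by clear b; decide +revert
  have hspan : (⊤ : Submodule k (MonoidAlgebra k G)) ≤
      Submodule.span k (Set.range fun i => ((b i : B) : MonoidAlgebra k G)) := by
    intro f _
    have hf : f ∈ Algebra.adjoin k (B : Set (MonoidAlgebra k G)) := hB ▸ Algebra.mem_top
    have hle : Subalgebra.toSubmodule (Algebra.adjoin k (B : Set (MonoidAlgebra k G))) ≤
        Submodule.span k (B : Set (MonoidAlgebra k G)) := by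
      rw [Algebra.adjoin_eq_span, show (Submonoid.closure (B : Set (MonoidAlgebra k G))) =
        B.toSubmonoid from Submonoid.closure_eq B.toSubmonoid]
      rfl
    refine Submodule.span_le.mpr ?_ (hle hf)
    intro x hx
    have := b.sum_repr ⟨x, hx⟩
    rw [← show ((∑ i, b.repr ⟨x, hx⟩ i • b i : B) : MonoidAlgebra k G) = x from
      congrArg Subtype.val this]
    rw [AddSubmonoidClass.coe_finsetSum]
    refine Submodule.sum_mem _ fun i _ => ?_
    generalize b.repr ⟨x, hx⟩ i = c
    rcases h01 c with rfl | rfl
    · rw [zero_smul]; exact zero_mem _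
    · rw [one_smul]; exact Submodule.subset_span ⟨i, rfl⟩
  have h1 := finrank_le_of_span_eq_top (top_le_iff.mp hspan)
  rw [show Module.finrank k (MonoidAlgebra k G) = Nat.card G by
    rw [Nat.card_eq_fintype_card]; exact Module.finrank_eq_card_basis (MonoidAlgebra.basis G k), Fintype.card_fin] at h1
  haveI : Fintype B := Fintype.ofFinite B
  rw [Nat.card_eq_fintype_card (α := B), Module.card_eq_pow_finrank (K := ZMod 2) (V := B),
    ZMod.card]
  exact Nat.pow_le_pow_right two_pos h1

end Fermat.Agent.Two.Seed
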