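import Fermat.Agent.Two.Seed.Fixed
import Mathlib.Algebra.BigOperators.Finprod

/-!
# Eigenfunctions from local characters

A subgroup `H` fixed by the involution, fixed base cosets (one at each place, a second one at the
places of a set `V`), local characters of `H` trivial on the stabilisers of the base cosets, with
trivial product on each element, and a sign at each place of `V` give a function on the points
locally in the orbits of the base cosets.  It is an eigenfunction of the operators whose fixed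
cosets come from `H` and of those exchanging the two orbits at a place of `V`.
-/

set_option autoImplicit false

noncomputable section

namespace Fermat.Agent.Two.Seed

open Brandt

universe u v

variable {G : Type u} [Group G] {ι : Type v} {Λ : Level G ι} (s : Invol Λ)

/-- Local characters of a fixed subgroup at fixed base cosets. -/
structure Chars (F : Type*) [CommRing F] where
  H : Subgroup G
  fixedH : ∀ h ∈ H, s.σ h = h
  x0 : Pt Λ
  fixed0 : s.pt x0 = x0
  χ : ι → H →* F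
  stab : ∀ (p : ι) (h : H), (h : G) • x0.val p = x0.val p → χ p h = 1
  prod : ∀ h : H, ∏ᶠ p, χ p h = 1
  V : Set ι
  x1 : ∀ p, G ⧸ Λ.U p
  fixed1 : ∀ p ∈ V, s.coset p (x1 p) = x1 p
  stab1 : ∀ p ∈ V, ∀ h : H, (h : G) • x1 p = x1 p → χ p h = 1
  ne1 : ∀ p ∈ V, ∀ h : H, (h : G) • x0.val p ≠ x1 p
  sgn : ι → F

/-- An operator with eigenvalue `lam` on a function of fixed points, stable on these points. -/
structure EigenOp [DecidableEq (Pt Λ)] {F : Type*} [CommRing F] (CM : Pt Λ → Prop) (ψ : Pt Λ → F)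
    (K : Corr Λ) (lam : F) : Prop where
  stable : s.CorrStable K
  nodup : ∀ x, (K.nbr x).Nodup
  nbr_cm : ∀ x, CM x → ∀ y ∈ fixedNbr s K x, CM y
  eigen : ∀ x, CM x → ∑ y ∈ fixedNbr s K x, ψ y = lam * ψ x

namespace Chars

variable {s} {F : Type*} [CommRing F] (c : Chars s F)

/-- A coset in one of the orbits of the base cosets. -/
def Orb (p : ι) (d : G ⧸ Λ.U p) : Prop :=
  (∃ h : c.H, (h : G) • c.x0.val p = d) ∨ (p ∈ c.V ∧ ∃ h : c.H, (h : G) • c.x1 p = d)

theorem orb_smul {p : ι} {d : G ⧸ Λ.U p} (hd : c.Orb p d) (k : c.H) :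
    c.Orb p ((k : G) • d) := by
  rcases hd with ⟨h, rfl⟩ | ⟨hp, h, rfl⟩
  · exact Or.inl ⟨k * h, mul_smul (k : G) (h : G) _⟩
  · exact Or.inr ⟨hp, k * h, mul_smul (k : G) (h : G) _⟩

theorem orb_x0 (p : ι) : c.Orb p (c.x0.val p) := Or.inl ⟨1, one_smul G _⟩

theorem orb_x1 {p : ι} (hp : p ∈ c.V) : c.Orb p (c.x1 p) := Or.inr ⟨hp, 1, one_smul G _⟩

theorem orb_iff_of_notMem {p : ι} (hp : p ∉ c.V) {d : G ⧸ Λ.U p} :
    c.Orb p d ↔ ∃ h : c.H, (h : G) • c.x0.val p = d :=
  ⟨fun h => h.resolve_right fun h' => hp h'.1, Or.inl⟩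

theorem coset_orb {p : ι} {d : G ⧸ Λ.U p} (hd : c.Orb p d) : s.coset p d = d := by
  rcases hd with ⟨h, rfl⟩ | ⟨hp, h, rfl⟩
  · rw [s.coset_smul, c.fixedH h h.2, ← s.pt_val, c.fixed0]
  · rw [s.coset_smul, c.fixedH h h.2, c.fixed1 p hp]

/-- The points everywhere locally in the orbits of the base cosets. -/
def CM (x : Pt Λ) : Prop := ∀ p, c.Orb p (x.val p)

theorem cm_x0 : c.CM c.x0 := c.orb_x0

theorem cm_smul {x : Pt Λ} (hx : c.CM x) (k : c.H) : c.CM ((k : G) • x) := fun p =>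
  c.orb_smul (hx p) k

theorem pt_cm {x : Pt Λ} (hx : c.CM x) : s.pt x = x := Pt.ext fun p => c.coset_orb (hx p)

/-- An element moving a point to another one gives an element of the stabiliser. -/
theorem inv_mul_smul_eq {g : G} {x : Pt Λ} (hx : c.CM x) (hgx : c.CM (g • x)) :
    (g⁻¹ * s.σ g) • x = x := by
  have e := c.pt_cm hgx
  rw [s.pt_smul, c.pt_cm hx] at e
  rw [mul_smul, e, inv_smul_smul]

open Classical in
/-- The local factor of the function. -/
def loc (p : ι) (d : G ⧸ Λ.U p) : F :=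
  if h : ∃ k : c.H, (k : G) • c.x0.val p = d then c.χ p h.choose
  else if h : ∃ k : c.H, (k : G) • c.x1 p = d then c.sgn p * c.χ p h.choose else 0

theorem χ_eq_of_smul_eq {p : ι} {b : G ⧸ Λ.U p}
    (hb : ∀ h : c.H, (h : G) • b = b → c.χ p h = 1) {a h : c.H}
    (e : (a : G) • b = (h : G) • b) : c.χ p a = c.χ p h := by
  have e1 : c.χ p (a⁻¹ * h) = 1 := hb _ (by
    rw [Subgroup.coe_mul, mul_smul, Subgroup.coe_inv, inv_smul_eq_iff]
    exact e.symm)
  calc c.χ p a = c.χ p a * c.χ p (a⁻¹ * h) := by rw [e1, mul_one]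
    _ = c.χ p h := by rw [← map_mul, mul_inv_cancel_left]

theorem loc_eq0 {p : ι} {d : G ⧸ Λ.U p} {h : c.H} (hh : (h : G) • c.x0.val p = d) :
    c.loc p d = c.χ p h := by
  have he : ∃ k : c.H, (k : G) • c.x0.val p = d := ⟨h, hh⟩
  rw [loc, dif_pos he]
  exact c.χ_eq_of_smul_eq (c.stab p) (he.choose_spec.trans hh.symm)

theorem loc_eq1 {p : ι} (hp : p ∈ c.V) {d : G ⧸ Λ.U p} {h : c.H} (hh : (h : G) • c.x1 p = d) :
    c.loc p d = c.sgn p * c.χ p h := by
  have hno : ¬ ∃ k : c.H, (k : G) • c.x0.val p = d := fun ⟨k, hk⟩ => c.ne1 p hp (h⁻¹ * k) (by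
    rw [Subgroup.coe_mul, mul_smul, hk, ← hh, Subgroup.coe_inv, inv_smul_smul])
  have he : ∃ k : c.H, (k : G) • c.x1 p = d := ⟨h, hh⟩
  rw [loc, dif_neg hno, dif_pos he,
    c.χ_eq_of_smul_eq (c.stab1 p hp) (he.choose_spec.trans hh.symm)]

theorem loc_smul {p : ι} {d : G ⧸ Λ.U p} (hd : c.Orb p d) (k : c.H) :
    c.loc p ((k : G) • d) = c.χ p k * c.loc p d := by
  rcases hd with ⟨h, hh⟩ | ⟨hp, h, hh⟩
  · rw [c.loc_eq0 hh, c.loc_eq0 (h := k * h) (by rw [Subgroup.coe_mul, mul_smul, hh]), map_mul]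
  · rw [c.loc_eq1 hp hh, c.loc_eq1 hp (h := k * h) (by rw [Subgroup.coe_mul, mul_smul, hh]),
      map_mul, mul_left_comm]

theorem finite_mulSupport_loc (x : Pt Λ) :
    (Function.mulSupport fun p => c.loc p (x.val p)).Finite := by
  refine (x.finite.union c.x0.finite).subset fun p hp => ?_
  by_contra h
  simp only [Set.mem_union, Set.mem_ofPred_eq, not_or, not_not] at h
  refine hp ((c.loc_eq0 (h := 1) ?_).trans (map_one _))
  rw [OneMemClass.coe_one, one_smul, h.2, h.1]

theorem finite_mulSupport_χ (k : c.H) : (Function.mulSupport fun p => c.χ p k).Finite := by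
  refine (c.x0.finite.union (Λ.finite_notMem k)).subset fun p hp => ?_
  by_contra h
  simp only [Set.mem_union, Set.mem_ofPred_eq, not_or, not_not] at h
  refine hp (c.stab p k ?_)
  rw [h.1]
  exact QuotientGroup.eq.mpr (by simpa using h.2)

/-- The function on points. -/
def ψ (x : Pt Λ) : F := ∏ᶠ p, c.loc p (x.val p)

theorem ψ_x0 : c.ψ c.x0 = 1 :=
  finprod_eq_one_of_forall_eq_one fun _ => (c.loc_eq0 (h := 1) (one_smul G _)).trans (map_one _)

theorem ψ_smul {x : Pt Λ} (hx : c.CM x) (k : c.H) : c.ψ ((k : G) • x) = c.ψ x := by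
  simp only [ψ, Pt.smul_val]
  rw [finprod_congr fun p => c.loc_smul (hx p) k,
    finprod_mul_distrib (c.finite_mulSupport_χ k) (c.finite_mulSupport_loc x), c.prod, one_mul]

variable [DecidableEq ι]

theorem cm_update {x : Pt Λ} (hx : c.CM x) {l : ι} {d : G ⧸ Λ.U l} (hd : c.Orb l d) :
    c.CM (x.update l d) := fun p => by
  by_cases e : p = l
  · subst e; rwa [Pt.update_val_self]
  · rw [Pt.update_val_of_ne _ e]; exact hx p

theorem ψ_update (x : Pt Λ) {l : ι} {d : G ⧸ Λ.U l} {t : F}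
    (e : c.loc l d = t * c.loc l (x.val l)) : c.ψ (x.update l d) = t * c.ψ x := by
  have e' : ∀ p, c.loc p ((x.update l d).val p) =
      (if p = l then t else 1) * c.loc p (x.val p) := fun p => by
    by_cases h : p = l
    · subst h; rw [if_pos rfl, Pt.update_val_self, e]
    · rw [if_neg h, one_mul, Pt.update_val_of_ne _ h]
  have hfin : (Function.mulSupport fun p => if p = l then t else (1 : F)).Finite :=
    (Set.finite_singleton l).subset fun p hp => by
      by_contra h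
      exact hp (if_neg h)
  rw [ψ, finprod_congr e', finprod_mul_distrib hfin (c.finite_mulSupport_loc x),
    finprod_eq_single _ l (fun p hp => if_neg hp), if_pos rfl, ψ]

/-- A local operator whose fixed cosets at the base coset come from `H`. -/
structure Local (l : ι) (S : LocOp Λ l) (R : Finset c.H) : Prop where
  notMem : l ∉ c.V
  stable : s.LocStable S
  nodup : S.cosets.Nodup
  inj : Set.InjOn (fun k : c.H => (k : G) • c.x0.val l) (R : Set c.H)
  fixed : ∀ d, (d ∈ S.translate (c.x0.val l) ∧ s.coset l d = d) ↔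
    ∃ k ∈ R, (k : G) • c.x0.val l = d

/-- A local operator exchanging the two orbits at a place of `V`. -/
structure Swap (v : ι) (S : LocOp Λ v) : Prop where
  mem : v ∈ c.V
  stable : s.LocStable S
  nodup : S.cosets.Nodup
  to1 : S.translate (c.x0.val v) = {c.x1 v}
  to0 : ∃ k : c.H, S.translate (c.x1 v) = {(k : G) • c.x0.val v} ∧ c.χ v k = c.sgn v * c.sgn v

theorem nodup_corr {l : ι} {S : LocOp Λ l} (hS : S.cosets.Nodup) (x : Pt Λ) :
    (S.corr.nbr x).Nodup := by
  rw [LocOp.corr_nbr]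
  refine (hS.map (MulAction.injective _)).map fun a b e => ?_
  have := congrArg (fun y : Pt Λ => y.val l) e
  simpa [Pt.update_val_self] using this

variable {c} [DecidableEq (Pt Λ)]

theorem Local.fixedNbr_eq {l : ι} {S : LocOp Λ l} {R : Finset c.H} (hS : c.Local l S R)
    {x : Pt Λ} {h : c.H} (hh : (h : G) • c.x0.val l = x.val l) (hx : c.CM x) :
    fixedNbr s S.corr x = R.image fun k => x.update l (((h * k : c.H) : G) • c.x0.val l) := by
  refine Finset.ext fun y => ?_
  simp only [fixedNbr, Finset.mem_filter, Multiset.mem_toFinset, Finset.mem_image, LocOp.corr_nbr,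
    Multiset.mem_map, ← hh, LocOp.translate_smul]
  constructor
  · rintro ⟨⟨_, ⟨d, hd, rfl⟩, rfl⟩, hy⟩
    have e := congrArg (fun z : Pt Λ => z.val l) hy
    simp only [s.pt_val, Pt.update_val_self, s.coset_smul, c.fixedH h h.2] at e
    obtain ⟨k, hk, rfl⟩ := (hS.fixed d).mp ⟨hd, smul_left_cancel _ e⟩
    exact ⟨k, hk, by rw [Subgroup.coe_mul, mul_smul]⟩
  · rintro ⟨k, hk, rfl⟩
    exact ⟨⟨_, ⟨_, ((hS.fixed _).mpr ⟨k, hk, rfl⟩).1, (mul_smul (h : G) (k : G) _).symm⟩, rfl⟩,
      c.pt_cm (c.cm_update hx (Or.inl ⟨_, rfl⟩))⟩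

theorem Local.eigenOp {l : ι} {S : LocOp Λ l} {R : Finset c.H} (hS : c.Local l S R) :
    EigenOp s c.CM c.ψ S.corr (∑ k ∈ R, c.χ l k) where
  stable := s.corrStable_corr hS.stable
  nodup := nodup_corr hS.nodup
  nbr_cm x hx y hy := by
    obtain ⟨h, hh⟩ := (c.orb_iff_of_notMem hS.notMem).mp (hx l)
    rw [hS.fixedNbr_eq hh hx, Finset.mem_image] at hy
    obtain ⟨k, -, rfl⟩ := hy
    exact c.cm_update hx (Or.inl ⟨_, rfl⟩)
  eigen x hx := by
    obtain ⟨h, hh⟩ := (c.orb_iff_of_notMem hS.notMem).mp (hx l)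
    rw [hS.fixedNbr_eq hh hx, Finset.sum_image, Finset.sum_mul]
    · refine Finset.sum_congr rfl fun k _ => c.ψ_update x ?_
      rw [c.loc_eq0 hh, c.loc_eq0 (h := h * k) rfl, map_mul, mul_comm]
    · intro a ha b hb e
      refine hS.inj ha hb (smul_left_cancel (h : G) ?_)
      have e' := congrArg (fun z : Pt Λ => z.val l) e
      simpa [Pt.update_val_self, mul_smul] using e'

theorem Swap.fixedNbr_eq {v : ι} {S : LocOp Λ v} {x : Pt Λ} (hx : c.CM x) {d e : G ⧸ Λ.U v}
    {h : c.H} (hh : (h : G) • d = x.val v) (htr : S.translate d = {e}) (he : c.Orb v e) :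
    fixedNbr s S.corr x = {x.update v ((h : G) • e)} := by
  refine Finset.ext fun y => ?_
  simp only [fixedNbr, Finset.mem_filter, Multiset.mem_toFinset, Finset.mem_singleton,
    LocOp.corr_nbr, ← hh, LocOp.translate_smul, htr, Multiset.map_singleton,
    Multiset.mem_singleton]
  exact ⟨fun h' => h'.1, fun h' =>
    ⟨h', h' ▸ c.pt_cm (c.cm_update hx (c.orb_smul he h))⟩⟩

theorem Swap.eigenOp {v : ι} {S : LocOp Λ v} (hS : c.Swap v S) :
    EigenOp s c.CM c.ψ S.corr (c.sgn v) where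
  stable := s.corrStable_corr hS.stable
  nodup := nodup_corr hS.nodup
  nbr_cm x hx y hy := by
    obtain ⟨k, hk, -⟩ := hS.to0
    rcases hx v with ⟨h, hh⟩ | ⟨-, h, hh⟩
    · rw [Swap.fixedNbr_eq hx hh hS.to1 (c.orb_x1 hS.mem), Finset.mem_singleton] at hy
      exact hy ▸ c.cm_update hx (c.orb_smul (c.orb_x1 hS.mem) h)
    · rw [Swap.fixedNbr_eq hx hh hk (c.orb_smul (c.orb_x0 v) k), Finset.mem_singleton] at hy
      exact hy ▸ c.cm_update hx (c.orb_smul (c.orb_smul (c.orb_x0 v) k) h)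
  eigen x hx := by
    obtain ⟨k, hk, hsq⟩ := hS.to0
    rcases hx v with ⟨h, hh⟩ | ⟨-, h, hh⟩
    · rw [Swap.fixedNbr_eq hx hh hS.to1 (c.orb_x1 hS.mem), Finset.sum_singleton]
      exact c.ψ_update x (by rw [c.loc_eq0 hh, c.loc_eq1 hS.mem rfl])
    · rw [Swap.fixedNbr_eq hx hh hk (c.orb_smul (c.orb_x0 v) k), Finset.sum_singleton]
      refine c.ψ_update x ?_
      rw [c.loc_eq1 hS.mem hh, c.loc_eq0 (h := h * k) (mul_smul (h : G) (k : G) _), map_mul, hsq]
      ring

end Chars

end Fermat.Agent.Two.Seed
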