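import Fermat.Agent.Two.Brandt.Corr
import Mathlib.Algebra.CharP.Two
import Mathlib.Algebra.Algebra.Subalgebra.Basic
import Mathlib.RingTheory.Adjoin.Basic

/-!
# Restriction to the fixed points of an involution, modulo two

An involution `σ` of the group preserving the level acts on points and classes.  Modulo `2` the
value of an operator on a `σ`-invariant function at a fixed point only involves the fixed
neighbours.  Hence a function `ψ` on a set of fixed points which is an eigenfunction for the fixed
neighbours gives a character of the algebra of operators.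
-/

set_option autoImplicit false

noncomputable section

namespace Fermat.Agent.Two.Seed

open Brandt

universe u v

variable {G : Type u} [Group G] {ι : Type v} {Λ : Level G ι}

/-- An involution of the group preserving all the subgroups of the level. -/
structure Invol (Λ : Level G ι) where
  σ : G ≃* G
  invol : ∀ g, σ (σ g) = g
  mem : ∀ p, ∀ g ∈ Λ.U p, σ g ∈ Λ.U p

namespace Invol

variable (s : Invol Λ)

/-- The involution on cosets. -/
def coset (p : ι) : G ⧸ Λ.U p → G ⧸ Λ.U p :=
  Quotient.map' s.σ fun a b h => by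
    rw [QuotientGroup.leftRel_apply] at h ⊢
    simpa using s.mem p _ h

theorem coset_mk (p : ι) (g : G) :
    s.coset p (QuotientGroup.mk g) = QuotientGroup.mk (s.σ g) := rfl

theorem coset_coset (p : ι) (c : G ⧸ Λ.U p) : s.coset p (s.coset p c) = c := by
  obtain ⟨g, rfl⟩ := QuotientGroup.mk_surjective c
  rw [coset_mk, coset_mk, s.invol]

theorem coset_smul (p : ι) (g : G) (c : G ⧸ Λ.U p) :
    s.coset p (g • c) = s.σ g • s.coset p c := by
  obtain ⟨h, rfl⟩ := QuotientGroup.mk_surjective c
  exact congrArg QuotientGroup.mk (map_mul s.σ g h)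

/-- The involution on points. -/
def pt (x : Pt Λ) : Pt Λ :=
  ⟨fun p => s.coset p (x.val p), x.finite.subset fun p hp => by
    intro h
    exact hp (by rw [h, coset_mk, map_one])⟩

theorem pt_val (x : Pt Λ) (p : ι) : (s.pt x).val p = s.coset p (x.val p) := rfl

theorem pt_pt (x : Pt Λ) : s.pt (s.pt x) = x := Pt.ext fun p => s.coset_coset p _

theorem pt_smul (g : G) (x : Pt Λ) : s.pt (g • x) = s.σ g • s.pt x :=
  Pt.ext fun p => s.coset_smul p g _

/-- The involution on classes. -/
def clsMap : Cls Λ → Cls Λ :=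
  Quotient.map' s.pt fun a b h => by
    obtain ⟨g, hg⟩ := h
    exact ⟨s.σ g, (s.pt_smul g b).symm.trans (congrArg s.pt hg)⟩

theorem clsMap_cls (x : Pt Λ) : s.clsMap (cls x) = cls (s.pt x) := rfl

/-- A correspondence commuting with the involution. -/
def CorrStable (K : Corr Λ) : Prop := ∀ x, K.nbr (s.pt x) = (K.nbr x).map s.pt

/-- A local operator stable under the involution. -/
def LocStable {p : ι} (S : LocOp Λ p) : Prop := S.cosets.map (s.coset p) = S.cosets

variable [DecidableEq ι]

theorem pt_update (x : Pt Λ) (p : ι) (c : G ⧸ Λ.U p) :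
    s.pt (x.update p c) = (s.pt x).update p (s.coset p c) := by
  refine Pt.ext fun q => ?_
  by_cases h : q = p
  · subst h; rw [pt_val, Pt.update_val_self, Pt.update_val_self]
  · rw [pt_val, Pt.update_val_of_ne _ h, Pt.update_val_of_ne _ h, pt_val]

theorem corrStable_corr {p : ι} {S : LocOp Λ p} (hS : s.LocStable S) : s.CorrStable S.corr := by
  intro x
  obtain ⟨g, hg⟩ := QuotientGroup.mk_surjective (x.val p)
  rw [LocOp.corr_nbr, LocOp.corr_nbr, pt_val, ← hg, coset_mk, LocOp.translate_mk,
    LocOp.translate_mk, Multiset.map_map, Multiset.map_map, Multiset.map_map]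
  conv_lhs => rw [← hS, Multiset.map_map]
  refine Multiset.map_congr rfl fun c _ => ?_
  simp only [Function.comp_apply, pt_update, coset_smul]

end Invol

/-- In characteristic two an invariant function sums to its sum over the fixed elements. -/
theorem sum_eq_sum_fixed {α F : Type*} [DecidableEq α] [CommRing F] [CharP F 2] (t : α → α)
    (ht : ∀ a, t (t a) = a) (m : Finset α) (hm : ∀ a ∈ m, t a ∈ m) (f : α → F)
    (hf : ∀ a ∈ m, f (t a) = f a) : ∑ a ∈ m, f a = ∑ a ∈ m.filter (fun a => t a = a), f a := by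
  rw [← Finset.sum_filter_add_sum_filter_not m (fun a => t a = a) f, add_eq_left]
  refine Finset.sum_involution (fun a _ => t a) (fun a ha => ?_) (fun a ha _ => ?_) (fun a ha => ?_)
    (fun a _ => ht a)
  · rw [hf a (Finset.mem_filter.mp ha).1, CharTwo.add_self_eq_zero]
  · exact (Finset.mem_filter.mp ha).2
  · refine Finset.mem_filter.mpr ⟨hm a (Finset.mem_filter.mp ha).1, fun h => ?_⟩
    rw [ht] at h
    exact (Finset.mem_filter.mp ha).2 h.symm

variable (s : Invol Λ) {F : Type*} [CommRing F]

/-- The fixed neighbours of a point. -/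
def fixedNbr [DecidableEq (Pt Λ)] (K : Corr Λ) (x : Pt Λ) : Finset (Pt Λ) :=
  (K.nbr x).toFinset.filter fun y => s.pt y = y

theorem op_eq_sum_fixed [DecidableEq (Pt Λ)] [CharP F 2] {K : Corr Λ} (hK : s.CorrStable K)
    (hnd : ∀ x, (K.nbr x).Nodup) (f : Cls Λ → F) (hf : ∀ c, f (s.clsMap c) = f c) {x : Pt Λ}
    (hx : s.pt x = x) : Corr.op F K f (cls x) = ∑ y ∈ fixedNbr s K x, f (cls y) := by
  rw [Corr.op_apply]
  show ∑ y ∈ (⟨K.nbr x, hnd x⟩ : Finset (Pt Λ)), f (cls y) = _
  rw [fixedNbr, ← Multiset.toFinset_eq (hnd x)]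
  refine sum_eq_sum_fixed s.pt s.pt_pt _ (fun y hy => ?_) _ fun y _ => ?_
  · show s.pt y ∈ K.nbr x
    rw [← hx, hK]
    exact Multiset.mem_map_of_mem _ hy
  · rw [← s.clsMap_cls, hf]

theorem op_invariant {K : Corr Λ} (hK : s.CorrStable K) (f : Cls Λ → F)
    (hf : ∀ c, f (s.clsMap c) = f c) (c : Cls Λ) :
    Corr.op F K f (s.clsMap c) = Corr.op F K f c := by
  induction c using Quotient.inductionOn' with
  | h x =>
    rw [show s.clsMap (Quotient.mk'' x) = cls (s.pt x) from rfl, Corr.op_apply, Corr.op_apply, hK,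
      Multiset.map_map]
    exact congrArg Multiset.sum (Multiset.map_congr rfl fun y _ =>
      (congrArg f (s.clsMap_cls y).symm).trans (hf _))

theorem op_map {O : Type*} [CommRing O] (red : O →+* F) (K : Corr Λ) (f : Cls Λ → O) (c : Cls Λ) :
    red (Corr.op O K f c) = Corr.op F K (fun d => red (f d)) c := by
  induction c using Quotient.inductionOn' with
  | h x => rw [Corr.op_apply, Corr.op_apply, map_multiset_sum, Multiset.map_map]; rfl

/-- Fixed points with an eigenfunction for the fixed neighbours. -/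
structure Eigen [DecidableEq (Pt Λ)] {κ : Type*} (K : κ → Corr Λ) (lam : κ → F) where
  CM : Pt Λ → Prop
  ψ : Pt Λ → F
  base : Pt Λ
  base_cm : CM base
  ψ_base : ψ base = 1
  fixed : ∀ x, CM x → s.pt x = x
  sep : ∀ (g : G) (x : Pt Λ), CM x → CM (g • x) → ψ (g • x) = ψ x
  stable : ∀ i, s.CorrStable (K i)
  nodup : ∀ i x, ((K i).nbr x).Nodup
  nbr_cm : ∀ i x, CM x → ∀ y ∈ fixedNbr s (K i) x, CM y
  eigen : ∀ i x, CM x → ∑ y ∈ fixedNbr s (K i) x, ψ y = lam i * ψ x

namespace Eigen

variable {s} [DecidableEq (Pt Λ)] {κ : Type*} {K : κ → Corr Λ} {lam : κ → F} (E : Eigen s K lam)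

open Classical in
/-- The function of classes supported on the fixed points. -/
def func (c : Cls Λ) : F := if h : ∃ x, E.CM x ∧ cls x = c then E.ψ h.choose else 0

theorem func_cls {x : Pt Λ} (hx : E.CM x) : E.func (cls x) = E.ψ x := by
  have h : ∃ y, E.CM y ∧ cls y = cls x := ⟨x, hx, rfl⟩
  rw [func, dif_pos h]
  obtain ⟨g, hg⟩ := cls_eq_iff.mp h.choose_spec.2
  calc E.ψ h.choose = E.ψ (g • x) := by rw [hg]
    _ = E.ψ x := E.sep g x hx (by rw [hg]; exact h.choose_spec.1)

theorem func_invariant (c : Cls Λ) : E.func (s.clsMap c) = E.func c := by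
  by_cases h : ∃ x, E.CM x ∧ cls x = c
  · obtain ⟨x, hx, rfl⟩ := h
    rw [s.clsMap_cls, E.fixed x hx]
  · have h' : ¬∃ x, E.CM x ∧ cls x = s.clsMap c := by
      rintro ⟨x, hx, e⟩
      refine h ⟨x, hx, ?_⟩
      rw [← E.fixed x hx, ← s.clsMap_cls, e]
      induction c using Quotient.inductionOn' with
      | h z => exact congrArg cls (s.pt_pt z)
    rw [func, dif_neg h', func, dif_neg h]

variable {O : Type*} [CommRing O] (red : O →+* F)

/-- An operator acts by a scalar on the fixed points modulo the functions vanishing there. -/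
def ActsBy (T : Module.End O (Cls Λ → O)) (c : F) : Prop :=
  ∀ (f : Cls Λ → O) (a : F), (∀ d, red (f (s.clsMap d)) = red (f d)) →
    (∀ x, E.CM x → red (f (cls x)) = a * E.ψ x) →
    (∀ d, red (T f (s.clsMap d)) = red (T f d)) ∧
      ∀ x, E.CM x → red (T f (cls x)) = c * a * E.ψ x

theorem actsBy_op [CharP F 2] (i : κ) : E.ActsBy red (Corr.op O (K i)) (lam i) := by
  intro f a hf ha
  refine ⟨fun d => ?_, fun x hx => ?_⟩
  · rw [op_map red, op_map red]
    exact op_invariant s (E.stable i) _ hf d
  · rw [op_map red, op_eq_sum_fixed s (E.stable i) (E.nodup i) _ hf (E.fixed x hx),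
      Finset.sum_congr rfl fun y hy => ha y (E.nbr_cm i x hx y hy), ← Finset.mul_sum, E.eigen i x hx]
    ring

variable {red}

theorem actsBy_algebraMap (r : O) : E.ActsBy red (algebraMap O _ r) (red r) := by
  intro f a hf ha
  refine ⟨fun d => ?_, fun x hx => ?_⟩
  · show red (r * f (s.clsMap d)) = red (r * f d)
    rw [map_mul, map_mul, hf]
  · show red (r * f (cls x)) = _
    rw [map_mul, ha x hx]; ring

theorem ActsBy.add {T T' : Module.End O (Cls Λ → O)} {c c' : F} (h : E.ActsBy red T c)
    (h' : E.ActsBy red T' c') : E.ActsBy red (T + T') (c + c') := by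
  intro f a hf ha
  refine ⟨fun d => ?_, fun x hx => ?_⟩
  · simp [(h f a hf ha).1 d, (h' f a hf ha).1 d]
  · simp [(h f a hf ha).2 x hx, (h' f a hf ha).2 x hx, add_mul]

theorem ActsBy.mul {T T' : Module.End O (Cls Λ → O)} {c c' : F} (h : E.ActsBy red T c)
    (h' : E.ActsBy red T' c') : E.ActsBy red (T * T') (c * c') := by
  intro f a hf ha
  obtain ⟨h1, h2⟩ := h' f a hf ha
  obtain ⟨h3, h4⟩ := h (T' f) (c' * a) h1 h2
  exact ⟨h3, fun x hx => by rw [mul_assoc c c' a]; exact h4 x hx⟩

variable [CharP F 2]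

theorem exists_actsBy {T : Module.End O (Cls Λ → O)}
    (hT : T ∈ Algebra.adjoin O (Set.range fun i => Corr.op O (K i))) : ∃ c, E.ActsBy red T c := by
  induction hT using Algebra.adjoin_induction with
  | mem T hT => obtain ⟨i, rfl⟩ := hT; exact ⟨_, E.actsBy_op red i⟩
  | algebraMap r => exact ⟨_, E.actsBy_algebraMap r⟩
  | add T T' _ _ h h' =>
    obtain ⟨c, hc⟩ := h
    obtain ⟨c', hc'⟩ := h'
    exact ⟨_, hc.add E hc'⟩
  | mul T T' _ _ h h' =>
    obtain ⟨c, hc⟩ := h
    obtain ⟨c', hc'⟩ := h'
    exact ⟨_, hc.mul E hc'⟩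

variable (hred : Function.Surjective red)
include E hred

omit [CharP F 2] in
theorem ActsBy.unique {T : Module.End O (Cls Λ → O)} {c c' : F} (h : E.ActsBy red T c)
    (h' : E.ActsBy red T c') : c = c' := by
  let f : Cls Λ → O := fun d => Function.surjInv hred (E.func d)
  have e : ∀ d, red (f d) = E.func d := fun d => Function.surjInv_eq hred _
  have hf : ∀ d, red (f (s.clsMap d)) = red (f d) := fun d => by rw [e, e, E.func_invariant]
  have ha : ∀ x, E.CM x → red (f (cls x)) = 1 * E.ψ x := fun x hx => by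
    rw [e, E.func_cls hx, one_mul]
  have h1 := ((h f 1 hf ha).2 E.base E.base_cm).symm.trans ((h' f 1 hf ha).2 E.base E.base_cm)
  simpa [E.ψ_base] using h1


/-- **The character of the algebra of operators given by the fixed points.** -/
theorem exists_hom :
    ∃ θ : ↥(Algebra.adjoin O (Set.range fun i => Corr.op O (K i))) →+* F,
      (∀ i, θ ⟨_, Algebra.subset_adjoin ⟨i, rfl⟩⟩ = lam i) ∧
        ∀ r : O, θ (algebraMap O _ r) = red r := by
  choose c hc using fun T : ↥(Algebra.adjoin O (Set.range fun i => Corr.op O (K i))) =>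
    E.exists_actsBy (red := red) T.2
  refine ⟨{ toFun := c, map_one' := ?_, map_mul' := ?_, map_zero' := ?_, map_add' := ?_ },
    fun i => ?_, fun r => ?_⟩
  · refine (hc 1).unique E hred ?_
    simpa using E.actsBy_algebraMap (red := red) 1
  · exact fun T T' => (hc (T * T')).unique E hred ((hc T).mul E (hc T'))
  · refine (hc 0).unique E hred ?_
    simpa using E.actsBy_algebraMap (red := red) 0
  · exact fun T T' => (hc (T + T')).unique E hred ((hc T).add E (hc T'))
  · exact (hc _).unique E hred (E.actsBy_op red i)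
  · exact (hc _).unique E hred (E.actsBy_algebraMap r)

end Eigen

end Fermat.Agent.Two.Seed
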