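import Fermat.Agent.Two.Seed.Sigma

/-!
# The fixed cosets of `T_l`

At a good odd prime `l` the cosets of norm `l` fixed by the involution come from `K`: there are two
when `l` splits and none when `l` is inert.
-/

set_option autoImplicit false

noncomputable section

namespace Fermat.Agent.Two.Brandt.Param

open QuaternionAlgebra

attribute [local instance] fact_prime

variable (P : Param) {l : Nat.Primes}

/-- An element of the local order giving a quotient of two elements of the same cell is a unit. -/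
theorem inv_mul_mem_localUnits {v : ℕ} {π k : P.Bˣ} (hπ : π ∈ P.cell l v) (hk : P.vp l k = v)
    {w : P.B} (hw : w ∈ P.localOrder l) (e : (k : P.B) = π * w) :
    π⁻¹ * k ∈ P.localUnits l := by
  refine ⟨?_, by rw [vp_coe_mul, vp_inv, hπ.2, hk, neg_add_cancel]⟩
  rwa [Units.val_mul, e, Units.inv_mul_cancel_left]

theorem smul_half_mem_localOrder (hl : (l : ℕ) ≠ 2) {z : P.B} (hz : z ∈ P.localOrder l) :
    (1 / 2 : ℚ) • z ∈ P.localOrder l := by
  refine P.smul_mem_localOrder_of_not_dvd_den l ?_ hz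
  norm_num
  exact fun h => hl ((Nat.prime_dvd_prime_iff_eq l.2 Nat.prime_two).mp h)

/-- A unit of the local order on which the involution is `-1`. -/
theorem exists_antiUnit (hD : ¬ ((l : ℕ) : ℤ) ∣ P.D) (he : ¬ ((l : ℕ) : ℤ) ∣ P.e) :
    ∃ J ∈ P.localUnits l, P.flip (J : P.B) = -(J : P.B) := by
  have hpr : Prime ((l : ℕ) : ℤ) := Nat.prime_iff_prime_int.mp l.2
  obtain ⟨a, b, hg⟩ : ∃ a b, ¬ ((l : ℕ) : ℤ) ∣ P.g a b := by
    by_contra hno
    push Not at hno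
    have hM := hno 1 0
    have hh := hno 0 1
    have h11 := hno 1 1
    simp [g] at hM hh h11
    have hs' : ((l : ℕ) : ℤ) ∣ 1 - 2 * P.s := by
      have := dvd_sub (dvd_sub h11 hM) hh
      rwa [show P.M + (1 - 2 * P.s) + P.h - P.M - P.h = 1 - 2 * P.s by ring] at this
    refine hD ?_
    rw [← P.disc_g, sq]
    exact dvd_sub (hs'.mul_left _) ((hM.mul_left 4).mul_right _)
  have hne : ¬ ((l : ℕ) : ℤ) ∣ P.e * P.g a b := fun h => (hpr.dvd_or_dvd h).elim he hg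
  have hn : P.nrd (P.elem ![0, 0, a, b]) = ((P.e * P.g a b : ℤ) : ℚ) := by
    rw [nrd_elem]; norm_cast; simp [g₀]
  have h0 : P.elem ![0, 0, a, b] ≠ 0 := fun e0 => hne (by
    rw [e0, map_zero] at hn
    rw [Int.cast_eq_zero.mp hn.symm]
    exact dvd_zero _)
  refine ⟨P.unitOf _ h0, ⟨P.order_le_localOrder l (P.elem_mem _), ?_⟩, ?_⟩
  · rw [vp, coe_unitOf, hn, padicValRat.of_int, padicValInt.eq_zero_of_not_dvd hne, Nat.cast_zero]
  · rw [coe_unitOf, flip_elem, ← elem_neg]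
    exact congrArg _ (funext fun i => by fin_cases i <;> simp)

/-- **A fixed coset of norm valuation one contains an element of `K`.** -/
theorem exists_fieldUnits_of_fixed (hl : (l : ℕ) ≠ 2) (hD : ¬ ((l : ℕ) : ℤ) ∣ P.D)
    (he : ¬ ((l : ℕ) : ℤ) ∣ P.e) {g : P.Bˣ} (hg : g ∈ P.cell l 1)
    (hfix : g⁻¹ * P.flipUnit g ∈ P.localUnits l) :
    ∃ k ∈ P.fieldUnits, k ∈ P.cell l 1 ∧ g⁻¹ * k ∈ P.localUnits l := by
  have hu : ((g⁻¹ : P.Bˣ) : P.B) * P.flip g ∈ P.localOrder l := by simpa using hfix.1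
  set u := ((g⁻¹ : P.Bˣ) : P.B) * P.flip g
  have hgu : (g : P.B) * u = P.flip g := Units.mul_inv_cancel_left g _
  set w₁ := (1 / 2 : ℚ) • (1 + u)
  set w₂ := (1 / 2 : ℚ) • (1 - u)
  have hw₁ : w₁ ∈ P.localOrder l := P.smul_half_mem_localOrder hl (add_mem (one_mem _) hu)
  have hw₂ : w₂ ∈ P.localOrder l := P.smul_half_mem_localOrder hl (sub_mem (one_mem _) hu)
  set x : P.B := ⟨(g : P.B).re, (g : P.B).imI, 0, 0⟩
  set z : P.B := ⟨0, 0, (g : P.B).imJ, (g : P.B).imK⟩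
  have hx : (g : P.B) * w₁ = x := by
    rw [mul_smul_comm, mul_add, mul_one, hgu]; ext <;> simp [x] <;> ring
  have hz : (g : P.B) * w₂ = z := by
    rw [mul_smul_comm, mul_sub, mul_one, hgu]; ext <;> simp [z] <;> ring
  have hn : P.nrd g = P.nrd g * P.nrd w₁ + P.nrd g * P.nrd w₂ := by
    rw [← map_mul, ← map_mul, hx, hz, P.nrd_def x, P.nrd_def z, P.nrd_def (g : P.B)]; simp [x, z]
  have key : (w₁ ≠ 0 ∧ P.vp l w₁ = 0) ∨ (w₂ ≠ 0 ∧ P.vp l w₂ = 0) := by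
    by_contra hno
    rw [not_or, not_and, not_and] at hno
    have h1 : P.nrd w₁ + P.nrd w₂ = 1 :=
      mul_left_cancel₀ (P.nrd_unit_pos g).ne' (by rw [mul_add, mul_one]; exact hn.symm)
    rcases eq_or_ne w₁ 0 with e1 | e1
    · rw [e1, map_zero, zero_add] at h1
      exact hno.2 (fun e2 => by simp [e2] at h1) (by rw [vp, h1, padicValRat.one])
    rcases eq_or_ne w₂ 0 with e2 | e2
    · rw [e2, map_zero, add_zero] at h1
      exact hno.1 e1 (by rw [vp, h1, padicValRat.one])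
    have hmin := padicValRat.min_le_padicValRat_add (p := (l : ℕ)) (q := P.nrd w₁) (r := P.nrd w₂)
      (by rw [h1]; exact one_ne_zero)
    rw [h1, padicValRat.one] at hmin
    have a1 : 0 ≤ P.vp l w₁ := P.vp_nonneg l hw₁
    have a2 : 0 ≤ P.vp l w₂ := P.vp_nonneg l hw₂
    rcases min_le_iff.mp hmin with h | h
    · exact hno.1 e1 (le_antisymm h a1)
    · exact hno.2 e2 (le_antisymm h a2)
  rcases key with ⟨hne, hv⟩ | ⟨hne, hv⟩
  · have hW : P.unitOf w₁ hne ∈ P.localUnits l := ⟨hw₁, hv⟩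
    refine ⟨g * P.unitOf w₁ hne, P.mem_fieldUnits.mpr ?_, ?_, by rwa [inv_mul_cancel_left]⟩
    · rw [Units.val_mul, coe_unitOf, hx]; exact ⟨rfl, rfl⟩
    · simpa using P.mul_mem_cell l hg (show _ ∈ P.cell l 0 by rw [cell_zero]; exact hW)
  · obtain ⟨J, hJu, hJf⟩ := P.exists_antiUnit hD he
    have hW : P.unitOf w₂ hne * J⁻¹ ∈ P.localUnits l := mul_mem ⟨hw₂, hv⟩ (inv_mem hJu)
    refine ⟨g * (P.unitOf w₂ hne * J⁻¹), ?_, ?_, by rwa [inv_mul_cancel_left]⟩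
    · have eJ : P.flipUnit J = -J := Units.ext (by simpa using hJf)
      have ez : P.flipUnit (g * P.unitOf w₂ hne) = -(g * P.unitOf w₂ hne) := Units.ext (by
        rw [coe_flipUnit, Units.val_neg, Units.val_mul, coe_unitOf, hz]
        ext <;> simp [z])
      show P.flipUnit _ = _
      rw [← mul_assoc, map_mul, map_inv, ez, eJ, inv_neg, neg_mul_neg]
    · simpa using P.mul_mem_cell l hg (show _ ∈ P.cell l 0 by rw [cell_zero]; exact hW)

/-- An element of valuation one, given by a root of the norm form. -/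
structure SplitRoot (l : Nat.Primes) where
  r : ℤ
  dvd : ((l : ℕ) : ℤ) ∣ r ^ 2 - r - P.c
  not_sq_dvd : ¬ ((l : ℕ) : ℤ) ^ 2 ∣ r ^ 2 - r - P.c
  simple : ¬ ((l : ℕ) : ℤ) ∣ 2 * r - 1

theorem nonempty_splitRoot (hl : (l : ℕ) ≠ 2) (hD : ¬ ((l : ℕ) : ℤ) ∣ P.D)
    (h : IsSquare (P.D : ZMod (l : ℕ))) : Nonempty (P.SplitRoot l) := by
  have : Fact (2 < (l : ℕ)) := ⟨lt_of_le_of_ne l.2.two_le (Ne.symm hl)⟩
  have h2 : (2 : ZMod (l : ℕ)) ≠ 0 := Ring.two_ne_zero (by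
    rw [ZMod.ringChar_zmod_n]; exact hl)
  obtain ⟨d, hd⟩ := h
  obtain ⟨r, hr⟩ := ZMod.intCast_surjective ((1 + d) / 2 : ZMod (l : ℕ))
  have hc : (P.D : ZMod (l : ℕ)) = 4 * (P.c : ZMod (l : ℕ)) + 1 := by rw [P.hc]; push_cast; rfl
  have hr2 : 2 * (r : ZMod (l : ℕ)) = 1 + d := by rw [hr, mul_div_cancel₀ _ h2]
  have hdvd : ((l : ℕ) : ℤ) ∣ r ^ 2 - r - P.c := by
    rw [← ZMod.intCast_zmod_eq_zero_iff_dvd]
    refine (mul_eq_zero.mp (?_ : (2 * 2 : ZMod (l : ℕ)) * _ = 0)).resolve_left (mul_ne_zero h2 h2)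
    push_cast
    linear_combination (2 * (r : ZMod (l : ℕ)) + d - 1) * hr2 - hd + hc
  have hsimple : ∀ t : ℤ, ¬ ((l : ℕ) : ℤ) ∣ 2 * (r + t * (l : ℕ)) - 1 := fun t ht => hD <| by
    rw [← ZMod.intCast_zmod_eq_zero_iff_dvd] at ht ⊢
    push_cast at ht
    rw [ZMod.natCast_self, mul_zero, add_zero] at ht
    rw [hd, show d = 0 by linear_combination ht - hr2]
    ring
  by_cases hsq : ((l : ℕ) : ℤ) ^ 2 ∣ r ^ 2 - r - P.c
  · refine ⟨r + (l : ℕ), ?_, ?_, by simpa using hsimple 1⟩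
    · rw [show (r + ((l : ℕ) : ℤ)) ^ 2 - (r + (l : ℕ)) - P.c =
        r ^ 2 - r - P.c + (l : ℕ) * (2 * r + (l : ℕ) - 1) by ring]
      exact dvd_add hdvd (dvd_mul_right _ _)
    · intro h'
      have h'' := dvd_sub h' hsq
      rw [show (r + ((l : ℕ) : ℤ)) ^ 2 - (r + (l : ℕ)) - P.c - (r ^ 2 - r - P.c) =
        ((l : ℕ) : ℤ) * (2 * r + (l : ℕ) - 1) by ring, sq,
        mul_dvd_mul_iff_left (Int.natCast_ne_zero.mpr l.2.ne_zero),
        show (2 * r + ((l : ℕ) : ℤ) - 1) = 2 * r - 1 + (l : ℕ) by ring, dvd_add_self_right] at h''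
      exact hsimple 0 (by simpa using h'')
  · exact ⟨r, hdvd, hsq, by simpa using hsimple 0⟩

variable {P}

namespace SplitRoot

variable (ρ : P.SplitRoot l)

theorem norm_ne_zero : ρ.r ^ 2 - ρ.r - P.c ≠ 0 := fun e =>
  ρ.not_sq_dvd (by rw [e]; exact dvd_zero _)

theorem nrd_elem_eq : P.nrd (P.elem ![ρ.r, -1, 0, 0]) = ((ρ.r ^ 2 - ρ.r - P.c : ℤ) : ℚ) := by
  rw [nrd_elem]; norm_cast; simp [g₀, g]; ring

/-- The element. -/
def π : P.Bˣ := P.unitOf (P.elem ![ρ.r, -1, 0, 0]) fun e => ρ.norm_ne_zero (by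
  have h := ρ.nrd_elem_eq
  rw [e, map_zero] at h
  exact_mod_cast h.symm)

/-- Its conjugate. -/
def πbar : P.Bˣ := P.unitOf (star (ρ.π : P.B)) (star_ne_zero.mpr ρ.π.ne_zero)

theorem π_mem : ρ.π ∈ P.fieldUnits := P.mem_fieldUnits.mpr (by simp [π, elem])

theorem πbar_mem : ρ.πbar ∈ P.fieldUnits :=
  P.mem_fieldUnits.mpr (by simp [π, πbar, elem])

theorem π_mem_cell : ρ.π ∈ P.cell l 1 := by
  refine ⟨P.order_le_localOrder l (P.elem_mem _), ?_⟩
  rw [vp, π, coe_unitOf, ρ.nrd_elem_eq, padicValRat.of_int]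
  have h1 : 1 ≤ padicValInt (l : ℕ) (ρ.r ^ 2 - ρ.r - P.c) :=
    (padicValInt_dvd_iff 1 _).mp (by simpa using ρ.dvd) |>.resolve_left ρ.norm_ne_zero
  have h2 : ¬ 2 ≤ padicValInt (l : ℕ) (ρ.r ^ 2 - ρ.r - P.c) := fun h =>
    ρ.not_sq_dvd ((padicValInt_dvd_iff 2 _).mpr (Or.inr h))
  have : padicValInt (l : ℕ) (ρ.r ^ 2 - ρ.r - P.c) = 1 := by omega
  exact_mod_cast this

theorem πbar_mem_cell : ρ.πbar ∈ P.cell l 1 :=
  ⟨P.star_mem_localOrder l ρ.π_mem_cell.1, (P.vp_star l _).trans ρ.π_mem_cell.2⟩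

/-- The cosets of `π` and its conjugate differ. -/
theorem not_mem_localUnits : ¬ ρ.πbar⁻¹ * ρ.π ∈ P.localUnits l := fun hmem => by
  obtain ⟨c, hc, w, hw⟩ := hmem.1
  have e := congrArg QuaternionAlgebra.imI hw
  rw [Units.val_mul, coe_inv] at e
  simp only [πbar, coe_unitOf, star_star, nrd_star] at e
  simp only [π, coe_unitOf, ρ.nrd_elem_eq] at e
  rw [← Nat.cast_smul_eq_nsmul ℚ] at e
  simp [elem] at e
  have hN : ((ρ.r ^ 2 - ρ.r - P.c : ℤ) : ℚ) ≠ 0 := Int.cast_ne_zero.mpr ρ.norm_ne_zero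
  push_cast at hN
  have e' : (w 1) * (ρ.r ^ 2 - ρ.r - P.c) = (c : ℤ) * -(2 * ρ.r - 1) := by
    have : ((w 1 * (ρ.r ^ 2 - ρ.r - P.c) : ℤ) : ℚ) = (((c : ℤ) * -(2 * ρ.r - 1) : ℤ) : ℚ) := by
      have hN' : (ρ.r : ℚ) * (ρ.r - 1) - P.c ≠ 0 := fun h => hN (by linear_combination h)
      push_cast
      field_simp at e
      linear_combination e
    exact_mod_cast this
  rcases (Nat.prime_iff_prime_int.mp l.2).dvd_or_dvd (e' ▸ ρ.dvd.mul_left (w 1)) with h | h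
  · exact hc (Int.natCast_dvd_natCast.mp h)
  · exact ρ.simple ((dvd_neg).mp h)

/-- An element of `K` of valuation one is in one of the two cosets. -/
theorem mem_or {k : P.Bˣ} (hk : k ∈ P.fieldUnits) (hkc : k ∈ P.cell l 1) :
    ρ.π⁻¹ * k ∈ P.localUnits l ∨ ρ.πbar⁻¹ * k ∈ P.localUnits l := by
  obtain ⟨hJ, hK⟩ := P.mem_fieldUnits.mp hk
  obtain ⟨c, hc, w, hw⟩ := hkc.1
  have hMq : (P.M : ℚ) ≠ 0 := by exact_mod_cast P.hM.ne'
  have eJ := congrArg QuaternionAlgebra.imJ hw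
  have eK := congrArg QuaternionAlgebra.imK hw
  rw [← Nat.cast_smul_eq_nsmul ℚ] at eJ eK
  simp [elem, hJ, hK] at eJ eK
  have w3 : w 3 = 0 := eK
  have w2 : w 2 = 0 := by
    simp [w3, hMq] at eJ; exact eJ
  have hc0 : (c : ℚ) ≠ 0 := Nat.cast_ne_zero.mpr fun e => hc (e ▸ dvd_zero _)
  have hn : (c : ℚ) ^ 2 * P.nrd k = (P.g₀ (w 0) (w 1) : ℤ) := by
    rw [← nrd_smul, Nat.cast_smul_eq_nsmul ℚ, ← hw, nrd_elem, w2, w3]
    norm_cast; simp [g]
  have hdvd : ((l : ℕ) : ℤ) ∣ P.g₀ (w 0) (w 1) := by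
    have h := congrArg (padicValRat (l : ℕ)) hn
    rw [padicValRat.mul (pow_ne_zero 2 hc0) (P.nrd_unit_pos k).ne', padicValRat.pow,
      padicValRat.of_nat, padicValNat.eq_zero_of_not_dvd hc, padicValRat.of_int] at h
    have hv := hkc.2
    rw [vp] at hv
    rw [hv] at h
    have : padicValInt (l : ℕ) (P.g₀ (w 0) (w 1)) = 1 := by omega
    simpa [this] using padicValInt_dvd (p := (l : ℕ)) (P.g₀ (w 0) (w 1))
  have hsplit : ((l : ℕ) : ℤ) ∣ (w 0 + ρ.r * w 1) * (w 0 + (1 - ρ.r) * w 1) := by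
    rw [show (w 0 + ρ.r * w 1) * (w 0 + (1 - ρ.r) * w 1) =
      P.g₀ (w 0) (w 1) - w 1 ^ 2 * (ρ.r ^ 2 - ρ.r - P.c) by simp [g₀]; ring]
    exact dvd_sub hdvd (ρ.dvd.mul_left _)
  have hq : ¬ (l : ℕ) ∣ ((c : ℚ)⁻¹).den := not_dvd_den_of_nonneg l (by
    rw [padicValRat.inv, padicValRat.of_nat, padicValNat.eq_zero_of_not_dvd hc]; simp)
  -- `l` is a multiple of `π` and of its conjugate in the local order
  have hlmul : ∀ {p : P.Bˣ}, p ∈ P.cell l 1 →
      ((l : ℕ) : ℚ) • ((p⁻¹ : P.Bˣ) : P.B) ∈ P.localOrder l := fun {p} hp => by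
    rw [coe_inv, smul_smul]
    refine P.smul_mem_localOrder_of_not_dvd_den l (not_dvd_den_of_nonneg l ?_)
      (P.star_mem_localOrder l hp.1)
    rw [padicValRat.mul (Nat.cast_ne_zero.mpr l.2.ne_zero) (inv_ne_zero (P.nrd_unit_pos p).ne'),
      padicValRat.inv, padicValRat.self l.2.one_lt]
    have := hp.2
    rw [vp] at this
    omega
  have main : ∀ {p : P.Bˣ}, p ∈ P.cell l 1 → ∀ (n t : ℤ),
      P.elem w = (n : ℚ) • (p : P.B) + (((l : ℕ) : ℤ) * t : ℤ) • (1 : P.B) →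
      p⁻¹ * k ∈ P.localUnits l := fun {p} hp n t e => by
    refine P.inv_mul_mem_localUnits hp hkc.2 (w := (c : ℚ)⁻¹ • (((n : ℤ) • (1 : P.B)) +
      t • (((l : ℕ) : ℚ) • ((p⁻¹ : P.Bˣ) : P.B))))
      (P.smul_mem_localOrder_of_not_dvd_den l hq
        (add_mem (zsmul_mem (one_mem _) n) (zsmul_mem (hlmul hp) t))) ?_
    refine smul_right_injective P.B hc0 ?_
    simp only [← Int.cast_smul_eq_zsmul ℚ, mul_smul_comm, mul_add, mul_one, Units.mul_inv,
      smul_smul, mul_inv_cancel₀ hc0, one_smul]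
    rw [Nat.cast_smul_eq_nsmul ℚ, ← hw, e, ← Int.cast_smul_eq_zsmul ℚ, Int.cast_mul,
      Int.cast_natCast, mul_comm]
  rcases (Nat.prime_iff_prime_int.mp l.2).dvd_or_dvd hsplit with ⟨t, ht⟩ | ⟨t, ht⟩
  · refine Or.inl (main ρ.π_mem_cell (-(w 1)) t ?_)
    have ht' : ((w 0 : ℤ) : ℚ) + ρ.r * w 1 = ((l : ℕ) : ℚ) * t := by exact_mod_cast ht
    ext <;> simp [elem, π, w2, w3]; linear_combination ht'
  · refine Or.inr (main ρ.πbar_mem_cell (w 1) t ?_)
    have ht' : ((w 0 : ℤ) : ℚ) + (1 - ρ.r) * w 1 = ((l : ℕ) : ℚ) * t := by exact_mod_cast ht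
    ext <;> simp [elem, π, πbar, w2, w3]; linear_combination ht'

end SplitRoot

namespace Sub

variable {Λ : P.Sub} {hst : Λ.Stable} {F : Type*} [CommRing F] {ch : Seed.Chars (invol hst) F}

theorem translate_base {v : ℕ} (h0 : ch.x0.val l = QuotientGroup.mk 1) :
    (Λ.cellOp l v).translate (ch.x0.val l) = (Λ.cellOp l v).cosets := by
  rw [h0, LocOp.translate_mk]; simp

theorem smul_base (h0 : ch.x0.val l = QuotientGroup.mk 1) (k : P.Bˣ) :
    k • ch.x0.val l = QuotientGroup.mk k := by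
  rw [h0]; exact congrArg QuotientGroup.mk (mul_one k)

/-- The fixed cosets of norm `l` come from `K`. -/
theorem exists_of_fixed (hl : (l : ℕ) ≠ 2) (hD : ¬ ((l : ℕ) : ℤ) ∣ P.D)
    (he : ¬ ((l : ℕ) : ℤ) ∣ P.e) (hW : Λ.W l = P.localUnits l) {d : P.Bˣ ⧸ Λ.W l}
    (hd : d ∈ (Λ.cellOp l 1).cosets) (hfix : (invol hst).coset l d = d) :
    ∃ k ∈ P.fieldUnits, k ∈ P.cell l 1 ∧ QuotientGroup.mk k = d := by
  obtain ⟨g, rfl⟩ := QuotientGroup.mk_surjective d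
  have hg := mem_cellOp_iff.mp hd
  have hf : g⁻¹ * P.flipUnit g ∈ P.localUnits l := hW ▸ QuotientGroup.eq.mp hfix.symm
  obtain ⟨k, hk, hkc, hgk⟩ := P.exists_fieldUnits_of_fixed hl hD he hg hf
  exact ⟨k, hk, hkc, (QuotientGroup.eq.mpr (hW.symm ▸ hgk)).symm⟩

variable [DecidableEq Nat.Primes]

/-- **No fixed coset of norm `l` at an inert prime.** -/
theorem localT_inert (hl : (l : ℕ) ≠ 2) (hD : ¬ ((l : ℕ) : ℤ) ∣ P.D)
    (he : ¬ ((l : ℕ) : ℤ) ∣ P.e) (hW : Λ.W l = P.localUnits l)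
    (h0 : ch.x0.val l = QuotientGroup.mk 1) (hin : P.Inert l) (hV : l ∉ ch.V) :
    ch.Local l (Λ.cellOp l 1) ∅ := by
  refine ⟨hV, locStable_cellOp hst l 1, Λ.nodup_cellOp l 1, by simp, fun d => ⟨fun h => ?_, by simp⟩⟩
  rw [translate_base h0] at h
  obtain ⟨k, hk, hkc, -⟩ := exists_of_fixed hl hD he hW h.1 h.2
  have h2 := hin.even_vp P hk
  rw [hkc.2] at h2
  simp at h2

open Classical in
/-- **The two fixed cosets of norm `l` at a split prime.** -/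
theorem localT_split (hH : ch.H = P.fieldUnits) (hl : (l : ℕ) ≠ 2)
    (hD : ¬ ((l : ℕ) : ℤ) ∣ P.D) (he : ¬ ((l : ℕ) : ℤ) ∣ P.e) (hW : Λ.W l = P.localUnits l)
    (h0 : ch.x0.val l = QuotientGroup.mk 1) (ρ : P.SplitRoot l) (hV : l ∉ ch.V) :
    ch.Local l (Λ.cellOp l 1)
      {⟨ρ.π, hH ▸ ρ.π_mem⟩, ⟨ρ.πbar, hH ▸ ρ.πbar_mem⟩} := by
  refine ⟨hV, locStable_cellOp hst l 1, Λ.nodup_cellOp l 1, ?_, fun d => ⟨fun h => ?_, ?_⟩⟩
  · intro a ha b hb e
    simp only [Finset.coe_insert, Finset.coe_singleton, Set.mem_insert_iff,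
      Set.mem_singleton_iff] at ha hb
    simp only [smul_base h0] at e
    have e' : (a : P.Bˣ)⁻¹ * b ∈ P.localUnits l := by rw [← hW]; exact QuotientGroup.eq.mp e
    rcases ha with rfl | rfl <;> rcases hb with rfl | rfl
    · rfl
    · exact absurd (by simpa using inv_mem e') ρ.not_mem_localUnits
    · exact absurd e' ρ.not_mem_localUnits
    · rfl
  · rw [translate_base h0] at h
    obtain ⟨k, hk, hkc, rfl⟩ := exists_of_fixed hl hD he hW h.1 h.2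
    rcases ρ.mem_or hk hkc with h' | h'
    · exact ⟨_, Finset.mem_insert_self _ _,
        (smul_base h0 _).trans (QuotientGroup.eq.mpr (hW.ge h'))⟩
    · exact ⟨_, Finset.mem_insert_of_mem (Finset.mem_singleton_self _),
        (smul_base h0 _).trans (QuotientGroup.eq.mpr (hW.ge h'))⟩
  · rintro ⟨k, hk, rfl⟩
    rw [translate_base h0, smul_base h0]
    refine ⟨mem_cellOp_iff.mpr ?_, congrArg QuotientGroup.mk (ch.fixedH k k.2)⟩
    simp only [Finset.mem_insert, Finset.mem_singleton] at hk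
    rcases hk with rfl | rfl
    · exact ρ.π_mem_cell
    · exact ρ.πbar_mem_cell

end Sub

end Fermat.Agent.Two.Brandt.Param
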