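import Fermat.Agent.Two.Seed.Good
import Fermat.Agent.Two.Brandt.Short

/-!
# The orbit of `j`

Away from `2` and `e` the coset of `j` is that of an element of `K`.  At a special prime dividing
`e` it is the only coset of norm valuation one.
-/

set_option autoImplicit false

noncomputable section

namespace Fermat.Agent.Two.Brandt.Param

attribute [local instance] fact_prime

variable {P : Param} {p : Nat.Primes}

/-- Away from `e`, and from the common divisors of `M` and `D`, the coset of `j` comes from `K`. -/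
theorem exists_fieldUnits_jUnit (he : ¬ ((p : ℕ) : ℤ) ∣ P.e)
    (hMD : ((p : ℕ) : ℤ) ∣ P.M → ¬ ((p : ℕ) : ℤ) ∣ P.D) :
    ∃ k ∈ P.fieldUnits, k⁻¹ * P.jUnit ∈ P.localUnits p := by
  by_cases hM : ((p : ℕ) : ℤ) ∣ P.M
  · obtain ⟨J, hJu, hJf⟩ := P.exists_antiUnit (hMD hM) he
    refine ⟨P.jUnit * J⁻¹, ?_, by rwa [mul_inv_rev, inv_inv, inv_mul_cancel_right]⟩
    have eJ : P.flipUnit J = -J := Units.ext (by simpa using hJf)
    show P.flipUnit _ = _
    rw [map_mul, map_inv, P.flipUnit_jUnit, eJ, inv_neg, neg_mul_neg]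
  · exact ⟨1, one_mem _, by rw [inv_one, one_mul]; exact P.jUnit_mem_localUnits he hM⟩

/-- At a special prime `j` spans the elements of norm valuation one. -/
theorem inv_jUnit_mul_mem (hs : P.IsSpecial p) (hj : P.vp p P.jUnit = 1) {g : P.Bˣ}
    (hg : P.vp p g = 1) : P.jUnit⁻¹ * g ∈ P.localUnits p := by
  have e : P.vp p ((P.jUnit⁻¹ * g : P.Bˣ) : P.B) = 0 := by rw [vp_coe_mul, vp_inv, hj, hg]; rfl
  exact ⟨(mem_localOrder_iff hs).mpr e.ge, e⟩

end Fermat.Agent.Two.Brandt.Param
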