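import Fermat.Agent.Two.Class.SeedHom
import Fermat.Agent.Two.Eigen.Algebra
import Fermat.Agent.Two.Seed.GroupAlgebra
import Mathlib.FieldTheory.Finite.GaloisField
import Mathlib.GroupTheory.PGroup

/-!
# The shape of the global seed

The seed of an auxiliary curve takes values in the group algebra over the field of four elements of
the `2`-part of the class group times one sign for each auxiliary prime.
-/

set_option autoImplicit false

noncomputable section

namespace Fermat.Agent.Two.Seed

open Brandt Brandt.Param

/-- The field of four elements. -/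
abbrev F4 : Type := GaloisField 2 2

variable (W : WeierstrassCurve ℤ) (V : Finset ℕ)

/-- The `2`-part of the class group of `quadField W`. -/
abbrev clTwoGroup : Subgroup (ClassGroup (NumberField.RingOfIntegers (quadField W))) :=
  (powMonoidHom (classOdd W) :
    ClassGroup (NumberField.RingOfIntegers (quadField W)) →*
      ClassGroup (NumberField.RingOfIntegers (quadField W))).range

/-- The projection to the `2`-part. -/
def clProj : ClassGroup (NumberField.RingOfIntegers (quadField W)) →* clTwoGroup W :=
  MonoidHom.rangeRestrict _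

theorem clProj_surjective : Function.Surjective (clProj W) :=
  MonoidHom.rangeRestrict_surjective _

theorem clProj_eq_one_iff {x : ClassGroup (NumberField.RingOfIntegers (quadField W))} :
    clProj W x = 1 ↔ x ^ classOdd W = 1 :=
  Subtype.ext_iff

/-- The classes and the signs. -/
abbrev SeedGroup : Type := clTwoGroup W × (Eigen.AuxIdx V → Multiplicative (ZMod 2))

/-- The ring of values of the seed. -/
abbrev SeedRing : Type := MonoidAlgebra F4 (SeedGroup W V)

instance finite_auxIdx : Finite (Eigen.AuxIdx V) :=
  Finite.of_injective (fun v : Eigen.AuxIdx V => (⟨(v.1 : ℕ), v.2⟩ : (↑V : Set ℕ)))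
    fun _ _ h => Subtype.ext (Nat.Primes.coe_nat_injective
      (congrArg (fun x : (↑V : Set ℕ) => (x : ℕ)) h))

theorem isPGroup_seedGroup : IsPGroup 2 (SeedGroup W V) := by
  rintro ⟨⟨a, x, rfl⟩, s⟩
  refine ⟨padicValNat 2 (Nat.card (ClassGroup (NumberField.RingOfIntegers (quadField W)))) + 1,
    Prod.ext (Subtype.ext ?_) (funext fun v => ?_)⟩
  · show ((powMonoidHom (classOdd W) x) ^ _) = 1
    rw [powMonoidHom_apply, pow_succ, pow_mul,
      show (x ^ classOdd W) ^ 2 ^ padicValNat 2 (Nat.card
        (ClassGroup (NumberField.RingOfIntegers (quadField W)))) = 1 from ?_, one_pow]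
    rw [← pow_mul, mul_comm, show classOdd W =
      Nat.card (ClassGroup (NumberField.RingOfIntegers (quadField W))) / classTwo W from rfl,
      show 2 ^ padicValNat 2 (Nat.card (ClassGroup (NumberField.RingOfIntegers (quadField W)))) =
        classTwo W from rfl, Nat.mul_div_cancel' (show classTwo W ∣ _ from pow_padicValNat_dvd),
      pow_card_eq_one']
  · have h2 : ∀ y : Multiplicative (ZMod 2), y ^ 2 = 1 := fun y => by
      rw [← orderOf_dvd_iff_pow_eq_one]
      have := orderOf_dvd_natCard y
      simpa using this
    show s v ^ _ = 1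
    rw [pow_succ', pow_mul, h2, one_pow]

/-- The element of the class of an ideal class. -/
def classElt : ClassGroup (NumberField.RingOfIntegers (quadField W)) →* SeedRing W V :=
  (MonoidAlgebra.of F4 (SeedGroup W V)).comp ((MonoidHom.inl _ _).comp (clProj W))

variable {V} in
/-- The sign of an auxiliary prime. -/
def signElt (v : Eigen.AuxIdx V) : SeedRing W V := by
  classical
  exact MonoidAlgebra.of F4 (SeedGroup W V) (1, Pi.mulSingle v (Multiplicative.ofAdd 1))

variable {W V}

/-- **The seed with its values.** -/
def HasTheta (S : Setup W V) : Prop :=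
  ∃ θ : Eigen.hecke S →+* SeedRing W V,
    (∀ v : Eigen.AuxIdx V, θ (Eigen.gen S (Sum.inr v)) = signElt W v) ∧
    ∀ l : Eigen.GoodIdx W V,
      (¬ IsSquare (W.Δ : ZMod (l.1 : ℕ)) → θ (Eigen.gen S (Sum.inl l)) = 0) ∧
      ((2 : ℤ) ∣ W.apOfModel (l.1 : ℕ) → θ (Eigen.gen S (Sum.inl l)) = 0 ∨
        ∃ x, θ (Eigen.gen S (Sum.inl l)) = classElt W V x + classElt W V x⁻¹) ∧
      (IsSquare (W.Δ : ZMod (l.1 : ℕ)) → ¬ (2 : ℤ) ∣ W.apOfModel (l.1 : ℕ) →
        ∀ I : nonZeroDivisors (Ideal (NumberField.RingOfIntegers (quadField W))),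
          (I : Ideal (NumberField.RingOfIntegers (quadField W))).IsPrime →
          ((l.1 : ℕ) : NumberField.RingOfIntegers (quadField W)) ∈
            (I : Ideal (NumberField.RingOfIntegers (quadField W))) →
          ∃ c : F4, c * c + c + 1 = 0 ∧
            θ (Eigen.gen S (Sum.inl l)) = c • classElt W V (ClassGroup.mk0 I) +
              c⁻¹ • classElt W V (ClassGroup.mk0 I)⁻¹)

end Fermat.Agent.Two.Seed

end
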